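import Fermat.Agent.S55.G.DictGlob

/-!
# S55 / layer G0 : norms for a `ℤ/p`-torsor over a transitive `G`-set   (key `S55/G-CMP-b`, abstract half)

`T : CycTorsor p π π' u σ`, `π` transitive, `x₀ : Σ'`, `b` an invariant function on `Σ` with values in any `G`-module `A`.
`b` is of the form `push c`, `c` invariant on `Σ'`, iff either `Stab (u x₀) ≤ Stab x₀` (split case) or there are
`γ ∈ Stab (u x₀) \ Stab x₀` and `z ∈ A` fixed by `Stab x₀` with `∑_{k<p} γ^k z = b (u x₀)`.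
-/

set_option autoImplicit false

noncomputable section

namespace Fermat.Agent.S55.G

open T

/-- multiplication by `j` (prime to `p`) permutes the residues modulo `p` -/
theorem cmpb_sum_reindex {p : ℕ} (hp : p.Prime) {j : ℕ} (hj : ¬ p ∣ j) {M : Type*} [AddCommMonoid M]
    (f : ℕ → M) (hf : ∀ k, f (k % p) = f k) :
    ∑ k ∈ Finset.range p, f (j * k) = ∑ k ∈ Finset.range p, f k := by
  have hcop : Nat.gcd p j = 1 := (Nat.Prime.coprime_iff_not_dvd hp).2 hj
  have hmaps : Set.MapsTo (fun k => (j * k) % p) (Finset.range p : Set ℕ) (Finset.range p : Set ℕ) :=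
    fun k _ => Finset.mem_coe.2 (Finset.mem_range.2 (Nat.mod_lt _ hp.pos))
  have hinj : Set.InjOn (fun k => (j * k) % p) (Finset.range p : Set ℕ) := by
    intro a ha b hb hab
    have h1 : j * a ≡ j * b [MOD p] := hab
    have h2 : a ≡ b [MOD p] := Nat.ModEq.cancel_left_of_coprime hcop h1
    exact Nat.ModEq.eq_of_lt_of_lt h2 (Finset.mem_range.1 (Finset.mem_coe.1 ha))
      (Finset.mem_range.1 (Finset.mem_coe.1 hb))
  have hsurj := Finset.surjOn_of_injOn_of_card_le _ hmaps hinj le_rfl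
  calc ∑ k ∈ Finset.range p, f (j * k) = ∑ k ∈ Finset.range p, f ((j * k) % p) :=
        Finset.sum_congr rfl fun k _ => (hf _).symm
    _ = ∑ k ∈ Finset.range p, f k :=
        Finset.sum_nbij (fun k => (j * k) % p) hmaps hinj hsurj (fun _ _ => rfl)

theorem cmpb_exists_mul_mod {p : ℕ} (hp : p.Prime) {j : ℕ} (hj : ¬ p ∣ j) (k : ℕ) :
    ∃ m, (j * m) % p = k % p := by
  have hcop : Nat.Coprime j p := ((Nat.Prime.coprime_iff_not_dvd hp).2 hj).symm
  obtain ⟨m, -, hm⟩ := Nat.exists_mul_mod_eq_one_of_coprime hcop hp.one_lt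
  refine ⟨m * k, ?_⟩
  rw [← mul_assoc, Nat.mul_mod, hm, one_mul, Nat.mod_mod]

variable {G : Type*} [Group G] {S S' : Type*} {π : G →* Equiv.Perm S}
  {π' : G →* Equiv.Perm S'} {u : S' → S} {σ : Equiv.Perm S'} {p : ℕ}
  {A : Type*} [AddCommGroup A] {ρ : G →* AddMonoid.End A}

theorem cmpb_pow_mod (T : CycTorsor p π π' u σ) (k : ℕ) : σ ^ (k % p) = σ ^ k :=
  (pow_eq_pow_mod k T.pow).symm

theorem cmpb_pow_apply (T : CycTorsor p π π' u σ) {γ : G} {x₀ : S'} {j : ℕ}
    (h : π' γ x₀ = (σ ^ j) x₀) (k : ℕ) : π' (γ ^ k) x₀ = (σ ^ (j * k)) x₀ := by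
  induction k with
  | zero => simp
  | succ k ih =>
    rw [pow_succ', map_mul, Equiv.Perm.mul_apply, ih, ← sigma_pow_comm T, h,
      ← Equiv.Perm.mul_apply, ← pow_add, Nat.mul_succ]

/-- an element of `Stab (u x₀)` moves `x₀` by a power of `σ` -/
theorem cmpb_exists_pow (T : CycTorsor p π π' u σ) {γ : G} {x₀ : S'}
    (hγ : γ ∈ stab π (u x₀)) : ∃ j, π' γ x₀ = (σ ^ j) x₀ := by
  have h1 : u x₀ = u (π' γ x₀) := by rw [T.map, mem_stab.1 hγ]
  obtain ⟨j, hj⟩ := (T.fib _ _).1 h1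
  exact ⟨j, hj.symm⟩

theorem cmpb_not_dvd (T : CycTorsor p π π' u σ) {γ : G} {x₀ : S'} {j : ℕ}
    (h : π' γ x₀ = (σ ^ j) x₀) (hγ : γ ∉ stab π' x₀) : ¬ p ∣ j := by
  rintro ⟨m, rfl⟩
  apply hγ
  rw [mem_stab, h, pow_mul, T.pow, one_pow, Equiv.Perm.one_apply]

/-- non split case: `Σ'` is transitive -/
theorem cmpb_isTrans (hp : p.Prime) (T : CycTorsor p π π' u σ) (htr : IsTrans π) {γ : G} {x₀ : S'}
    (hγ : γ ∈ stab π (u x₀)) (hγ' : γ ∉ stab π' x₀) : IsTrans π' := by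
  have key : ∀ x, ∃ g, π' g x₀ = x := by
    intro x
    obtain ⟨g, hg⟩ := htr.2 (u x₀) (u x)
    have h1 : u (π' g x₀) = u x := by rw [T.map, hg]
    obtain ⟨k, hk⟩ := (T.fib _ _).1 h1
    obtain ⟨j, hj⟩ := cmpb_exists_pow T hγ
    obtain ⟨m, hm⟩ := cmpb_exists_mul_mod hp (cmpb_not_dvd T hj hγ') k
    refine ⟨g * γ ^ m, ?_⟩
    rw [map_mul, Equiv.Perm.mul_apply, cmpb_pow_apply T hj, ← cmpb_pow_mod T, hm, cmpb_pow_mod T,
      ← sigma_pow_comm T, hk]
  refine ⟨⟨x₀⟩, fun x y => ?_⟩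
  obtain ⟨g, rfl⟩ := key x
  obtain ⟨h, rfl⟩ := key y
  refine ⟨h * g⁻¹, ?_⟩
  rw [← Equiv.Perm.mul_apply, ← map_mul, inv_mul_cancel_right]

variable [Fintype S']

/-- the sum over a fibre in terms of a generator of the decomposition group of the fibre -/
theorem cmpb_push_eq (hp : p.Prime) (T : CycTorsor p π π' u σ) {γ : G} {x₀ : S'}
    (hγ : γ ∈ stab π (u x₀)) (hγ' : γ ∉ stab π' x₀) {c : S' → A} (hc : c ∈ H0 (Fn π' ρ)) :
    push A u c (u x₀) = ∑ k ∈ Finset.range p, ρ (γ ^ k) (c x₀) := by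
  obtain ⟨j, hj⟩ := cmpb_exists_pow T hγ
  rw [T.push_apply, ← cmpb_sum_reindex hp (cmpb_not_dvd T hj hγ') (fun k => c ((σ ^ k) x₀))
    (fun k => by rw [cmpb_pow_mod T])]
  exact Finset.sum_congr rfl fun k _ => by rw [← cmpb_pow_apply T hj, H0_apply hc]

/-- **norms for a `ℤ/p`-torsor over a transitive set** -/
theorem cmpb_exists_push_iff (hp : p.Prime) (T : CycTorsor p π π' u σ) (htr : IsTrans π) (x₀ : S')
    {b : S → A} (hb : b ∈ H0 (Fn π ρ)) :
    (∃ c ∈ H0 (Fn π' ρ), push A u c = b) ↔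
      stab π (u x₀) ≤ stab π' x₀ ∨ ∃ γ ∈ stab π (u x₀), γ ∉ stab π' x₀ ∧
        ∃ z : A, (∀ h ∈ stab π' x₀, ρ h z = z) ∧
          ∑ k ∈ Finset.range p, ρ (γ ^ k) z = b (u x₀) := by
  classical
  constructor
  · rintro ⟨c, hc, rfl⟩
    by_cases hle : stab π (u x₀) ≤ stab π' x₀
    · exact Or.inl hle
    · obtain ⟨γ, hγ, hγ'⟩ := SetLike.not_le_iff_exists.1 hle
      exact Or.inr ⟨γ, hγ, hγ', c x₀, fun h hh => H0_fixed hc x₀ h hh,
        (cmpb_push_eq hp T hγ hγ' hc).symm⟩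
  · rintro (hle | ⟨γ, hγ, hγ', z, hz, hsum⟩)
    · -- split case
      refine ⟨fun x => if ∃ g, π' g x₀ = x then b (u x) else 0, ?_, ?_⟩
      · rw [mem_H0_Fn_iff]
        intro g x
        by_cases hx : ∃ h, π' h x₀ = x
        · have hx' : ∃ h, π' h x₀ = π' g x := by
            obtain ⟨h, rfl⟩ := hx
            exact ⟨g * h, by rw [map_mul, Equiv.Perm.mul_apply]⟩
          simp only [if_pos hx, if_pos hx']
          rw [T.map, H0_apply hb]
        · have hx' : ¬ ∃ h, π' h x₀ = π' g x := by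
            rintro ⟨h, hh⟩
            refine hx ⟨g⁻¹ * h, ?_⟩
            rw [map_mul, Equiv.Perm.mul_apply, hh, ← Equiv.Perm.mul_apply, ← map_mul,
              inv_mul_cancel, map_one, Equiv.Perm.one_apply]
          simp only [if_neg hx, if_neg hx', map_zero]
      · ext s
        obtain ⟨g, rfl⟩ := htr.2 (u x₀) s
        rw [Fermat.Agent.S55.push_apply, Finset.sum_eq_single (π' g x₀)]
        · rw [if_pos ⟨g, rfl⟩, T.map]
        · intro x hx hne
          simp only [Finset.mem_filter, Finset.mem_univ, true_and] at hx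
          rw [if_neg]
          rintro ⟨h, rfl⟩
          apply hne
          rw [T.map] at hx
          have h1 : g⁻¹ * h ∈ stab π (u x₀) := inv_mul_mem_stab.2 hx.symm
          exact (inv_mul_mem_stab.1 (hle h1)).symm
        · intro h
          exact absurd (by simpa using T.map g x₀) h
    · -- non split case
      have htr' := cmpb_isTrans hp T htr hγ hγ'
      have hc := fnOf_mem_H0 ρ htr' x₀ hz
      refine ⟨fnOf ρ htr' x₀ z, hc, ?_⟩
      have hpush : push A u (fnOf ρ htr' x₀ z) ∈ H0 (Fn π ρ) := fun g => by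
        rw [← isHom_push ρ T.map g, hc g]
      refine H0_ext htr (u x₀) hpush hb ?_
      rw [cmpb_push_eq hp T hγ hγ' hc, ← hsum]
      have h1 : fnOf ρ htr' x₀ z x₀ = z := by
        have := fnOf_apply ρ htr' x₀ hz 1
        rwa [map_one, map_one, Equiv.Perm.one_apply, AddMonoid.End.coe_one, id] at this
      rw [h1]

end Fermat.Agent.S55.G
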