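import Fermat.Agent.S55.G.Pre
import Fermat.Agent.S55.B.Defs
import Fermat.Agent.S55.D.ULevel
import Fermat.Agent.S55.G.LocNormAux
import Fermat.Agent.S55.B.Basic

/-!
# S55 / layer G0 : local norms.  From cohomology (`θ`, `κ`, components) to fields

`IsLocNorm p Γ H' y` (`Γ, H' ≤ GQ`; in the applications `Γ = D ⊓ H`, `D` a decomposition group, `H' ◁ H` of index `p`):
`y` is a norm from `Fx (Γ ⊓ H')` to `Fx Γ`.

## key S55/G-CMP-a : `cmp_eq_zero_iff_exists`   (cohomological half; only naturality of `κ`, `θ`)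
Notation: `r = (Dq v).subtype`, `π_v = π.comp r`, `ω = orbMk π_v (u s')`, `ι : OrbT π_v ω → Σ`, `T_v = T.comp r`, `T_ω = T_v.baseChange (isSetMap_orb π_v ω)`
(torsor `FibProd ι u → OrbT π_v ω`).  `K_v = (kumData_Q p).comp r = kumData_D p v`.
`κ_ω (cmp (res x)) = κ_ω (ι^* res x) = ι^* κ_v (res x)` (`kap_pull`) `= ι^* res (κ x)` (`kap_res`) `= ι^* res (θ b) = ι^* θ_v (res0 b)` (`theta_res`)
`= θ_ω (ι^* res0 b)` (`theta_pull` with `T_v.baseChange_map`).  `κ_ω` is injective (`kap_injective`, `galAct_D v`), `θ_ω c = 0 ↔ c` is a norm (`theta_eq_zero_iff`).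

## key S55/G-CMP-b : `exists_norm_iff_isLocNorm`   (combinatorial half; no cohomology)
`D` any subgroup of `GQ`, `π_D = π.comp D.subtype`...  `b` a `D`-equivariant function on the orbit `O` of `s = u s'`.
(⟹) `c` equivariant on `FibProd ι u` with `push c = b|O`.  If `D ⊓ stab π s ≤ stab π' s'`: left alternative.  Otherwise take `γ ∈ D ⊓ stab π s`, `γ s' ≠ s'`;
`γ s' = σ^j s'` (`T.fib`), `p ∤ j` (`T.free`/`T.pow`), `γ^k s' = σ^(jk) s'` (`T.comm`), `z := c (s, s')` is fixed by `D ⊓ stab π s ⊓ stab π' s'`;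
`b s = ∏_{k<p} c (s, σ^k s')` (`CycTorsor.push_apply`) `= ∏_{k<p} c (s, σ^(jk) s')` (`k ↦ jk` is a bijection mod `p`, `σ^p = 1`) `= ∏_k γ^k z = Nm γ p z`.
(⟸) split case: `c (t, t') := b t` if `t' ∈ D`-orbit of `s'`, `1` otherwise; exactly one point of each fibre lies in that orbit.
Non split case: `D` is transitive on `FibProd`; `c (d s, d s') := d z` (well defined as `z` is fixed by the stabiliser).

## key S55/G-CONJ : `isLocNorm_conj`, `isLocNorm_place`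
-/

set_option autoImplicit false

noncomputable section

namespace Fermat.Agent.S55.G

open T ExtCitation Pointwise

instance instFintypeFibProd {S S₁ S' : Type*} [Finite S₁] [Finite S'] (v : S₁ → S) (u : S' → S) :
    Fintype (FibProd v u) := Fintype.ofFinite _

/-- `y` is a norm from `Fx (Γ ⊓ H')` to `Fx Γ` -/
def IsLocNorm (p : ℕ) (Γ H' : Subgroup GQ) (y : Qb) : Prop :=
  Γ ≤ H' ∨ ∃ γ ∈ Γ, γ ∉ H' ∧ ∃ z ∈ B.Fx (Γ ⊓ H'), B.Nm γ p z = y

/-- the value of an element of `H⁰(Fn π 𝔾_m)` at a point -/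
def val0 {G : Type*} [Group G] {Sg : Type*} {π : G →* Equiv.Perm Sg}
    {ρ : G →* AddMonoid.End (Additive Qbˣ)} (b : ↥(H0 (Fn π ρ))) (s : Sg) : Qb :=
  (((b.1 s).toMul : Qbˣ) : Qb)

variable {p : ℕ} [Fact p.Prime] {Sg Sg' : Type} [Fintype Sg] [Fintype Sg']
  {π : GQ →* Equiv.Perm Sg} {π' : GQ →* Equiv.Perm Sg'} {u : Sg' → Sg} {σ : Equiv.Perm Sg'}

/-- [S55/G-CMP-a] -/
theorem cmp_eq_zero_iff_exists (T : CycTorsor p π π' u σ) (hπ : SmoothSet π lvlQ)
    (hπ' : SmoothSet π' lvlQ) (x : H2 lvlQ (Fn π (rhoChi (cycloChar p))))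
    (b : ↥(H0 (Fn π (gm alQ))))
    (hx : (kumData_Q p).kap π lvlQ x = T.theta (gm alQ) galAct_Q.smooth_gm hπ' b)
    (v : Nat.Primes) (ω : Orb (pv Dq π v)) :
    cmp lvlQ Dq π (rhoChi (cycloChar p)) v ω
        (res2 lvlQ (Fn π (rhoChi (cycloChar p))) (Dq v).subtype x) = 0 ↔
      ∃ c : ↥(H0 (Fn (fibPerm (isSetMap_orb (pv Dq π v) ω) (T.comp (Dq v).subtype).map)
          ((gm alQ).comp (Dq v).subtype))),
        H0c (isHom_push ((gm alQ).comp (Dq v).subtype)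
          ((T.comp (Dq v).subtype).baseChange (isSetMap_orb (pv Dq π v) ω)).map) c =
        H0c (isHom_pull ((gm alQ).comp (Dq v).subtype) (isSetMap_orb (pv Dq π v) ω))
          (res0 (Fn π (gm alQ)) (Dq v).subtype b) := by
  have Kv := (kumData_Q p).comp (Dq v).subtype
  have hι := isSetMap_orb (pv Dq π v) ω
  have Tv := T.comp (Dq v).subtype
  have hsm : SmoothSet (orbAct (pv Dq π v) ω) (lvlD v) :=
    smoothSet_orbAct _ (hπ.comap (Dq v).subtype) ω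
  have hsm' : SmoothSet (fibPerm hι Tv.map) (lvlD v) :=
    smoothSet_fibPerm hι Tv.map hsm (hπ'.comap (Dq v).subtype)
  have e1 := Kv.kap_pull (𝓛 := lvlD v) hι
    (res2 lvlQ (Fn π (rhoChi (cycloChar p))) (Dq v).subtype x)
  have e2 := (kumData_Q p).kap_res (𝓛 := lvlQ) π (Dq v).subtype x
  have e3 := T.theta_res (gm alQ) galAct_Q.smooth_gm hπ' (Dq v).subtype b
  have e4 := Tv.theta_pull (𝓛 := lvlD v) (Tv.baseChange hι) Tv.baseChange_map hι
    (isSetMap_fibProd_snd hι Tv.map) ((gm alQ).comp (Dq v).subtype) (galAct_D v).smooth_gm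
    (hπ'.comap (Dq v).subtype) hsm' (res0 (Fn π (gm alQ)) (Dq v).subtype b)
  rw [hx] at e2
  have key : Kv.kap (orbAct (pv Dq π v) ω) (lvlD v)
      (cmp lvlQ Dq π (rhoChi (cycloChar p)) v ω
        (res2 lvlQ (Fn π (rhoChi (cycloChar p))) (Dq v).subtype x)) =
      (Tv.baseChange hι).theta ((gm alQ).comp (Dq v).subtype) (galAct_D v).smooth_gm hsm'
        (H0c (isHom_pull _ hι) (res0 (Fn π (gm alQ)) (Dq v).subtype b)) := by
    refine e1.symm.trans ?_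
    refine Eq.trans ?_ e4
    congr 1
    exact e2.symm.trans e3
  have h5 := (Tv.baseChange hι).theta_eq_zero_iff (galAct_D v) hsm'
    (H0c (isHom_pull _ hι) (res0 (Fn π (gm alQ)) (Dq v).subtype b))
  have h6 := map_eq_zero_iff _ (Kv.kap_injective _ (galAct_D v) hsm)
    (x := cmp lvlQ Dq π (rhoChi (cycloChar p)) v ω
        (res2 lvlQ (Fn π (rhoChi (cycloChar p))) (Dq v).subtype x))
  rw [key] at h6
  exact h6.symm.trans h5

/-- the additive norm in `Additive Qbˣ` is the norm `B.Nm` -/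
theorem cmpb_coe_sum (D : Subgroup GQ) (γ : ↥D) (z : Additive Qbˣ) (n : ℕ) :
    (((∑ k ∈ Finset.range n, ((gm alQ).comp D.subtype) (γ ^ k) z).toMul : Qbˣ) : Qb) =
      B.Nm (γ : GQ) n ((z.toMul : Qbˣ) : Qb) := by
  rw [toMul_sum, Units.coe_prod, B.Nm]
  rfl

/-- [S55/G-CMP-b] -/
theorem exists_norm_iff_isLocNorm (T : CycTorsor p π π' u σ) (b : ↥(H0 (Fn π (gm alQ))))
    (v : Nat.Primes) (s' : Sg') :
    (∃ c : ↥(H0 (Fn (fibPerm (isSetMap_orb (pv Dq π v) (orbMk _ (u s')))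
          (T.comp (Dq v).subtype).map) ((gm alQ).comp (Dq v).subtype))),
        H0c (isHom_push ((gm alQ).comp (Dq v).subtype)
          ((T.comp (Dq v).subtype).baseChange (isSetMap_orb (pv Dq π v) (orbMk _ (u s')))).map) c =
        H0c (isHom_pull ((gm alQ).comp (Dq v).subtype) (isSetMap_orb (pv Dq π v) (orbMk _ (u s'))))
          (res0 (Fn π (gm alQ)) (Dq v).subtype b)) ↔
      IsLocNorm p (Dq v ⊓ stab π (u s')) (stab π' s') (val0 b (u s')) := by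
  have hp : p.Prime := Fact.out
  have hι := isSetMap_orb (pv Dq π v) (orbMk _ (u s'))
  have Tv := T.comp (Dq v).subtype
  have Tω := Tv.baseChange hι
  let t₀ : OrbT (pv Dq π v) (orbMk _ (u s')) := ⟨u s', rfl⟩
  let x₀ : FibProd (Fib.val (c := orbMk (pv Dq π v)) (j := orbMk _ (u s'))) u := ⟨(t₀, s'), rfl⟩
  have hb₁ := (H0c (isHom_pull ((gm alQ).comp (Dq v).subtype) hι)
          (res0 (Fn π (gm alQ)) (Dq v).subtype b)).2
  have key := cmpb_exists_push_iff (ρ := (gm alQ).comp (Dq v).subtype) hp Tω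
    (isTrans_orbAct _ _) x₀ hb₁
  have m1 : ∀ d : ↥(Dq v), d ∈ stab (orbAct (pv Dq π v) (orbMk _ (u s'))) t₀ ↔
      (d : GQ) ∈ stab π (u s') := fun d => by
    rw [mem_stab, mem_stab]
    exact Subtype.ext_iff
  have m2 : ∀ d : ↥(Dq v), d ∈ stab (fibPerm hι Tv.map) x₀ ↔ (d : GQ) ∈ stab π' s' := fun d => by
    rw [mem_stab, mem_stab]
    constructor
    · intro h
      exact congrArg (fun x => x.1.2) h
    · intro h
      refine Subtype.ext (Prod.ext (Subtype.ext ?_) h)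
      show π d (u s') = u s'
      rw [← T.map, h]
  have e1 : (∃ c : ↥(H0 (Fn (fibPerm hι Tv.map) ((gm alQ).comp (Dq v).subtype))),
        H0c (isHom_push ((gm alQ).comp (Dq v).subtype) Tω.map) c =
        H0c (isHom_pull ((gm alQ).comp (Dq v).subtype) hι)
          (res0 (Fn π (gm alQ)) (Dq v).subtype b)) ↔
      ∃ c ∈ H0 (Fn (fibPerm hι Tv.map) ((gm alQ).comp (Dq v).subtype)),
        push _ (fun x : FibProd (Fib.val (c := orbMk (pv Dq π v)) (j := orbMk _ (u s'))) u => x.1.1) c =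
        (H0c (isHom_pull ((gm alQ).comp (Dq v).subtype) hι)
          (res0 (Fn π (gm alQ)) (Dq v).subtype b)).1 := by
    constructor
    · rintro ⟨c, hc⟩
      exact ⟨c.1, c.2, congrArg Subtype.val hc⟩
    · rintro ⟨c, hc, h⟩
      exact ⟨⟨c, hc⟩, Subtype.ext h⟩
  refine e1.trans (key.trans ?_)
  refine or_congr ?_ ?_
  · constructor
    · intro h g hg
      exact (m2 ⟨g, hg.1⟩).1 (h ((m1 ⟨g, hg.1⟩).2 hg.2))
    · intro h d hd
      exact (m2 d).2 (h ⟨d.2, (m1 d).1 hd⟩)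
  · constructor
    · rintro ⟨γ, hγ, hγ', z, hz, hsum⟩
      refine ⟨γ, ⟨γ.2, (m1 γ).1 hγ⟩, fun h => hγ' ((m2 γ).2 h), ((z.toMul : Qbˣ) : Qb), ?_, ?_⟩
      · rw [B.mem_Fx]
        intro g hg
        have h1 := hz ⟨g, hg.1.1⟩ ((m2 ⟨g, hg.1.1⟩).2 hg.2)
        exact congrArg (fun y : Additive Qbˣ => ((y.toMul : Qbˣ) : Qb)) h1
      · rw [← cmpb_coe_sum (Dq v) γ z p, hsum]
        rfl
    · rintro ⟨γ, hγ, hγ', z, hz, hN⟩
      have hy : val0 b (u s') ≠ 0 := Units.ne_zero _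
      have hz0 : z ≠ 0 := by
        rintro rfl
        rw [(B.Nm_eq_zero_iff γ hp.pos).2 rfl] at hN
        exact hy hN.symm
      refine ⟨⟨γ, hγ.1⟩, (m1 ⟨γ, hγ.1⟩).2 hγ.2, fun h => hγ' ((m2 ⟨γ, hγ.1⟩).1 h),
        Additive.ofMul (Units.mk0 z hz0), ?_, ?_⟩
      · intro h hh
        apply Additive.toMul.injective
        apply Units.ext
        have h2 : (h : GQ) ∈ stab π (u s') := by
          have := (m2 h).1 hh
          rw [mem_stab] at this ⊢
          rw [← T.map, this]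
        exact B.mem_Fx.1 hz h ⟨⟨h.2, h2⟩, (m2 h).1 hh⟩
      · apply Additive.toMul.injective
        apply Units.ext
        rw [cmpb_coe_sum (Dq v) ⟨γ, hγ.1⟩ _ p]
        exact hN

/-- **the component of `res_v x` at the orbit of `u s'` vanishes iff `b (u s')` is a local norm** -/
theorem cmp_eq_zero_iff (T : CycTorsor p π π' u σ) (hπ : SmoothSet π lvlQ)
    (hπ' : SmoothSet π' lvlQ) (x : H2 lvlQ (Fn π (rhoChi (cycloChar p))))
    (b : ↥(H0 (Fn π (gm alQ))))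
    (hx : (kumData_Q p).kap π lvlQ x = T.theta (gm alQ) galAct_Q.smooth_gm hπ' b)
    (v : Nat.Primes) (s' : Sg') :
    cmp lvlQ Dq π (rhoChi (cycloChar p)) v (orbMk _ (u s'))
        (res2 lvlQ (Fn π (rhoChi (cycloChar p))) (Dq v).subtype x) = 0 ↔
      IsLocNorm p (Dq v ⊓ stab π (u s')) (stab π' s') (val0 b (u s')) :=
  (cmp_eq_zero_iff_exists T hπ hπ' x b hx v _).trans (exists_norm_iff_isLocNorm T b v s')

theorem conj_isLocNorm_aux (p : ℕ) (Γ H' Γ₁ H₁' : Subgroup GQ) (g : GQ) (y : Qb)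
    (hΓ : ∀ h, h ∈ Γ₁ ↔ g⁻¹ * h * g ∈ Γ) (hH : ∀ h, h ∈ H₁' ↔ g⁻¹ * h * g ∈ H')
    (h : IsLocNorm p Γ H' y) : IsLocNorm p Γ₁ H₁' (g y) := by
  have e : ∀ γ : GQ, g⁻¹ * (g * γ * g⁻¹) * g = γ := fun γ => by group
  rcases h with h | ⟨γ, hγ, hγ', z, hz, hN⟩
  · exact Or.inl fun x hx => (hH x).2 (h ((hΓ x).1 hx))
  · refine Or.inr ⟨g * γ * g⁻¹, (hΓ _).2 (by rwa [e]), fun hc => hγ' (by
      have := (hH _).1 hc
      rwa [e] at this), g z, ?_, ?_⟩
    · rw [B.mem_Fx]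
      intro x hx
      have h1 := B.mem_Fx.1 hz (g⁻¹ * x * g) ⟨(hΓ x).1 hx.1, (hH x).1 hx.2⟩
      rw [AlgEquiv.mul_apply, AlgEquiv.mul_apply] at h1
      have h2 := congrArg g h1
      rwa [B.apply_inv_apply] at h2
    · rw [← hN, B.Nm, B.Nm, map_prod]
      refine Finset.prod_congr rfl fun k _ => ?_
      rw [conj_pow, AlgEquiv.mul_apply, AlgEquiv.mul_apply, B.inv_apply_apply]

/-- [S55/G-CONJ] conjugation -/
theorem isLocNorm_conj (p : ℕ) (Γ H' Γ₁ H₁' : Subgroup GQ) (g : GQ) (y : Qb)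
    (hΓ : ∀ h, h ∈ Γ₁ ↔ g⁻¹ * h * g ∈ Γ) (hH : ∀ h, h ∈ H₁' ↔ g⁻¹ * h * g ∈ H') :
    IsLocNorm p Γ₁ H₁' (g y) ↔ IsLocNorm p Γ H' y := by
  refine ⟨fun h => ?_, conj_isLocNorm_aux p Γ H' Γ₁ H₁' g y hΓ hH⟩
  have e : ∀ γ : GQ, g⁻¹ * (g⁻¹⁻¹ * γ * g⁻¹) * g = γ := fun γ => by group
  have := conj_isLocNorm_aux p Γ₁ H₁' Γ H' g⁻¹ (g y) (fun x => by rw [hΓ, e])
    (fun x => by rw [hH, e]) h
  rwa [B.inv_apply_apply] at this

theorem conj_mem_decomp_aux (A : ValuationSubring Qb) (g h : GQ) :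
    h ∈ A.decompositionSubgroup ℚ ↔ g⁻¹ * h * g ∈ (g⁻¹ • A).decompositionSubgroup ℚ := by
  rw [ValuationSubring.decompositionSubgroup, ValuationSubring.decompositionSubgroup,
    MulAction.mem_stabilizer_iff, MulAction.mem_stabilizer_iff, mul_smul, smul_inv_smul, mul_smul,
    smul_left_cancel_iff]

/-- [S55/G-CONJ] local norms at the point `π g s₀` for `Dq v` = local norms at `s₀` for the place `g⁻¹ • A_v` -/
theorem isLocNorm_place (b : ↥(H0 (Fn π (gm alQ)))) (hu : IsSetMap π π' u) (v : Nat.Primes)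
    (g : GQ) (s₀' : Sg') :
    IsLocNorm p (Dq v ⊓ stab π (u (π' g s₀'))) (stab π' (π' g s₀')) (val0 b (u (π' g s₀'))) ↔
      IsLocNorm p ((g⁻¹ • primeLocalPlace v).decompositionSubgroup ℚ ⊓ stab π (u s₀'))
        (stab π' s₀') (val0 b (u s₀')) := by
  have e : val0 b (u (π' g s₀')) = g (val0 b (u s₀')) := by
    rw [val0, hu, H0_apply b.2]
    rfl
  rw [e]
  refine isLocNorm_conj p _ _ _ _ g _ (fun h => ?_) (fun h => mem_stab_apply)
  rw [Subgroup.mem_inf, Subgroup.mem_inf, hu, mem_stab_apply]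
  exact and_congr (conj_mem_decomp_aux _ g h) Iff.rfl

end Fermat.Agent.S55.G
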