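import Fermat.Agent.S55.G.DictGlob
import Fermat.Agent.S55.G.LocNorm
import Fermat.Agent.S14.BridgePlaces
import Fermat.Agent.S55.B.LocNorm

/-!
# S55 / layer G0-loc : the INTERFACE between the number field statements of layer C (`C.Nloc`, `Pl F`)
and the subgroup statements (`IsLocNorm`, decomposition groups of valuation subrings of `ℚ̄`)

These are exactly the statements consumed by `G/CycBeta.lean`.  `F = fld π (u s')`, `Z = ZZ T.map s'` (`G/DictGlob.lean`),
`A` a valuation subring of `ℚ̄`, `w` the place of `F` below `A` (`S14.Br.Over F.val A w`), `D_A = A.decompositionSubgroup ℚ`.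

## key S55/G0-loc-a : `hlow_ZZ`        (= LOW; `B.exists_not_norm` through the dictionary)
## key S55/G0-loc-b : `mem_Nloc_iff_isLocNorm`
`Γ = D_A ⊓ stab π (u s')` is the decomposition group of `A` in `G_F`, `E = Fx Γ` is the henselisation of `F` at `w`, `F` is dense in `E`.
(⟹) `N(Zˣ)`: `x = N_{Z/F} z = ∏_{k<p} γ^k z` if `γ ∈ Γ \ stab π' s'` (then `γ` generates `Gal(Z/F)`), and `z ∈ Z ⊆ Fx (Γ ⊓ stab π' s')`; if there is no such `γ` : left alternative.
`Fˣᵖ`: `c^p = Nm γ p c` for `c ∈ F`.  `U_w^(2e+1)`: `p`-th powers in `E` (`B.Root.exists_root`), hence norms.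
(⟸) if `Γ ≤ stab π' s'` then `w` splits in `Z` and `C.K1_split`.  Otherwise `Nm γ p z = x`; approximate `z` by `z₁ ∈ Z` (density): `x / N z₁ ∈ F ∩ U_E^(2e+1) = U_w^(2e+1)`.
## key S55/G-PLC-a : `exists_over_of_liesOver`   (`w := {x ∈ 𝓞 F | x ∈ A.nonunits}`; prime, non zero since it contains `l`)
## key S55/G-PLC-b : `exists_smul_of_over`
`Algebra.IsInvariant.exists_smul_of_under_eq_of_profinite` for `G = F.fixingSubgroup` (closed subgroup of `GQ`) acting on `Zbar`, base ring = the fixed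
subring (`= 𝓞 F` by `InfiniteGalois.fixedField_fixingSubgroup`); as in `D.exists_smul_eq` (`D/ULevel.lean`: `le_of_primeOf_eq`, `primeOf_smul`).
-/

set_option autoImplicit false

noncomputable section

namespace Fermat.Agent.S55.G

open T ExtCitation Pointwise Fermat.Agent.S14

variable {p : ℕ} [Fact p.Prime] {Sg Sg' : Type} [Fintype Sg] [Fintype Sg']
  {π : GQ →* Equiv.Perm Sg} {π' : GQ →* Equiv.Perm Sg'} {u : Sg' → Sg} {σ : Equiv.Perm Sg'}

/-- [S55/G0-loc-a] -/
theorem hlow_ZZ (hp : p ≠ 2) (T : CycTorsor p π π' u σ) (hπ : SmoothSet π lvlQ)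
    (hπ' : SmoothSet π' lvlQ) (htr' : IsTrans π') (hst : StabIn p (cycloChar p) π) (s' : Sg')
    [NumberField (fld π (u s'))] [NumberField (ZZ T.map s')]
    (v : Pl (fld π (u s'))) (_hv : ¬ Tame p v) (hr : ¬ IsUnram (ZZ T.map s') v) :
    C.Nloc p (ZZ T.map s') v ≠ ⊤ := by
  have := isGalois_ZZ T hπ s'
  exact B.hlow (finrank_ZZ T hπ hπ' htr' s') v hr

/-- [S55/G0-loc-b] -/
theorem mem_Nloc_iff_isLocNorm (hp : p ≠ 2) (T : CycTorsor p π π' u σ) (hπ : SmoothSet π lvlQ)
    (hπ' : SmoothSet π' lvlQ) (htr' : IsTrans π') (hst : StabIn p (cycloChar p) π) (s' : Sg')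
    [NumberField (fld π (u s'))] [NumberField (ZZ T.map s')]
    (A : ValuationSubring Qb) (w : Pl (fld π (u s'))) (hA : Br.Over (fld π (u s')).val A w)
    (x : (fld π (u s'))ˣ) :
    x ∈ C.Nloc p (ZZ T.map s') w ↔
      IsLocNorm p (A.decompositionSubgroup ℚ ⊓ stab π (u s')) (stab π' s')
        ((x : fld π (u s')) : Qb) := by
  have := isGalois_ZZ T hπ s'
  obtain ⟨ζ, hζ, -⟩ := exists_zeta p (u s') (hst (u s')) hπ
  obtain ⟨l, hl, hAl, -⟩ := hA.exists_prime
  obtain ⟨g, rfl⟩ := D.exists_conj_place (q := ⟨l, hl⟩) hAl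
  let j : fld π (u s') →ₐ[ℚ] Qb := (g⁻¹ : GQ).toAlgHom.comp (fld π (u s')).val
  let jZ : ZZ T.map s' →ₐ[ℚ] Qb :=
    RingHom.toRatAlgHom (((g⁻¹ : GQ) : Qb →+* Qb).comp (ZZ T.map s').val.toRingHom)
  have hj : ∀ y : fld π (u s'), jZ (algebraMap (fld π (u s')) (ZZ T.map s') y) = j y := fun _ => rfl
  have hgg : ∀ y : Qb, g ((g⁻¹ : GQ) y) = y := fun y => g.apply_symm_apply y
  have hgg' : ∀ y : Qb, (g⁻¹ : GQ) (g y) = y := fun y => g.symm_apply_apply y
  have hv : Br.Over j (primeLocalPlace ⟨l, hl⟩) w := by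
    intro y
    rw [hA y, ← E.smul_mem_nonunits_iff (primeLocalPlace ⟨l, hl⟩) g (j (y : fld π (u s')))]
    change _ ↔ g ((g⁻¹ : GQ) _) ∈ _
    rw [hgg]
    rfl
  rw [B.loc_norm hp hζ hj (finrank_ZZ T hπ hπ' htr' s') hv x,
    ← isLocNorm_conj p (B.HH ⟨l, hl⟩ j) jZ.fieldRange.fixingSubgroup
      ((g • primeLocalPlace ⟨l, hl⟩).decompositionSubgroup ℚ ⊓ stab π (u s')) (stab π' s') g
      (j x) ?_ ?_]
  · change IsLocNorm p _ _ (g ((g⁻¹ : GQ) _)) ↔ _
    rw [hgg]
    rfl
  · intro h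
    rw [Subgroup.mem_inf, B.HH, Subgroup.mem_inf, ← fixingSubgroup_fld hπ (u s'),
      IntermediateField.mem_fixingSubgroup_iff, IntermediateField.mem_fixingSubgroup_iff]
    refine and_congr ⟨fun h1 => ?_, fun h1 => ?_⟩ ⟨fun h1 => ?_, fun h1 => ?_⟩
    · have := E.conj_mem_decomposition_smul h1 g⁻¹
      rwa [inv_smul_smul, inv_inv] at this
    · have := E.conj_mem_decomposition_smul (A := primeLocalPlace ⟨l, hl⟩) h1 g
      have h2 : g * (g⁻¹ * h * g) * g⁻¹ = h := by group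
      rwa [h2] at this
    · rintro _ ⟨y, rfl⟩
      change (g⁻¹ : GQ) (h (g ((g⁻¹ : GQ) (y : Qb)))) = (g⁻¹ : GQ) (y : Qb)
      rw [hgg, h1 _ y.2]
    · intro y hy
      have h2 := h1 (j ⟨y, hy⟩) ⟨⟨y, hy⟩, rfl⟩
      change (g⁻¹ : GQ) (h (g ((g⁻¹ : GQ) y))) = (g⁻¹ : GQ) y at h2
      rw [hgg] at h2
      exact (g⁻¹ : GQ).injective h2
  · intro h
    rw [← fixingSubgroup_fld hπ' s',
      IntermediateField.mem_fixingSubgroup_iff, IntermediateField.mem_fixingSubgroup_iff]
    refine ⟨fun h1 => ?_, fun h1 => ?_⟩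
    · rintro _ ⟨y, rfl⟩
      change (g⁻¹ : GQ) (h (g ((g⁻¹ : GQ) (y : Qb)))) = (g⁻¹ : GQ) (y : Qb)
      rw [hgg, h1 _ y.2]
    · intro y hy
      have h2 := h1 (jZ ⟨y, hy⟩) ⟨⟨y, hy⟩, rfl⟩
      change (g⁻¹ : GQ) (h (g ((g⁻¹ : GQ) y))) = (g⁻¹ : GQ) y at h2
      rw [hgg] at h2
      exact (g⁻¹ : GQ).injective h2

local notation "Zbar" => integralClosure ℤ (AlgebraicClosure ℚ)

/-- integers of a subfield, as elements of `Zbar` -/
def toZbar (F : IntermediateField ℚ Qb) [NumberField F] : NumberField.RingOfIntegers F →+* Zbar where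
  toFun x := ⟨((x : F) : Qb), (NumberField.RingOfIntegers.isIntegral_coe x).map F.val.toRingHom.toIntAlgHom⟩
  map_one' := rfl
  map_mul' _ _ := rfl
  map_zero' := rfl
  map_add' _ _ := rfl

theorem coe_toZbar (F : IntermediateField ℚ Qb) [NumberField F] (x : NumberField.RingOfIntegers F) :
    ((toZbar F x : Zbar) : Qb) = ((x : F) : Qb) := rfl

/-- [S55/G-PLC-a] -/
theorem exists_over_of_liesOver (F : IntermediateField ℚ Qb) [NumberField F]
    (A : ValuationSubring Qb) (l : ℕ) (hl : l.Prime) (hA : A.LiesOverPrime l) :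
    ∃ w : Pl F, Br.Over F.val A w := by
  have hP := Frob.primeOf_isPrime A
  refine ⟨⟨(Frob.primeOf A).comap (toZbar F), Ideal.comap_isPrime _ _, ?_⟩, fun x => Iff.rfl⟩
  intro hbot
  have h1 : (l : NumberField.RingOfIntegers F) ∈ (Frob.primeOf A).comap (toZbar F) := by
    rw [Ideal.mem_comap, Frob.mem_primeOf, map_natCast]
    simpa [ValuationSubring.LiesOverPrime] using hA
  rw [hbot, Ideal.mem_bot] at h1
  exact hl.ne_zero (by exact_mod_cast h1)

/-- `Zbar` as an algebra over the integers of a subfield -/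
@[reducible] def algZbar (F : IntermediateField ℚ Qb) [NumberField F] :
    Algebra (NumberField.RingOfIntegers F) Zbar := (toZbar F).toAlgebra

attribute [local instance] algZbar

theorem smulCommClass_Zbar (F : IntermediateField ℚ Qb) [NumberField F] :
    SMulCommClass ↥F.fixingSubgroup (NumberField.RingOfIntegers F) Zbar := by
  refine ⟨fun g a b => ?_⟩
  apply Subtype.ext
  change (g : GQ) (((a : F) : Qb) * (b : Qb)) = ((a : F) : Qb) * (g : GQ) (b : Qb)
  rw [map_mul, (IntermediateField.mem_fixingSubgroup_iff F g).1 g.2 _ (a : F).2]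

theorem isInvariant_Zbar (F : IntermediateField ℚ Qb) [NumberField F] :
    Algebra.IsInvariant (NumberField.RingOfIntegers F) Zbar ↥F.fixingSubgroup := by
  have := Frob.isGaloisQbar
  refine ⟨fun b hb => ?_⟩
  have h1 : (b : Qb) ∈ F := by
    rw [← InfiniteGalois.fixedField_fixingSubgroup F, IntermediateField.mem_fixedField_iff]
    intro g hg
    exact congrArg Subtype.val (hb ⟨g, hg⟩)
  have h2 : IsIntegral ℤ (⟨b, h1⟩ : F) := by
    have : IsIntegral ℤ (F.val ⟨b, h1⟩) := b.2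
    exact (isIntegral_algHom_iff F.val.toRingHom.toIntAlgHom F.val.injective).mp this
  exact ⟨⟨⟨b, h1⟩, h2⟩, Subtype.ext rfl⟩

theorem exists_smul_primeOf (F : IntermediateField ℚ Qb) [NumberField F]
    (A A' : ValuationSubring Qb)
    (h : ∀ x : NumberField.RingOfIntegers F, ((x : F) : Qb) ∈ A.nonunits ↔ ((x : F) : Qb) ∈ A'.nonunits) :
    ∃ g ∈ F.fixingSubgroup, Frob.primeOf A' = g • Frob.primeOf A := by
  have := Frob.isGaloisQbar
  have := Frob.isAlgebraicQbar
  have hP := Frob.primeOf_isPrime A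
  have hQ := Frob.primeOf_isPrime A'
  let _ : TopologicalSpace Zbar := ⊥
  have : DiscreteTopology Zbar := ⟨rfl⟩
  have := Frob.continuousSMul_Zbar
  have hcl : IsClosed (F.fixingSubgroup : Set GQ) := F.fixingSubgroup_isClosed
  have : CompactSpace ↥F.fixingSubgroup := isCompact_iff_compactSpace.mp hcl.isCompact
  have := smulCommClass_Zbar F
  have := isInvariant_Zbar F
  have hPQ : (Frob.primeOf A).under (NumberField.RingOfIntegers F) =
      (Frob.primeOf A').under (NumberField.RingOfIntegers F) := by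
    ext x
    rw [Ideal.under_def, Ideal.under_def, Ideal.mem_comap, Ideal.mem_comap, Frob.mem_primeOf,
      Frob.mem_primeOf]
    exact h x
  obtain ⟨g, hg⟩ := Algebra.IsInvariant.exists_smul_of_under_eq_of_profinite
    (A := NumberField.RingOfIntegers F) (G := ↥F.fixingSubgroup)
    (Frob.primeOf A) (Frob.primeOf A') hPQ
  exact ⟨g, g.2, hg⟩

/-- [S55/G-PLC-b] -/
theorem exists_smul_of_over (F : IntermediateField ℚ Qb) [NumberField F]
    (A A' : ValuationSubring Qb) (w : Pl F) (h : Br.Over F.val A w) (h' : Br.Over F.val A' w) :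
    ∃ g ∈ F.fixingSubgroup, g • A = A' := by
  obtain ⟨l, hl, hAl, hlw⟩ := h.exists_prime
  have hAl' : A'.LiesOverPrime l := by
    have := (h' (l : NumberField.RingOfIntegers F)).mp hlw
    simpa [ValuationSubring.LiesOverPrime] using this
  obtain ⟨g, hgF, hg⟩ := exists_smul_primeOf F A A' (fun x => (h x).symm.trans (h' x))
  refine ⟨g, hgF, ?_⟩
  have h1 : Frob.primeOf (g • A) = Frob.primeOf A' := by
    rw [D.primeOf_smul, hg]
  exact le_antisymm (D.le_of_primeOf_eq hl (E.liesOverPrime_smul hAl g) h1)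
    (D.le_of_primeOf_eq hl hAl' h1.symm)

end Fermat.Agent.S55.G
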