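import Fermat.Agent.S55.G.Basic

/-!
# S55 / layer G : constructions of `G`-sets; decomposition of `H²(Fn π ρ)` along a partition   (key S55/G-ORB)

* `Fib c j`, `fibAct π c hc j` : the fibres of a `G`-invariant function `c : Σ → J`;
* `Orb π`, `orbAct π ω` : the orbits, as transitive `G`-sets;
* `prodPerm π π₂`, `ptPerm G`;
* `H2_eq_sum_fib` : `x = ∑_j (ι_j)_* (ι_j)^* x`,  `H2_eq_zero_of_fib`;
* `eps_eq_sum_fib` : `eps_* x = ∑_j eps_* (ι_j)^* x`;
* `push_pull_of_card` : `u_* u^* = d` if all fibres of `u` have `d` elements.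

## proofs (all are finite sum manipulations + `G/Basic.lean`)
`sum_push_pull_fib`: evaluate at `s`: `push (val) (pull (val) f) s = ∑_{t : Fib c j, t.1 = s} f t.1 = if c s = j then f s else 0`.
`H2_eq_sum_fib`: `H2c_sum`, `H2c_comp'`, `H2c_id`, `H2c_congr` with `sum_push_pull_fib`.
-/

set_option autoImplicit false

noncomputable section

namespace Fermat.Agent.S55.G

variable {G : Type*} [Group G] {Sg Sg' Sg₂ J : Type*}

/-! ### stabilisers -/

/-- the stabiliser of a point -/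
def stab (π : G →* Equiv.Perm Sg) (s : Sg) : Subgroup G where
  carrier := {g | π g s = s}
  one_mem' := by simp
  mul_mem' := fun {a b} ha hb => by
    simp only [Set.mem_ofPred_eq] at ha hb ⊢
    rw [map_mul, Equiv.Perm.mul_apply, hb, ha]
  inv_mem' := fun {a} ha => by
    simp only [Set.mem_ofPred_eq] at ha ⊢
    rw [map_inv, Equiv.Perm.inv_eq_iff_eq]
    exact ha.symm

theorem mem_stab {π : G →* Equiv.Perm Sg} {s : Sg} {g : G} : g ∈ stab π s ↔ π g s = s := Iff.rfl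

theorem isOpen_stab {𝓛 : Lvl G} {π : G →* Equiv.Perm Sg} (h : SmoothSet π 𝓛) (s : Sg) :
    𝓛.IsOpen (stab π s) := by
  obtain ⟨U, hU, hu⟩ := h
  exact ⟨U, hU, fun u hu' => by rw [mem_stab, hu u hu']; rfl⟩

theorem mem_stab_apply {π : G →* Equiv.Perm Sg} {s : Sg} {g h : G} :
    h ∈ stab π (π g s) ↔ g⁻¹ * h * g ∈ stab π s := by
  rw [mem_stab, mem_stab, map_mul, map_mul, Equiv.Perm.mul_apply, Equiv.Perm.mul_apply, map_inv,
    Equiv.Perm.inv_eq_iff_eq]

/-! ### fibres of an invariant function -/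

/-- the fibre of `c` over `j` -/
def Fib (c : Sg → J) (j : J) : Type _ := {s : Sg // c s = j}

instance (c : Sg → J) (j : J) [Finite Sg] : Finite (Fib c j) := Subtype.finite

instance (c : Sg → J) (j : J) [Fintype Sg] : Fintype (Fib c j) := Fintype.ofFinite _

/-- the inclusion of a fibre -/
def Fib.val {c : Sg → J} {j : J} (s : Fib c j) : Sg := Subtype.val s

/-- the action of `G` on the fibre of an invariant function -/
def fibAct (π : G →* Equiv.Perm Sg) (c : Sg → J) (hc : ∀ g s, c (π g s) = c s) (j : J) :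
    G →* Equiv.Perm (Fib c j) where
  toFun g :=
    { toFun := fun s => ⟨π g s.1, (hc g s.1).trans s.2⟩
      invFun := fun s => ⟨(π g)⁻¹ s.1, by
        have h := hc g ((π g)⁻¹ s.1)
        have h1 : (π g) ((π g)⁻¹ s.1) = s.1 := by simp
        rw [h1] at h
        exact h.symm.trans s.2⟩
      left_inv := fun s => Subtype.ext (by simp)
      right_inv := fun s => Subtype.ext (by simp) }
  map_one' := by
    ext s
    simp
  map_mul' g h := by
    ext s
    simp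

variable (π : G →* Equiv.Perm Sg) (c : Sg → J) (hc : ∀ g s, c (π g s) = c s)

theorem isSetMap_fib (j : J) : IsSetMap π (fibAct π c hc j) (Fib.val (c := c) (j := j)) :=
  fun _ _ => rfl

theorem smoothSet_fibAct {𝓛 : Lvl G} (h : SmoothSet π 𝓛) (j : J) :
    SmoothSet (fibAct π c hc j) 𝓛 := by
  obtain ⟨U, hU, hu⟩ := h
  refine ⟨U, hU, fun u hu' => ?_⟩
  ext s
  apply Subtype.ext
  change π u s.1 = s.1
  rw [hu u hu']; rfl

/-! ### orbits -/

/-- the orbit equivalence relation -/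
def orbSetoid : Setoid Sg where
  r s t := ∃ g, π g s = t
  iseqv :=
    ⟨fun s => ⟨1, by simp⟩,
     fun {s t} ⟨g, h⟩ => ⟨g⁻¹, by rw [← h, map_inv]; simp⟩,
     fun {s t r} ⟨g, h⟩ ⟨g', h'⟩ => ⟨g' * g, by rw [map_mul, Equiv.Perm.mul_apply, h, h']⟩⟩

/-- the set of orbits -/
def Orb : Type _ := Quotient (orbSetoid π)

/-- the orbit of a point -/
def orbMk (s : Sg) : Orb π := Quotient.mk (orbSetoid π) s

instance [Finite Sg] : Finite (Orb π) := Quotient.finite _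

instance [Fintype Sg] : Fintype (Orb π) := Fintype.ofFinite _

theorem orbMk_eq_iff {s t : Sg} : orbMk π s = orbMk π t ↔ ∃ g, π g s = t :=
  Quotient.eq (r := orbSetoid π)

theorem orbMk_surjective : Function.Surjective (orbMk π) := Quotient.mk_surjective

theorem orbMk_apply (g : G) (s : Sg) : orbMk π (π g s) = orbMk π s :=
  ((orbMk_eq_iff π).2 ⟨g, rfl⟩).symm

/-- an orbit, as a type -/
abbrev OrbT (ω : Orb π) : Type _ := Fib (orbMk π) ω

/-- the action on an orbit -/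
def orbAct (ω : Orb π) : G →* Equiv.Perm (OrbT π ω) := fibAct π (orbMk π) (orbMk_apply π) ω

theorem isSetMap_orb (ω : Orb π) : IsSetMap π (orbAct π ω) (Fib.val (c := orbMk π) (j := ω)) :=
  fun _ _ => rfl

theorem isTrans_orbAct (ω : Orb π) : IsTrans (orbAct π ω) := by
  obtain ⟨s, rfl⟩ := orbMk_surjective π ω
  refine ⟨⟨⟨s, rfl⟩⟩, fun a b => ?_⟩
  obtain ⟨g, hg⟩ := (orbMk_eq_iff π).1 (a.2.trans b.2.symm)
  exact ⟨g, Subtype.ext hg⟩

theorem smoothSet_orbAct {𝓛 : Lvl G} (h : SmoothSet π 𝓛) (ω : Orb π) : SmoothSet (orbAct π ω) 𝓛 :=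
  smoothSet_fibAct π _ _ h ω

/-! ### products, the point -/

/-- the product of two `G`-sets -/
def prodPerm (π₂ : G →* Equiv.Perm Sg₂) : G →* Equiv.Perm (Sg × Sg₂) where
  toFun g := Equiv.prodCongr (π g) (π₂ g)
  map_one' := by
    ext x <;> simp
  map_mul' g h := by
    ext x <;> simp

@[simp] theorem prodPerm_apply (π₂ : G →* Equiv.Perm Sg₂) (g : G) (x : Sg × Sg₂) :
    prodPerm π π₂ g x = (π g x.1, π₂ g x.2) := rfl

theorem isSetMap_fst (π₂ : G →* Equiv.Perm Sg₂) :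
    IsSetMap π (prodPerm π π₂) (Prod.fst : Sg × Sg₂ → Sg) := fun _ _ => rfl

theorem isSetMap_snd (π₂ : G →* Equiv.Perm Sg₂) :
    IsSetMap π₂ (prodPerm π π₂) (Prod.snd : Sg × Sg₂ → Sg₂) := fun _ _ => rfl

theorem smoothSet_prodPerm {𝓛 : Lvl G} {π₂ : G →* Equiv.Perm Sg₂} (h : SmoothSet π 𝓛)
    (h₂ : SmoothSet π₂ 𝓛) : SmoothSet (prodPerm π π₂) 𝓛 := by
  obtain ⟨U, hU, hu⟩ := h
  obtain ⟨V, hV, hv⟩ := h₂
  obtain ⟨W, hW, hWU⟩ := 𝓛.inter U hU V hV
  refine ⟨W, hW, fun u hu' => ?_⟩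
  ext x
  · rw [prodPerm_apply, hu u (hWU hu').1]; rfl
  · rw [prodPerm_apply, hv u (hWU hu').2]; rfl

/-- the one point `G`-set -/
def ptPerm (G : Type*) [Group G] : G →* Equiv.Perm Unit := 1

theorem isTrans_ptPerm : IsTrans (ptPerm G) := ⟨⟨()⟩, fun _ _ => ⟨1, rfl⟩⟩

theorem smoothSet_ptPerm (𝓛 : Lvl G) : SmoothSet (ptPerm G) 𝓛 := by
  obtain ⟨U, hU⟩ := 𝓛.nonempty
  exact ⟨U, hU, fun _ _ => rfl⟩

theorem isSetMap_pt : IsSetMap (ptPerm G) π (fun _ : Sg => ()) := fun _ _ => rfl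

/-- the coset space of an open subgroup is a smooth `G`-set -/
theorem smoothSet_cosetPerm {𝓛 : Lvl G} {R : Subgroup G} (hR : 𝓛.IsOpen R) :
    SmoothSet (cosetPerm R) 𝓛 := by
  obtain ⟨V, hV, hVR⟩ := hR
  obtain ⟨W, hW, hWV, hn⟩ := 𝓛.normal V hV
  refine ⟨W, hW, fun u hu => ?_⟩
  ext x
  induction x using QuotientGroup.induction_on with
  | H g =>
    change ((u * g : G) : G ⧸ R) = (g : G ⧸ R)
    rw [eq_comm, QuotientGroup.eq]
    have : g⁻¹ * (u * g) = g⁻¹ * u * g⁻¹⁻¹ := by group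
    rw [this]
    exact hVR (hWV (hn.conj_mem u hu g⁻¹))

theorem isTrans_cosetPerm (R : Subgroup G) : IsTrans (cosetPerm R) := by
  refine ⟨⟨((1 : G) : G ⧸ R)⟩, fun a b => ?_⟩
  induction a using QuotientGroup.induction_on with
  | H g =>
    induction b using QuotientGroup.induction_on with
    | H g' => exact ⟨g' * g⁻¹, by
        change ((g' * g⁻¹ * g : G) : G ⧸ R) = _
        simp⟩

theorem finite_quotient_of_isOpen {𝓛 : Lvl G} {R : Subgroup G} (hR : 𝓛.IsOpen R) :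
    Finite (G ⧸ R) := by
  obtain ⟨V, hV, hVR⟩ := hR
  have := 𝓛.fin V hV
  have : R.FiniteIndex := Subgroup.finiteIndex_of_le hVR
  exact Subgroup.finite_quotient_of_finiteIndex

/-! ### key S55/G-ORB : decomposition along a partition -/

variable {A : Type*} [AddCommGroup A] (ρ : G →* AddMonoid.End A) (𝓛 : Lvl G)

/-- constructor of `Fib` -/
def Fib.mk {c : Sg → J} {j : J} (s : Sg) (h : c s = j) : Fib c j := ⟨s, h⟩

theorem Fib.val_mk {c : Sg → J} {j : J} (s : Sg) (h : c s = j) : (Fib.mk s h : Fib c j).val = s := rfl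

theorem Fib.prop {c : Sg → J} {j : J} (t : Fib c j) : c t.val = j := Subtype.property t

theorem Fib.ext' {c : Sg → J} {j : J} {t t' : Fib c j} (h : t.val = t'.val) : t = t' := Subtype.ext h

theorem Fib.mk_val {c : Sg → J} {j : J} (t : Fib c j) (h : c t.val = j) : Fib.mk t.val h = t := rfl

open Classical in
theorem push_fib_apply [Fintype Sg] (j : J) (y : Fib c j → A) (s : Sg) :
    push A (Fib.val (c := c) (j := j)) y s = if h : c s = j then y (Fib.mk s h) else 0 := by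
  rw [push_apply]
  split_ifs with h
  · rw [Finset.sum_eq_single (Fib.mk s h : Fib c j)]
    · intro t ht hne
      rw [Finset.mem_filter] at ht
      exact absurd (Fib.ext' ht.2) hne
    · intro hn
      refine absurd ?_ hn
      rw [Finset.mem_filter]
      exact ⟨Finset.mem_univ _, Fib.val_mk s h⟩
  · refine Finset.sum_eq_zero fun t ht => ?_
    rw [Finset.mem_filter] at ht
    exact absurd ((congrArg c ht.2).symm.trans t.prop) h

theorem eps_push_apply [Fintype Sg] [Fintype Sg'] (u : Sg' → Sg) (f : Sg' → A) :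
    eps Sg A (push A u f) = eps Sg' A f := by
  classical
  rw [eps_apply, eps_apply]
  simp only [push_apply]
  exact Finset.sum_fiberwise Finset.univ u f

theorem sum_push_pull_fib [Fintype Sg] [Fintype J] (f : Sg → A) :
    ∑ j : J, push A (Fib.val (c := c) (j := j)) (pull A (Fib.val (c := c) (j := j)) f) = f := by
  classical
  ext s
  rw [Finset.sum_apply]
  simp only [push_fib_apply, pull_apply]
  rw [Finset.sum_eq_single (c s)]
  · rw [dif_pos rfl]; rfl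
  · intro j _ hj
    rw [dif_neg (Ne.symm hj)]
  · intro h; exact absurd (Finset.mem_univ _) h

theorem H2_eq_sum_fib [Fintype Sg] [Fintype J] (x : H2 𝓛 (Fn π ρ)) :
    x = ∑ j : J, H2c 𝓛 (isHom_push ρ (isSetMap_fib π c hc j))
      (H2c 𝓛 (isHom_pull ρ (isSetMap_fib π c hc j)) x) := by
  simp only [H2c_comp]
  rw [← H2c_sum 𝓛 Finset.univ
    (fun j => isHom_comp (isHom_pull ρ (isSetMap_fib π c hc j)) (isHom_push ρ (isSetMap_fib π c hc j)))]
  refine ((H2c_id 𝓛 isHom_id x).symm.trans (H2c_congr 𝓛 ?_ _ _ x))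
  ext1 f
  rw [AddMonoidHom.id_apply, AddMonoidHom.finsetSum_apply]
  exact (sum_push_pull_fib c f).symm

theorem H2_eq_zero_of_fib [Fintype Sg] [Fintype J] (x : H2 𝓛 (Fn π ρ))
    (h : ∀ j : J, H2c 𝓛 (isHom_pull ρ (isSetMap_fib π c hc j)) x = 0) : x = 0 := by
  rw [H2_eq_sum_fib π c hc ρ 𝓛 x]
  exact Finset.sum_eq_zero fun j _ => by rw [h j, map_zero]

theorem eps_eq_sum_fib [Fintype Sg] [Fintype J] (x : H2 𝓛 (Fn π ρ)) :
    H2c 𝓛 (isHom_eps π ρ) x = ∑ j : J, H2c 𝓛 (isHom_eps (fibAct π c hc j) ρ)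
      (H2c 𝓛 (isHom_pull ρ (isSetMap_fib π c hc j)) x) := by
  conv_lhs => rw [H2_eq_sum_fib π c hc ρ 𝓛 x, map_sum]
  refine Finset.sum_congr rfl fun j _ => ?_
  exact H2c_comp' 𝓛 _ _ _ (fun f => eps_push_apply _ f) _

/-- `(ι_j)^* (ι_k)_* = δ_{jk}` -/
theorem pull_push_fib_self [Fintype Sg] (j : J) (y : H2 𝓛 (Fn (fibAct π c hc j) ρ)) :
    H2c 𝓛 (isHom_pull ρ (isSetMap_fib π c hc j)) (H2c 𝓛 (isHom_push ρ (isSetMap_fib π c hc j)) y)
      = y := by
  refine (H2c_comp' 𝓛 _ _ isHom_id (fun f => ?_) y).trans (H2c_id 𝓛 _ y)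
  ext t
  rw [pull_apply, push_fib_apply, AddMonoidHom.id_apply, dif_pos t.prop, Fib.mk_val]

theorem pull_push_fib_ne [Fintype Sg] {j k : J} (hjk : j ≠ k)
    (y : H2 𝓛 (Fn (fibAct π c hc k) ρ)) :
    H2c 𝓛 (isHom_pull ρ (isSetMap_fib π c hc j)) (H2c 𝓛 (isHom_push ρ (isSetMap_fib π c hc k)) y)
      = 0 := by
  refine (H2c_comp' 𝓛 _ _ isHom_zero (fun f => ?_) y).trans (H2c_zero 𝓛 _ y)
  ext t
  rw [pull_apply, push_fib_apply, dif_neg (fun h => hjk (t.prop.symm.trans h))]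
  rfl

variable {π} {π' : G →* Equiv.Perm Sg'}

theorem push_pull_apply_of_card [Fintype Sg'] (u : Sg' → Sg) (d : ℕ)
    (hd : ∀ s, Nat.card {s' // u s' = s} = d) (f : Sg → A) :
    push A u (pull A u f) = (d • AddMonoidHom.id (Sg → A)) f := by
  classical
  ext s
  rw [push_apply, AddMonoidHom.nsmul_apply, AddMonoidHom.id_apply, Pi.smul_apply, ← hd s,
    Nat.card_eq_fintype_card, Fintype.card_subtype, ← Finset.sum_const]
  refine Finset.sum_congr rfl fun t ht => ?_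
  rw [Finset.mem_filter] at ht
  rw [pull_apply, ht.2]

/-- `u_* u^* = d` if all fibres of `u` have `d` elements -/
theorem push_pull_of_card [Fintype Sg'] {u : Sg' → Sg} (hu : IsSetMap π π' u) (d : ℕ)
    (hd : ∀ s, Nat.card {s' // u s' = s} = d) (x : H2 𝓛 (Fn π ρ)) :
    H2c 𝓛 (isHom_push ρ hu) (H2c 𝓛 (isHom_pull ρ hu) x) = d • x := by
  rw [H2c_comp' 𝓛 _ _ (isHom_nsmul d isHom_id) (push_pull_apply_of_card u d hd) x,
    H2c_nsmul 𝓛 d isHom_id, H2c_id]

/-- same for `H¹` -/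
theorem push_pull_of_card₁ [Fintype Sg'] {u : Sg' → Sg} (hu : IsSetMap π π' u) (d : ℕ)
    (hd : ∀ s, Nat.card {s' // u s' = s} = d) (x : H1 𝓛 (Fn π ρ)) :
    H1c 𝓛 (isHom_push ρ hu) (H1c 𝓛 (isHom_pull ρ hu) x) = d • x := by
  rw [H1c_comp' 𝓛 _ _ (isHom_nsmul d isHom_id) (push_pull_apply_of_card u d hd) x,
    H1c_nsmul 𝓛 d isHom_id, H1c_id]

/-- `eps ∘ u_* = eps` -/
theorem eps_push [Fintype Sg] [Fintype Sg'] {u : Sg' → Sg} (hu : IsSetMap π π' u)
    (x : H2 𝓛 (Fn π' ρ)) :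
    H2c 𝓛 (isHom_eps π ρ) (H2c 𝓛 (isHom_push ρ hu) x) = H2c 𝓛 (isHom_eps π' ρ) x :=
  H2c_comp' 𝓛 _ _ _ (fun f => eps_push_apply u f) x

/-- functoriality of `pull` -/
theorem pull_pull {Sg'' : Type*} {π'' : G →* Equiv.Perm Sg''} {u : Sg' → Sg} {w : Sg'' → Sg'}
    {uw : Sg'' → Sg} (hu : IsSetMap π π' u) (hw : IsSetMap π' π'' w) (huw : IsSetMap π π'' uw)
    (h : ∀ s, u (w s) = uw s) (x : H2 𝓛 (Fn π ρ)) :
    H2c 𝓛 (isHom_pull ρ hw) (H2c 𝓛 (isHom_pull ρ hu) x) = H2c 𝓛 (isHom_pull ρ huw) x :=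
  H2c_comp' 𝓛 _ _ _ (fun f => funext fun s => by simp [h s]) x

/-- `pull` along the identity -/
theorem pull_id {u : Sg → Sg} (hu : IsSetMap π π u) (h : ∀ s, u s = s) (x : H2 𝓛 (Fn π ρ)) :
    H2c 𝓛 (isHom_pull ρ hu) x = x :=
  (H2c_congr 𝓛 (AddMonoidHom.ext fun f => funext fun s => by simp [h s]) _ isHom_id x).trans
    (H2c_id 𝓛 _ x)

/-- the point: `eta`, `eps` are inverse isomorphisms `H²(ρ) ≅ H²(Fn pt ρ)` -/
theorem eps_eta_pt (x : H2 𝓛 ρ) :
    H2c 𝓛 (isHom_eps (ptPerm G) ρ) (H2c 𝓛 (isHom_eta (ptPerm G) ρ) x) = x :=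
  (H2c_comp' 𝓛 _ _ isHom_id (fun a => by simp) x).trans (H2c_id 𝓛 _ x)

theorem eta_eps_pt (x : H2 𝓛 (Fn (ptPerm G) ρ)) :
    H2c 𝓛 (isHom_eta (ptPerm G) ρ) (H2c 𝓛 (isHom_eps (ptPerm G) ρ) x) = x :=
  (H2c_comp' 𝓛 _ _ isHom_id (fun f => funext fun s => by simp) x).trans (H2c_id 𝓛 _ x)

end Fermat.Agent.S55.G
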