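import Fermat.Agent.S55.G.Sets

/-!
# S55 / layer G : the reduced list of arithmetic statements from which the `Datum` follows formally

`(G, 𝓛, χ, D)` abstract.  `T = rhoChi χ`.
* `LBC`   : (B7) for transitive `D v`-sets `π`: `#H²(D v, Fn π T) = p` and `eps_*` is injective;
* `Cyc`   : cyclic step of the Hasse principle (both `G`-sets transitive, stabilisers in `ker χ`);
* `Alpha` : no class in `H²(G, Fn pt T)` has exactly one non zero localisation;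
* `Beta`  : for two different places of a transitive `π` (stabilisers in `ker χ`) there is a class with non zero localisation, supported at these places;
* `FinAll`, `Sha1All'` : the fields `fin`, `sha1` of `Datum`.
A *place* of `π` is a pair `(v, ω)`, `ω` an orbit of `D v` on `Σ`; `cmp π ρ v ω` is the component at `(v, ω)` of a class in `H²(D v, Fn π ρ)`.
-/

set_option autoImplicit false

noncomputable section

namespace Fermat.Agent.S55.G

variable (p : ℕ) [Fact p.Prime] {G : Type} [Group G] (𝓛 : Lvl G) (χ : G →* (ZMod p)ˣ)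
  {Q : Type} (D : Q → Subgroup G)

/-- restriction of a `G`-set to `D v` -/
abbrev pv {Sg : Type*} (π : G →* Equiv.Perm Sg) (v : Q) : ↥(D v) →* Equiv.Perm Sg :=
  π.comp (D v).subtype

/-- the places of a `G`-set -/
abbrev Plc {Sg : Type*} (π : G →* Equiv.Perm Sg) : Type _ := Σ v : Q, Orb (pv D π v)

/-- the component at `(v, ω)` of a local class -/
def cmp {Sg : Type*} (π : G →* Equiv.Perm Sg) {A : Type*} [AddCommGroup A]
    (ρ : G →* AddMonoid.End A) (v : Q) (ω : Orb (pv D π v)) :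
    H2 (lv 𝓛 D v) (rv D (Fn π ρ) v) →+ H2 (lv 𝓛 D v) (Fn (orbAct (pv D π v) ω) (rv D ρ v)) :=
  H2c (lv 𝓛 D v) (isHom_pull (rv D ρ v) (isSetMap_orb (pv D π v) ω))

/-- the stabilisers are contained in `ker χ` ("`ζ_p ∈ F`") -/
def StabIn {Sg : Type*} (π : G →* Equiv.Perm Sg) : Prop := ∀ s g, π g s = s → χ g = 1

variable {p 𝓛 χ} in
/-- locally trivial classes -/
def LocTriv {Sg : Type*} {π : G →* Equiv.Perm Sg} (x : H2 𝓛 (Fn π (rhoChi χ))) : Prop :=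
  ∀ v, res2 𝓛 (Fn π (rhoChi χ)) (D v).subtype x = 0

/-- (B7) -/
def LBC : Prop :=
  ∀ (v : Q) {Sg : Type} [Fintype Sg] (π : ↥(D v) →* Equiv.Perm Sg),
    SmoothSet π (lv 𝓛 D v) → IsTrans π →
    Nat.card (H2 (lv 𝓛 D v) (Fn π (rv D (rhoChi χ) v))) = p ∧
      Function.Injective (H2c (lv 𝓛 D v) (isHom_eps π (rv D (rhoChi χ) v)))

/-- the cyclic step of the Hasse principle -/
def Cyc : Prop :=
  ∀ {Sg Sg' : Type} [Fintype Sg] [Fintype Sg'] (π : G →* Equiv.Perm Sg)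
    (π' : G →* Equiv.Perm Sg') (u : Sg' → Sg) (σ : Equiv.Perm Sg') (T : T.CycTorsor p π π' u σ),
    SmoothSet π 𝓛 → SmoothSet π' 𝓛 → IsTrans π → IsTrans π' → StabIn p χ π →
    ∀ y : H2 𝓛 (Fn π (rhoChi χ)), H2c 𝓛 (isHom_pull (rhoChi χ) T.map) y = 0 → LocTriv D y → y = 0

/-- the Hasse principle for all finite smooth `G`-sets -/
def HasseAll : Prop :=
  ∀ {Sg : Type} [Fintype Sg] (π : G →* Equiv.Perm Sg), SmoothSet π 𝓛 →
    ∀ x : H2 𝓛 (Fn π (rhoChi χ)), LocTriv D x → x = 0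

/-- (α) -/
def Alpha : Prop :=
  ∀ (x : H2 𝓛 (Fn (ptPerm G) (rhoChi χ))) (q : Q),
    (∀ v, v ≠ q → res2 𝓛 (Fn (ptPerm G) (rhoChi χ)) (D v).subtype x = 0) →
    res2 𝓛 (Fn (ptPerm G) (rhoChi χ)) (D q).subtype x = 0

/-- (β) -/
def Beta : Prop :=
  ∀ {Sg : Type} [Fintype Sg] (π : G →* Equiv.Perm Sg), SmoothSet π 𝓛 → IsTrans π → StabIn p χ π →
    ∀ P₁ P₂ : Plc D π, P₁ ≠ P₂ →
    ∃ x : H2 𝓛 (Fn π (rhoChi χ)), (∃ v, res2 𝓛 (Fn π (rhoChi χ)) (D v).subtype x ≠ 0) ∧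
      ∀ P : Plc D π, P ≠ P₁ → P ≠ P₂ →
        cmp 𝓛 D π (rhoChi χ) P.1 P.2 (res2 𝓛 (Fn π (rhoChi χ)) (D P.1).subtype x) = 0

/-- field `fin` of `Datum` -/
def FinAll : Prop :=
  ∀ {Sg : Type} [Fintype Sg] (π : G →* Equiv.Perm Sg), SmoothSet π 𝓛 → IsTrans π →
    ∀ x : H2 𝓛 (Fn π (rhoChi χ)), {v | res2 𝓛 (Fn π (rhoChi χ)) (D v).subtype x ≠ 0}.Finite

/-- field `sha1` of `Datum` -/
def Sha1All' : Prop :=
  ∀ {Sg : Type} [Fintype Sg] (π : G →* Equiv.Perm Sg), SmoothSet π 𝓛 → IsTrans π →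
    ∀ x : H1 𝓛 (Fn π (rhoTriv G (ZMod p))),
      (∀ v, res1 𝓛 (Fn π (rhoTriv G (ZMod p))) (D v).subtype x = 0) → x = 0

end Fermat.Agent.S55.G
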