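import Fermat.Agent.S55.G.AlDefs
import Fermat.Agent.S55.C.Main
import Fermat.Agent.S55.A.LinAlg
import Fermat.Agent.S14.CrossAux

/-!
# S55 / layer G : (α), choice of the auxiliary prime `ℓ` and of `ψ`      (keys `S55/G-AL-ELL`, `S55/G-AL-PSI0`)

## `exists_ell` (~200 lines; uses only `C.K4` + the `S14` API `Pl`, `Ulev`, `pows`, `Tame`, `C.lp_tame`/`C.mem_lp_iff`)
`F = CyclotomicField p ℚ`, `ζ : 𝓞 F` a primitive `p`-th root of unity (`IsCyclotomicExtension.zeta_spec`, `IsPrimitiveRoot.toInteger`).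
`a : Fˣ` the image of `q`.
(1) `a ∉ pows F p`: if `q = x^p` then `q^(p-1) = N_{F/ℚ}(q) = N(x)^p` (`Algebra.norm_algebraMap`, `finrank = p - 1`: `IsCyclotomicExtension.finrank`/`Nat.totient_prime`);
    `padicValRat q` of both sides: `p - 1 = p * padicValRat q (N x)`, impossible.
(2) `B` := the finite set of the places of `F` dividing `p q` (`{v | ord v (p q) ≠ 0}` is finite: `S14.ord_support_finite`).  By `C.K4` there is `v ∉ B` with `a ∉ lp p v`.
(3) `ℓ` := the characteristic of `𝓞 F ⧸ v.asIdeal` (the prime number below `v`: `Ideal.absNorm`, or `(v.asIdeal.comap (algebraMap ℤ (𝓞 F)))` is a non zero prime ideal of `ℤ`).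
    `ℓ ≠ q` because `(ℓ : 𝓞 F) ∈ v.asIdeal` and `q ∉ v.asIdeal`.
(4) if `c^p = q` in `(ZMod ℓ)ˣ`, lift `c` to `n : ℕ`, `ℓ ∤ n`: `ℓ ∣ n^p - q` in `ℤ`, so `n^p - q ∈ v.asIdeal`, `q / n^p ∈ Ulev v 1`
    (`C.LpAux.frac_mem_Ulev_iff`), and `lev p v = 1` (`C.lev_of_tame`), so `a = n^p * (q / n^p) ∈ pows ⊔ Ulev v 1 = lp p v`. Contradiction.

## `exists_psi` (~60 lines)
`V = Additive (ZMod ℓ)ˣ ⧸ range (p • ·)` is killed by `p`, the class of `a` is non zero; `LA.exists_separating` with `W = ⊥`; compose with `mk` and `toMultiplicative`.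
-/

set_option autoImplicit false

noncomputable section

namespace Fermat.Agent.S55.G.Al

variable {p : ℕ} [Fact p.Prime]

open IsDedekindDomain NumberField Fermat.Agent.S14 in
/-- a natural number `≠ 0` in a prime ideal has a prime factor in it -/
theorem exists_prime_mem_aux {F : Type*} [Field F] [NumberField F] (v : Pl F) :
    ∀ n : ℕ, n ≠ 0 → (n : 𝓞 F) ∈ v.asIdeal → ∃ ℓ : ℕ, ℓ.Prime ∧ (ℓ : 𝓞 F) ∈ v.asIdeal := by
  intro n
  induction n using Nat.strong_induction_on with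
  | _ n ih =>
    intro hn0 hn
    have hn1 : n ≠ 1 := by
      rintro rfl
      apply v.isPrime.ne_top
      rw [Ideal.eq_top_iff_one]
      simpa using hn
    obtain ⟨m, hm⟩ := Nat.minFac_dvd n
    have hpr := Nat.minFac_prime hn1
    rw [hm, Nat.cast_mul] at hn
    rcases v.isPrime.mem_or_mem hn with h | h
    · exact ⟨_, hpr, h⟩
    · have hm0 : m ≠ 0 := by
        rintro rfl
        exact hn0 (by rw [hm, mul_zero])
      have hlt : m < n := by
        have h2 := hpr.two_le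
        have hmpos : 0 < m := Nat.pos_of_ne_zero hm0
        calc m < n.minFac * m := by nlinarith
          _ = n := hm.symm
      exact ih m hlt hm0 h

/-- `q` is not a `p`-th power in `ℚ(ζ_p)` -/
theorem not_mem_pows_aux (q : Nat.Primes) (x : CyclotomicField p ℚ) :
    x ^ p ≠ ((q : ℕ) : CyclotomicField p ℚ) := by
  intro hx
  have hpp : p.Prime := Fact.out
  have : Fact (q : ℕ).Prime := ⟨q.2⟩
  have : NeZero p := ⟨hpp.ne_zero⟩
  have hcyc : IsCyclotomicExtension {p} ℚ (CyclotomicField p ℚ) :=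
    CyclotomicField.isCyclotomicExtension p ℚ
  have hfr : Module.finrank ℚ (CyclotomicField p ℚ) = p - 1 := by
    rw [IsCyclotomicExtension.Rat.finrank p (CyclotomicField p ℚ), Nat.totient_prime hpp]
  have h1 : (Algebra.norm ℚ x) ^ p = ((q : ℕ) : ℚ) ^ (p - 1) := by
    rw [← map_pow, hx, ← hfr]
    have : (((q : ℕ) : CyclotomicField p ℚ)) = algebraMap ℚ (CyclotomicField p ℚ) ((q : ℕ) : ℚ) := by
      simp
    rw [this, Algebra.norm_algebraMap]
  have hq0 : (((q : ℕ) : ℚ)) ≠ 0 := Nat.cast_ne_zero.2 q.2.ne_zero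
  have hr0 : Algebra.norm ℚ x ≠ 0 := by
    intro h0
    rw [h0, zero_pow hpp.ne_zero] at h1
    exact pow_ne_zero _ hq0 h1.symm
  have h2 := congrArg (padicValRat (q : ℕ)) h1
  rw [padicValRat.pow, padicValRat.pow, padicValRat.self q.2.one_lt, mul_one] at h2
  have h3 : (p : ℤ) ∣ ((p - 1 : ℕ) : ℤ) := ⟨_, h2.symm⟩
  have h4 : p ∣ p - 1 := Int.natCast_dvd_natCast.1 h3
  have h5 := Nat.le_of_dvd (Nat.sub_pos_of_lt hpp.one_lt) h4
  have := hpp.one_lt
  omega

open IsDedekindDomain NumberField Fermat.Agent.S14 in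
/-- [S55/G-AL-ELL] -/
theorem exists_ell (hp2 : p ≠ 2) (q : Nat.Primes) :
    ∃ (ℓ : ℕ) (_ : Fact ℓ.Prime) (h : (q : ℕ).Coprime ℓ),
      ∀ c : (ZMod ℓ)ˣ, c ^ p ≠ ZMod.unitOfCoprime (q : ℕ) h := by
  have hpp : p.Prime := Fact.out
  have : NeZero p := ⟨hpp.ne_zero⟩
  have hcyc : IsCyclotomicExtension {p} ℚ (CyclotomicField p ℚ) :=
    CyclotomicField.isCyclotomicExtension p ℚ
  set F := CyclotomicField p ℚ with hF
  have hζ0 : IsPrimitiveRoot (IsCyclotomicExtension.zeta p ℚ F) p :=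
    IsCyclotomicExtension.zeta_spec p ℚ F
  have hζ : IsPrimitiveRoot hζ0.toInteger p := hζ0.toInteger_isPrimitiveRoot
  have hq0 : ((q : ℕ) : F) ≠ 0 := Nat.cast_ne_zero.2 q.2.ne_zero
  set a : Fˣ := Units.mk0 ((q : ℕ) : F) hq0 with ha
  have ha_pows : a ∉ pows F p := by
    rintro ⟨x, hx⟩
    apply not_mem_pows_aux q (x : F)
    have := congrArg (Units.val) hx
    simpa [ha] using this
  have hpq0 : p * (q : ℕ) ≠ 0 := Nat.mul_ne_zero hpp.ne_zero q.2.ne_zero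
  obtain ⟨B, hB⟩ := Cross.exists_finset_above (K := F) (p * (q : ℕ)) hpq0
  obtain ⟨v, hvB, hv⟩ : ∃ v ∉ B, a ∉ C.lp p v := by
    by_contra hcon
    push Not at hcon
    exact ha_pows (C.K4 hp2 hζ a B hcon)
  have hvpq : ((p * (q : ℕ) : ℕ) : 𝓞 F) ∉ v.asIdeal := fun h => hvB ((hB v).2 h)
  have hvp : (p : 𝓞 F) ∉ v.asIdeal := by
    intro h
    apply hvpq
    rw [Nat.cast_mul]
    exact v.asIdeal.mul_mem_right _ h
  have hvq : ((q : ℕ) : 𝓞 F) ∉ v.asIdeal := by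
    intro h
    apply hvpq
    rw [Nat.cast_mul]
    exact v.asIdeal.mul_mem_left _ h
  have hN0 : Ideal.absNorm v.asIdeal ≠ 0 := by
    rw [ne_eq, Ideal.absNorm_eq_zero_iff]
    exact v.ne_bot
  obtain ⟨ℓ, hℓ, hℓv⟩ := exists_prime_mem_aux v _ hN0 (Ideal.absNorm_mem v.asIdeal)
  have hne : (q : ℕ) ≠ ℓ := by
    intro h
    exact hvq (h ▸ hℓv)
  have hcop : (q : ℕ).Coprime ℓ := (Nat.coprime_primes q.2 hℓ).2 hne
  refine ⟨ℓ, ⟨hℓ⟩, hcop, fun c hc => hv ?_⟩
  have : Fact ℓ.Prime := ⟨hℓ⟩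
  set n : ℕ := (c : ZMod ℓ).val with hn
  have hnc : ((n : ℕ) : ZMod ℓ) = (c : ZMod ℓ) := ZMod.natCast_zmod_val _
  have hcong : (((n ^ p : ℕ) : ℤ) : ZMod ℓ) = ((((q : ℕ) : ℕ) : ℤ) : ZMod ℓ) := by
    have h1 := congrArg (Units.val) hc
    rw [Units.val_pow_eq_pow_val, ZMod.coe_unitOfCoprime, ← hnc] at h1
    push_cast
    exact h1
  obtain ⟨k, hk⟩ := (ZMod.intCast_eq_intCast_iff_dvd_sub _ _ ℓ).1 hcong
  have hmem : ((q : ℕ) : 𝓞 F) - ((n : 𝓞 F)) ^ p ∈ v.asIdeal := by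
    have h2 : ((q : ℕ) : 𝓞 F) - ((n : 𝓞 F)) ^ p = (ℓ : 𝓞 F) * (k : 𝓞 F) := by
      have := congrArg (Int.cast : ℤ → 𝓞 F) hk
      push_cast at this
      exact this
    rw [h2]
    exact v.asIdeal.mul_mem_right _ hℓv
  have hnv : ((n : 𝓞 F)) ^ p ∉ v.asIdeal := by
    intro h
    apply hvq
    have := v.asIdeal.add_mem hmem h
    simpa using this
  have hn0 : (n : F) ≠ 0 := by
    intro h0
    apply hnv
    have : (n : 𝓞 F) = 0 := by
      apply RingOfIntegers.coe_injective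
      simpa using h0
    rw [this, zero_pow hpp.ne_zero]
    exact v.asIdeal.zero_mem
  set nu : Fˣ := Units.mk0 (n : F) hn0 with hnu
  have htame : Tame p v := hvp
  have hU : a / nu ^ p ∈ Ulev v (C.lev p v) := by
    rw [C.lev_of_tame htame]
    refine (C.LpAux.frac_mem_Ulev_iff v 1 _ ((q : ℕ) : 𝓞 F) ((n : 𝓞 F) ^ p) hvq hnv ?_).2
      (by rwa [pow_one])
    simp [ha, hnu]
  have hdec : a = nu ^ p * (a / nu ^ p) := by
    rw [mul_div_cancel]
  rw [hdec]
  exact Subgroup.mul_mem _ (C.pows_le_lp v ⟨nu, rfl⟩) (C.Ulev_le_lp v hU)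

/-- [S55/G-AL-PSI0] -/
theorem exists_psi {X : Type*} [CommGroup X] (a : X) (ha : ∀ c : X, c ^ p ≠ a) :
    ∃ ψ : X →* Multiplicative (ZMod p), ψ a ≠ 1 := by
  set R : AddSubgroup (Additive X) := (nsmulAddMonoidHom (α := Additive X) p).range with hR
  have hV : ∀ v : Additive X ⧸ R, p • v = 0 := by
    intro v
    obtain ⟨x, rfl⟩ := QuotientAddGroup.mk'_surjective R v
    rw [← map_nsmul, QuotientAddGroup.mk'_apply, QuotientAddGroup.eq_zero_iff]
    exact ⟨x, rfl⟩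
  have hne : (QuotientAddGroup.mk' R (Additive.ofMul a)) ∉ (⊥ : AddSubgroup (Additive X ⧸ R)) := by
    rw [AddSubgroup.mem_bot, QuotientAddGroup.mk'_apply, QuotientAddGroup.eq_zero_iff]
    rintro ⟨c, hc⟩
    exact ha (Additive.toMul c) hc
  obtain ⟨m, -, hm⟩ := LA.exists_separating hV ⊥ hne
  refine ⟨{ toFun := fun x => Multiplicative.ofAdd (m (QuotientAddGroup.mk' R (Additive.ofMul x)))
            map_one' := by
              rw [ofMul_one, map_zero, map_zero, ofAdd_zero]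
            map_mul' := fun x y => by
              rw [ofMul_mul, map_add, map_add, ofAdd_add] }, ?_⟩
  intro h
  exact hm h

end Fermat.Agent.S55.G.Al
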