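import Fermat.Agent.S55.G.AlUnr

/-!
# S55 / layer G : `ℓ` is a norm from `C`     (key `S55/G-AL-LAM`)

`F a = 1 - ζ^a.val`, `Gx x = ∏_{ψ a = x} F a`; `g (Gx x) = Gx (x + ψ(χ g))`; `∏_x Gx x = ∏_a F a = Φ_ℓ(1) = ℓ`.
-/

set_option autoImplicit false

noncomputable section

namespace Fermat.Agent.S55.G.Al

open T ExtCitation Fermat.Agent.S05

variable {p ℓ : ℕ} [Fact p.Prime] [Fact ℓ.Prime] (ψ : (ZMod ℓ)ˣ →* Multiplicative (ZMod p))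

/-- `1 - ζ^a` -/
def lamF (ζ : Qb) (a : (ZMod ℓ)ˣ) : Qb := 1 - ζ ^ (a : ZMod ℓ).val

theorem lamAux_apply {ζ : Qb} (hζ : ζ ^ ℓ = 1) (g : GQ) (a : (ZMod ℓ)ˣ) :
    g (lamF ζ a) = lamF ζ (a * cycloChar ℓ g) := by
  rw [lamF, lamF, map_sub, map_one, map_pow, E.cycloChar_spec ℓ g hζ, ← pow_mul, Units.val_mul,
    ZMod.val_mul, ← pow_eq_pow_mod _ hζ, mul_comm]

theorem lamAux_prod_univ {ζ : Qb} (hζ : IsPrimitiveRoot ζ ℓ) :
    ∏ a : (ZMod ℓ)ˣ, lamF ζ a = (ℓ : Qb) := by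
  have hℓ : ℓ.Prime := Fact.out
  have h1 : (Polynomial.cyclotomic ℓ Qb).eval 1 = (ℓ : Qb) := Polynomial.eval_one_cyclotomic_prime
  rw [Polynomial.cyclotomic_eq_prod_X_sub_primitiveRoots hζ, Polynomial.eval_prod] at h1
  rw [← h1]
  refine Finset.prod_bij (fun a _ => ζ ^ (a : ZMod ℓ).val) ?_ ?_ ?_ ?_
  · intro a _
    rw [mem_primitiveRoots hℓ.pos]
    exact hζ.pow_of_coprime _ (ZMod.val_coe_unit_coprime a)
  · intro a _ b _ h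
    exact Units.ext (ZMod.val_injective ℓ (hζ.pow_inj (ZMod.val_lt _) (ZMod.val_lt _) h))
  · intro ξ hξ
    rw [mem_primitiveRoots hℓ.pos] at hξ
    obtain ⟨i, hi, hc, rfl⟩ := hζ.isPrimitiveRoot_iff.1 hξ
    refine ⟨ZMod.unitOfCoprime i hc, Finset.mem_univ _, ?_⟩
    rw [ZMod.coe_unitOfCoprime, ZMod.val_natCast, Nat.mod_eq_of_lt hi]
  · intro a _
    simp [lamF]

/-- the partial products -/
def lamG (ζ : Qb) (x : ZMod p) : Qb :=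
  ∏ a ∈ Finset.univ.filter (fun a : (ZMod ℓ)ˣ => (ψ a).toAdd = x), lamF ζ a

theorem lamAux_G_apply {ζ : Qb} (hζ : ζ ^ ℓ = 1) (g : GQ) (x : ZMod p) :
    g (lamG ψ ζ x) = lamG ψ ζ (x + psiA ψ g) := by
  rw [lamG, lamG, map_prod]
  refine Finset.prod_equiv (Equiv.mulRight (cycloChar ℓ g)) ?_ ?_
  · intro a
    simp only [Finset.mem_filter, Finset.mem_univ, true_and, Equiv.coe_mulRight, map_mul,
      toAdd_mul]
    exact (add_left_inj _).symm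
  · intro a _
    exact lamAux_apply hζ g a

theorem lamAux_prod_G (ζ : Qb) : ∏ x : ZMod p, lamG ψ ζ x = ∏ a : (ZMod ℓ)ˣ, lamF ζ a :=
  Finset.prod_fiberwise Finset.univ (fun a : (ZMod ℓ)ˣ => (ψ a).toAdd) (lamF ζ)

theorem lamAux_prod_range {M : Type*} [CommMonoid M] {τ : ZMod p} (hτ : τ ≠ 0) (G : ZMod p → M) :
    ∏ i ∈ Finset.range p, G ((i : ZMod p) * τ) = ∏ x : ZMod p, G x := by
  refine Finset.prod_bij (fun i _ => (i : ZMod p) * τ) (fun _ _ => Finset.mem_univ _) ?_ ?_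
    (fun _ _ => rfl)
  · intro i hi j hj h
    have h1 : (i : ZMod p) = j := mul_right_cancel₀ hτ h
    rw [ZMod.natCast_eq_natCast_iff'] at h1
    rwa [Nat.mod_eq_of_lt (Finset.mem_range.1 hi), Nat.mod_eq_of_lt (Finset.mem_range.1 hj)] at h1
  · intro x _
    refine ⟨(x * τ⁻¹).val, Finset.mem_range.2 (ZMod.val_lt _), ?_⟩
    rw [ZMod.natCast_zmod_val, mul_assoc, inv_mul_cancel₀ hτ, mul_one]

theorem lamAux_main {γ : GQ} (hγ : γ ∉ HC ψ) :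
    ∃ lam ∈ B.Fx (HC ψ), lam ≠ 0 ∧ B.Nm γ p lam = (ℓ : Qb) := by
  have hℓ : ℓ.Prime := Fact.out
  have hp : p.Prime := Fact.out
  obtain ⟨ζ, hζ⟩ := alWq_exists_prim ℓ hℓ.pos
  have hτ : psiA ψ γ ≠ 0 := fun h => hγ ((mem_HC ψ).2 h)
  have hN : B.Nm γ p (lamG ψ ζ 0) = (ℓ : Qb) := by
    rw [← lamAux_prod_univ hζ, ← lamAux_prod_G ψ ζ, ← lamAux_prod_range hτ, B.Nm]
    refine Finset.prod_congr rfl fun i _ => ?_
    rw [lamAux_G_apply ψ hζ.pow_eq_one, zero_add, psiA_pow, nsmul_eq_mul]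
  refine ⟨lamG ψ ζ 0, B.mem_Fx.2 fun g hg => ?_, ?_, hN⟩
  · rw [lamAux_G_apply ψ hζ.pow_eq_one, (mem_HC ψ).1 hg, add_zero]
  · intro h0
    rw [h0, (B.Nm_eq_zero_iff γ hp.pos).2 rfl] at hN
    exact (Nat.cast_ne_zero.2 hℓ.ne_zero) hN.symm

end Fermat.Agent.S55.G.Al
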