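import Fermat.Agent.S55.G.AlDefs

/-!
# S55 / layer G : (α), elementary number theory of `PsiQ`   (key `S55/G-AL-PSI`)

`PsiQ ψ β = ∑_v ord_v(β) ψ(v)` is additive, vanishes at `ℓ`, equals `ψ (a mod ℓ)` on integers prime to `ℓ`, and depends only on
the residue class mod `ℓ` on `ℓ`-units.
-/

set_option autoImplicit false

noncomputable section

namespace Fermat.Agent.S55.G.Al

variable {p ℓ : ℕ} [Fact p.Prime] [Fact ℓ.Prime] (ψ : (ZMod ℓ)ˣ →* Multiplicative (ZMod p))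

theorem psiAux_finite_dvd {n : ℕ} (hn : n ≠ 0) : {v : Nat.Primes | (v : ℕ) ∣ n}.Finite := by
  apply Set.Finite.of_finite_image _ (Subtype.val_injective.injOn)
  apply (Finset.finite_toSet n.divisors).subset
  rintro _ ⟨v, hv, rfl⟩
  exact Finset.mem_coe.mpr (Nat.mem_divisors.mpr ⟨hv, hn⟩)

theorem psiAux_val_eq_zero (v : Nat.Primes) (β : ℚ) (h : ¬ (v : ℕ) ∣ β.num.natAbs * β.den) :
    padicValRat v β = 0 := by
  have h1 : ¬ (v : ℕ) ∣ β.num.natAbs := fun hd => h (Dvd.dvd.mul_right hd _)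
  have h2 : ¬ (v : ℕ) ∣ β.den := fun hd => h (Dvd.dvd.mul_left hd _)
  rw [padicValRat, padicValInt, padicValNat.eq_zero_of_not_dvd h1,
    padicValNat.eq_zero_of_not_dvd h2]
  simp

theorem psiAux_finite_support {β : ℚ} (hβ : β ≠ 0) :
    (Function.support fun v : Nat.Primes => ((padicValRat v β : ℤ) : ZMod p) * psiN ψ v).Finite := by
  have hn : β.num.natAbs * β.den ≠ 0 :=
    Nat.mul_ne_zero (Int.natAbs_ne_zero.mpr (Rat.num_ne_zero.mpr hβ)) β.den_ne_zero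
  apply (psiAux_finite_dvd hn).subset
  intro v hv
  by_contra hcon
  apply hv
  show ((padicValRat v β : ℤ) : ZMod p) * psiN ψ v = 0
  rw [psiAux_val_eq_zero v β hcon, Int.cast_zero, zero_mul]

theorem psiAux_mul {a b : ℚ} (ha : a ≠ 0) (hb : b ≠ 0) :
    PsiQ ψ (a * b) = PsiQ ψ a + PsiQ ψ b := by
  rw [PsiQ, PsiQ, PsiQ, ← finsum_add_distrib (psiAux_finite_support ψ ha)
    (psiAux_finite_support ψ hb)]
  refine finsum_congr fun v => ?_
  have : Fact (v : ℕ).Prime := ⟨v.2⟩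
  rw [padicValRat.mul ha hb, Int.cast_add, add_mul]

theorem psiAux_one : PsiQ ψ 1 = 0 := by
  rw [PsiQ]
  refine finsum_eq_zero_of_forall_eq_zero fun v => ?_
  rw [padicValRat.one, Int.cast_zero, zero_mul]

theorem psiAux_neg (a : ℚ) : PsiQ ψ (-a) = PsiQ ψ a := by
  rw [PsiQ, PsiQ]
  refine finsum_congr fun v => ?_
  rw [padicValRat.neg]

theorem psiAux_inv {a : ℚ} (ha : a ≠ 0) : PsiQ ψ a⁻¹ = - PsiQ ψ a := by
  have h := psiAux_mul ψ ha (inv_ne_zero ha)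
  rw [mul_inv_cancel₀ ha, psiAux_one] at h
  exact (neg_eq_of_add_eq_zero_right h.symm).symm

theorem psiAux_pow {a : ℚ} (ha : a ≠ 0) (n : ℕ) : PsiQ ψ (a ^ n) = n • PsiQ ψ a := by
  induction n with
  | zero => rw [pow_zero, psiAux_one, zero_smul]
  | succ n ih => rw [pow_succ, psiAux_mul ψ (pow_ne_zero n ha) ha, ih, succ_nsmul]

theorem psiAux_zpow {a : ℚ} (ha : a ≠ 0) (n : ℤ) : PsiQ ψ (a ^ n) = n • PsiQ ψ a := by
  cases n with
  | ofNat n => rw [Int.ofNat_eq_natCast, zpow_natCast, psiAux_pow ψ ha, natCast_zsmul]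
  | negSucc n =>
    rw [zpow_negSucc, psiAux_inv ψ (pow_ne_zero _ ha), psiAux_pow ψ ha, negSucc_zsmul]

theorem psiAux_val_prime (v q : Nat.Primes) :
    padicValRat v ((q : ℕ) : ℚ) = if v = q then 1 else 0 := by
  have : Fact (v : ℕ).Prime := ⟨v.2⟩
  have : Fact (q : ℕ).Prime := ⟨q.2⟩
  rw [padicValRat.of_nat]
  split_ifs with h
  · rw [h, padicValNat_self]; rfl
  · rw [padicValNat_primes (fun h' => h (Subtype.ext h'))]; rfl

theorem psiAux_prime (q : Nat.Primes) : PsiQ ψ ((q : ℕ) : ℚ) = psiN ψ q := by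
  rw [PsiQ, finsum_eq_single _ q, psiAux_val_prime, if_pos rfl, Int.cast_one, one_mul]
  intro v hv
  rw [psiAux_val_prime, if_neg hv, Int.cast_zero, zero_mul]

theorem psiAux_psiN_self : psiN ψ ℓ = 0 := by
  rw [psiN, dif_neg]
  rw [Nat.coprime_self]
  exact (Fact.out : ℓ.Prime).one_lt.ne'

theorem psiAux_ell : PsiQ ψ (ℓ : ℚ) = 0 := by
  have h := psiAux_prime ψ (⟨ℓ, Fact.out⟩ : Nat.Primes)
  exact h.trans (psiAux_psiN_self ψ)

/-- `ψ` on the nonzero residue classes -/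
def psiZ (z : ZMod ℓ) : ZMod p := if h : z ≠ 0 then (ψ (Units.mk0 z h)).toAdd else 0

theorem psiZ_of_ne {z : ZMod ℓ} (h : z ≠ 0) : psiZ ψ z = (ψ (Units.mk0 z h)).toAdd := dif_pos h

theorem psiZ_mul {z z' : ZMod ℓ} (h : z ≠ 0) (h' : z' ≠ 0) :
    psiZ ψ (z * z') = psiZ ψ z + psiZ ψ z' := by
  rw [psiZ_of_ne ψ h, psiZ_of_ne ψ h', psiZ_of_ne ψ (mul_ne_zero h h'), ← toAdd_mul, ← map_mul]
  congr 2
  exact Units.ext rfl

theorem psiZ_one : psiZ ψ 1 = 0 := by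
  rw [psiZ_of_ne ψ one_ne_zero]
  have : Units.mk0 (1 : ZMod ℓ) one_ne_zero = 1 := Units.ext rfl
  rw [this, map_one]; rfl

theorem psiZ_neg_one (hp2 : p ≠ 2) : psiZ ψ (-1) = 0 := by
  have h1 : (-1 : ZMod ℓ) ≠ 0 := neg_ne_zero.mpr one_ne_zero
  have h := psiZ_mul ψ h1 h1
  rw [neg_mul_neg, one_mul, psiZ_one, ← two_mul] at h
  have h2 : (2 : ZMod p) ≠ 0 := by
    intro h0
    have h3 : ((2 : ℕ) : ZMod p) = 0 := by exact_mod_cast h0
    rw [ZMod.natCast_eq_zero_iff] at h3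
    exact hp2 ((Nat.prime_dvd_prime_iff_eq Fact.out Nat.prime_two).mp h3)
  exact (mul_eq_zero.mp h.symm).resolve_left h2

theorem psiAux_natCast_ne_zero_iff (n : ℕ) : (n : ZMod ℓ) ≠ 0 ↔ n.Coprime ℓ := by
  rw [Ne, ZMod.natCast_eq_zero_iff, Nat.coprime_comm,
    Nat.Prime.coprime_iff_not_dvd (Fact.out : ℓ.Prime)]

theorem psiN_eq_psiZ (n : ℕ) : psiN ψ n = psiZ ψ (n : ZMod ℓ) := by
  by_cases h : n.Coprime ℓ
  · rw [psiN_of_coprime ψ h, psiZ_of_ne ψ ((psiAux_natCast_ne_zero_iff n).mpr h)]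
    congr 2
  · rw [psiN, dif_neg h, psiZ, dif_neg]
    rwa [psiAux_natCast_ne_zero_iff]

theorem psiAux_natCast (n : ℕ) : (n : ZMod ℓ) ≠ 0 → PsiQ ψ (n : ℚ) = psiZ ψ (n : ZMod ℓ) := by
  induction n using induction_on_primes with
  | zero => intro h; exact absurd (by simp) h
  | one => intro _; rw [Nat.cast_one, Nat.cast_one, psiAux_one, psiZ_one]
  | prime_mul q a hq ih =>
    intro h
    rw [Nat.cast_mul] at h
    have hq0 : (q : ZMod ℓ) ≠ 0 := left_ne_zero_of_mul h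
    have ha0 : (a : ZMod ℓ) ≠ 0 := right_ne_zero_of_mul h
    have ha1 : (a : ℚ) ≠ 0 := by
      intro h0
      apply ha0
      have : a = 0 := by exact_mod_cast h0
      rw [this, Nat.cast_zero]
    have hq1 : (q : ℚ) ≠ 0 := by exact_mod_cast hq.ne_zero
    rw [Nat.cast_mul, Nat.cast_mul, psiAux_mul ψ hq1 ha1, psiZ_mul ψ hq0 ha0, ih ha0]
    congr 1
    have := psiAux_prime ψ (⟨q, hq⟩ : Nat.Primes)
    exact this.trans (psiN_eq_psiZ ψ q)

theorem psiAux_intCast (hp2 : p ≠ 2) (a : ℤ) (h : (a : ZMod ℓ) ≠ 0) :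
    PsiQ ψ (a : ℚ) = psiZ ψ (a : ZMod ℓ) := by
  rcases Int.natAbs_eq a with ha | ha
  · rw [ha] at h ⊢
    rw [Int.cast_natCast] at h ⊢
    rw [Int.cast_natCast]
    exact psiAux_natCast ψ _ h
  · rw [ha] at h ⊢
    rw [Int.cast_neg, Int.cast_natCast] at h ⊢
    rw [Int.cast_neg, Int.cast_natCast, psiAux_neg]
    have h' : ((a.natAbs : ℕ) : ZMod ℓ) ≠ 0 := neg_ne_zero.mp h
    rw [psiAux_natCast ψ _ h', ← neg_one_mul, psiZ_mul ψ (neg_ne_zero.mpr one_ne_zero) h',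
      psiZ_neg_one ψ hp2, zero_add]

theorem psiAux_num_den {x : ℚ} (hx0 : x ≠ 0) (hx : padicValRat ℓ x = 0) :
    ((x.num : ℤ) : ZMod ℓ) ≠ 0 ∧ ((x.den : ℕ) : ZMod ℓ) ≠ 0 := by
  have hℓ : ℓ.Prime := Fact.out
  rw [padicValRat, padicValInt, sub_eq_zero] at hx
  have hx' : padicValNat ℓ x.num.natAbs = padicValNat ℓ x.den := by exact_mod_cast hx
  have hnum0 : x.num.natAbs ≠ 0 := Int.natAbs_ne_zero.mpr (Rat.num_ne_zero.mpr hx0)
  have hcop : Nat.Coprime x.num.natAbs x.den := x.reduced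
  have key : ¬ ℓ ∣ x.num.natAbs ∨ ¬ ℓ ∣ x.den := by
    by_contra hcon
    push Not at hcon
    exact hℓ.one_lt.ne' (Nat.eq_one_of_dvd_coprimes hcop hcon.1 hcon.2)
  have h1 : ¬ ℓ ∣ x.num.natAbs := by
    rcases key with h | h
    · exact h
    · intro hd
      have := one_le_padicValNat_of_dvd hnum0 hd
      rw [hx', padicValNat.eq_zero_of_not_dvd h] at this
      omega
  have h2 : ¬ ℓ ∣ x.den := by
    intro hd
    have := one_le_padicValNat_of_dvd x.den_ne_zero hd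
    rw [← hx', padicValNat.eq_zero_of_not_dvd h1] at this
    omega
  refine ⟨?_, ?_⟩
  · rw [Ne, ZMod.intCast_zmod_eq_zero_iff_dvd]
    intro hd
    exact h1 (Int.natCast_dvd.mp hd)
  · rw [Ne, ZMod.natCast_eq_zero_iff]
    exact h2

/-- `PsiQ` of an `ℓ`-unit in terms of numerator and denominator -/
theorem psiAux_eq (hp2 : p ≠ 2) {x : ℚ} (hx0 : x ≠ 0) (hx : padicValRat ℓ x = 0) :
    PsiQ ψ x + psiZ ψ ((x.den : ℕ) : ZMod ℓ) = psiZ ψ ((x.num : ℤ) : ZMod ℓ) := by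
  obtain ⟨h1, h2⟩ := psiAux_num_den hx0 hx
  have hd : ((x.den : ℕ) : ℚ) ≠ 0 := by exact_mod_cast x.den_ne_zero
  rw [← psiAux_natCast ψ _ h2, ← psiAux_intCast ψ hp2 _ h1, ← psiAux_mul ψ hx0 hd, Rat.mul_den_eq_num]

theorem psiAux_congr (hp2 : p ≠ 2) {x y : ℚ} (hx0 : x ≠ 0) (hy0 : y ≠ 0)
    (hx : padicValRat ℓ x = 0) (hy : padicValRat ℓ y = 0)
    (h : x = y ∨ 0 < padicValRat ℓ (x - y)) : PsiQ ψ x = PsiQ ψ y := by
  rcases h with rfl | h
  · rfl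
  obtain ⟨a1, a2⟩ := psiAux_num_den hx0 hx
  obtain ⟨b1, b2⟩ := psiAux_num_den hy0 hy
  have ex := psiAux_eq ψ hp2 hx0 hx
  have ey := psiAux_eq ψ hp2 hy0 hy
  -- the integer `x.num * y.den - y.num * x.den` is divisible by `ℓ`
  have hxy : x - y ≠ 0 := by
    intro h0
    rw [h0, padicValRat.zero] at h
    exact lt_irrefl _ h
  have hxd : ((x.den : ℕ) : ℚ) ≠ 0 := by exact_mod_cast x.den_ne_zero
  have hyd : ((y.den : ℕ) : ℚ) ≠ 0 := by exact_mod_cast y.den_ne_zero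
  have e1 : (((x.num * y.den - y.num * x.den : ℤ)) : ℚ) = (x - y) * ((x.den : ℚ) * (y.den : ℚ)) := by
    push_cast
    have h1 : x * x.den = x.num := Rat.mul_den_eq_num x
    have h2 : y * y.den = y.num := Rat.mul_den_eq_num y
    rw [← h1, ← h2]
    ring
  have hval : 0 < padicValRat ℓ (((x.num * y.den - y.num * x.den : ℤ)) : ℚ) := by
    rw [e1, padicValRat.mul hxy (mul_ne_zero hxd hyd), padicValRat.mul hxd hyd, padicValRat.of_nat,
      padicValRat.of_nat]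
    have : (0 : ℤ) ≤ (padicValNat ℓ x.den : ℤ) + (padicValNat ℓ y.den : ℤ) := by positivity
    omega
  have hdvd : (ℓ : ℤ) ∣ x.num * y.den - y.num * x.den := by
    rw [padicValRat.of_int] at hval
    have h3 : 0 < padicValInt ℓ (x.num * y.den - y.num * x.den) := by exact_mod_cast hval
    rw [padicValInt] at h3
    have h4 := dvd_of_one_le_padicValNat h3
    exact Int.natCast_dvd.mpr h4
  have hz : ((x.num : ℤ) : ZMod ℓ) * ((y.den : ℕ) : ZMod ℓ) =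
      ((y.num : ℤ) : ZMod ℓ) * ((x.den : ℕ) : ZMod ℓ) := by
    have := (ZMod.intCast_zmod_eq_zero_iff_dvd _ ℓ).mpr hdvd
    push_cast at this
    exact sub_eq_zero.mp this
  have hψ := congrArg (psiZ ψ) hz
  rw [psiZ_mul ψ a1 b2, psiZ_mul ψ b1 a2, ← ex, ← ey] at hψ
  have : PsiQ ψ x + (psiZ ψ ((x.den : ℕ) : ZMod ℓ) + psiZ ψ ((y.den : ℕ) : ZMod ℓ)) =
      PsiQ ψ y + (psiZ ψ ((x.den : ℕ) : ZMod ℓ) + psiZ ψ ((y.den : ℕ) : ZMod ℓ)) := by
    calc _ = PsiQ ψ x + psiZ ψ ((x.den : ℕ) : ZMod ℓ) + psiZ ψ ((y.den : ℕ) : ZMod ℓ) := by ring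
      _ = PsiQ ψ y + psiZ ψ ((y.den : ℕ) : ZMod ℓ) + psiZ ψ ((x.den : ℕ) : ZMod ℓ) := hψ
      _ = _ := by ring
  exact add_right_cancel this

end Fermat.Agent.S55.G.Al
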