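import Fermat.Agent.S55.G.AlUnr
import Fermat.Agent.S55.G.AlPsi
import Fermat.Agent.S55.B.Cpt
import Fermat.Agent.S55.G.AlLam

/-!
# S55 / layer G : (α), the ramified place `ℓ`
(keys `S55/G-AL-PSI` = section Psi;  `S55/G-AL-ONTO` = `w_one_sub`, `exists_mem_Dq_cyclo`;  `S55/G-AL-RES` = `exists_rat_congr`;
 `S55/G-AL-LAM` = `exists_lambda`;  `S55/G-AL-RAM` = `PsiQ_eq_zero_of_isLocNorm`)

`L = pPrime ℓ : Nat.Primes`, `w = (B.wq L).w`, `w ℓ = 1`, `H = Dq L`, `ζ` a primitive `ℓ`-th root of unity, `χ = cycloChar ℓ`, `g ζ = ζ^(χ g).val` (`E.cycloChar_spec`).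

## section Psi  (elementary number theory, Mathlib only, ~300 lines)
The support of `v ↦ padicValRat v β` is finite (`β = a / b`; primes dividing `a b`: `padicValRat.of_int`, `padicValInt`, `Nat.primeFactors`), so `finsum_add_distrib` gives `PsiQ_mul`
(`padicValRat.mul`).  `PsiQ_prime`: `padicValRat v' v = if v' = v then 1 else 0` (`padicValRat.of_nat`, `padicValNat_primes`, `padicValNat_self`), `finsum_eq_single`.
`PsiQ_natCast` : for `n` prime to `ℓ`, `PsiQ n = psiN n` : induction `Nat.recOnMul` (or `induction_on_primes`), `psiN_mul` (`ZMod.unitOfCoprime` is multiplicative: `Units.ext`, `Nat.cast_mul`), `psiN_one`.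
`PsiQ_neg` : `padicValRat.neg`.   `psi_neg_one : ψ (-1) = 1` : `ψ(-1)^2 = 1`, `ψ(-1)^p = 1` (every element of `Multiplicative (ZMod p)` has `x^p = 1`), `p` odd.
`PsiQ_congr` : `x = a / b`, `y = c / d` in lowest terms; `a, b, c, d` are prime to `ℓ`; `ord_ℓ (x - y) > 0` ⇒ `ℓ ∣ a d - c b` ⇒ in `(ZMod ℓ)ˣ`: `[a][d] = [c][b]`; apply `ψ`; `[a] = ± [|a|]`.
## `w_one_sub`
`∏_{k=1}^{ℓ-1} (1 - ζ^k) = ℓ` (`Polynomial.cyclotomic_prime`/`eval_one_cyclotomic_prime` + `IsPrimitiveRoot` factorisation of `∑ X^i = ∏_{k=1}^{ℓ-1} (X - ζ^k)`).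
`(1 - ζ^k) / (1 - ζ) = ∑_{i<k} ζ^i` is integral, and so is its inverse (`ζ = (ζ^k)^k'`, `k k' ≡ 1 mod ℓ`), so `w (1 - ζ^k) = w (1 - ζ)`; hence `(ℓ - 1) w (1 - ζ) = w ℓ = 1`.
## `exists_mem_Dq_cyclo`  (`D_ℓ → Gal(ℚ(ζ_ℓ)/ℚ)` is onto)
`O` = the (finite) `H`-orbit of `ζ`, `P = ∏_{η ∈ O} (1 - η) ∈ Fx H`, `w P = #O / (ℓ - 1)` is an integer (`B.w_int`) and `0 < #O ≤ ℓ - 1`: so `#O = ℓ - 1` and `O` = all primitive roots.
So for `a` there is `g ∈ H` with `g ζ = ζ^a.val`, whence `χ g = a` as in `exists_frob_cyclo`.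
## `exists_rat_congr`   (the residue field of `Z_ℓ(ζ_ℓ)` is `𝔽_ℓ`)
`s ∈ H` with `χ s` a generator of `(ZMod ℓ)ˣ` (`IsCyclic`), `hc : B.Cyc H (B.stab H ζ) s (ℓ - 1)` by `B.IsOp.cyc` (`isOp_Dq.stab ζ`).  `θ = 1 - ζ`; `hc.exists_coeffs` : `z = ∑_{i<ℓ-1} c_i θ^i`, `c_i ∈ Fx H`.
`w (c_i θ^i) = w c_i + i / (ℓ - 1)`, `w c_i ∈ ℤ` (`B.w_int`): pairwise distinct, so every term is integral (`B.GE_of_sum_of_distinct`); for `i ≥ 1` then `w c_i > -1`, `w c_i ≥ 0`, so the term has `w > 0`.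
Hence `w (z - c_0) > 0`; `B.exists_rat_approx` for `c_0`.
## `exists_lambda`
`lam = ∏_{a ∈ ker ψ} (1 - ζ^a.val)` (`Finset.univ.filter (ψ · = 1)`).  `g ∈ HC ψ` permutes the factors (`a ↦ a χ(g)`).  `Nm γ p lam = ∏_{i<p} ∏_{a ∈ ker ψ} (1 - ζ^(a χ(γ)^i)) = ∏_{a : (ZMod ℓ)ˣ} (1 - ζ^a.val) = ℓ` :
`(i, a) ↦ a χ(γ)^i` is a bijection `range p × ker ψ → (ZMod ℓ)ˣ` because `ψ(χ γ) ≠ 1` generates `Multiplicative (ZMod p)`.
## `PsiQ_eq_zero_of_isLocNorm`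
`¬ Dq L ≤ HC ψ` by `exists_mem_Dq_cyclo a`.  So `β = Nm γ p z`, `γ ∈ Dq L`, `γ ∉ HC ψ`, `z ∈ Fx (Dq L ⊓ HC ψ)`.  `n := padicValRat ℓ β`, `z' := z / lam^n`, `β' := β / ℓ^n`: `Nm γ p z' = β'`, `w β' = 0` (`wq_rat`),
`p w z' = 0` (`B.w_Nm`).  `z' ∈ Fx (stab (Dq L) ζ)` (`stab ≤ Dq L ⊓ HC ψ` as in `exists_zeta`).  `z' ≡ a`, `a : ℚ` (`exists_rat_congr`), `w a = 0`.  `γ^i z' ≡ a` (`Pres.GT`), so `β' = ∏ γ^i z' ≡ a^p`
(`B.GT_mul_sub_mul`, induction), `ord_ℓ (β' - a^p) > 0` or `β' = a^p` (`wq_rat`).  `PsiQ β = PsiQ β' + n PsiQ ℓ = PsiQ (a^p) = p PsiQ a = 0`.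
-/

set_option autoImplicit false

noncomputable section

namespace Fermat.Agent.S55.G.Al

open T ExtCitation Fermat.Agent.S05

variable {p ℓ : ℕ} [Fact p.Prime] [Fact ℓ.Prime] (ψ : (ZMod ℓ)ˣ →* Multiplicative (ZMod p))

section Psi

/-- [S55/G-AL-PSI] -/
theorem PsiQ_mul {a b : ℚ} (ha : a ≠ 0) (hb : b ≠ 0) : PsiQ ψ (a * b) = PsiQ ψ a + PsiQ ψ b :=
  psiAux_mul ψ ha hb

/-- [S55/G-AL-PSI] -/
theorem PsiQ_pow {a : ℚ} (ha : a ≠ 0) (n : ℕ) : PsiQ ψ (a ^ n) = n • PsiQ ψ a :=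
  psiAux_pow ψ ha n

/-- [S55/G-AL-PSI] -/
theorem PsiQ_zpow {a : ℚ} (ha : a ≠ 0) (n : ℤ) : PsiQ ψ (a ^ n) = n • PsiQ ψ a :=
  psiAux_zpow ψ ha n

/-- [S55/G-AL-PSI] -/
theorem PsiQ_ell : PsiQ ψ (ℓ : ℚ) = 0 :=
  psiAux_ell ψ

/-- [S55/G-AL-PSI] `PsiQ` of an `ℓ`-unit depends only on its residue class mod `ℓ` -/
theorem PsiQ_congr (hp2 : p ≠ 2) {x y : ℚ} (hx0 : x ≠ 0) (hy0 : y ≠ 0) (hx : padicValRat ℓ x = 0)
    (hy : padicValRat ℓ y = 0) (h : x = y ∨ 0 < padicValRat ℓ (x - y)) :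
    PsiQ ψ x = PsiQ ψ y :=
  psiAux_congr ψ hp2 hx0 hy0 hx hy h

/-- only one term -/
theorem PsiQ_eq_single (q : Nat.Primes) (β : ℚ)
    (h : ∀ v : Nat.Primes, v ≠ q → ((padicValRat v β : ℤ) : ZMod p) * psiN ψ v = 0) :
    PsiQ ψ β = ((padicValRat q β : ℤ) : ZMod p) * psiN ψ q :=
  finsum_eq_single _ q h

end Psi

/-- [S55/G-AL-ONTO] -/
theorem w_one_sub {ζ : Qb} (hζ : IsPrimitiveRoot ζ ℓ) :
    (B.wq (pPrime ℓ)).w (1 - ζ) = 1 / ((ℓ : ℝ) - 1) := by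
  have hℓ : ℓ.Prime := Fact.out
  have hζ' : IsPrimitiveRoot ζ (((pPrime ℓ : Nat.Primes) : ℕ) ^ (0 + 1)) := by
    rw [zero_add, pow_one]; exact hζ
  have h1 := B.totient_mul_w_one_sub (pPrime ℓ) 0 hζ'
  have h2 : Nat.totient (((pPrime ℓ : Nat.Primes) : ℕ) ^ (0 + 1)) = ℓ - 1 := by
    rw [zero_add, pow_one]
    exact Nat.totient_prime hℓ
  rw [h2, Nat.cast_sub hℓ.one_lt.le, Nat.cast_one] at h1
  have h3 : ((ℓ : ℝ) - 1) ≠ 0 := by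
    have : (1 : ℝ) < ℓ := by exact_mod_cast hℓ.one_lt
    linarith
  rw [eq_div_iff h3, mul_comm]
  exact h1

/-- [S55/G-AL-ONTO] `D_ℓ → Gal(ℚ(ζ_ℓ)/ℚ)` is onto -/
theorem exists_mem_Dq_cyclo (a : (ZMod ℓ)ˣ) : ∃ g ∈ Dq (pPrime ℓ), cycloChar ℓ g = a := by
  have hℓ : ℓ.Prime := Fact.out
  obtain ⟨η, hη⟩ := alWq_exists_prim ℓ hℓ.pos
  have hη' : IsPrimitiveRoot η (((pPrime ℓ : Nat.Primes) : ℕ) ^ 1) := by
    rw [pow_one]; exact hη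
  have hna : ¬ ((pPrime ℓ : Nat.Primes) : ℕ) ∣ (a : ZMod ℓ).val := by
    intro h
    have h1 : (((a : ZMod ℓ).val : ℕ) : ZMod ℓ) = 0 := (ZMod.natCast_eq_zero_iff _ _).2 h
    rw [ZMod.natCast_zmod_val] at h1
    exact a.ne_zero h1
  obtain ⟨g, hg, h1⟩ := B.cyclo_onto (pPrime ℓ) 1 hη' hna
  refine ⟨g, hg, Units.ext ?_⟩
  rw [E.cycloChar_spec ℓ g hη.pow_eq_one] at h1
  have hη0 : η ≠ 0 := hη.ne_zero hℓ.ne_zero
  have h2 : (Units.mk0 η hη0) ^ ((cycloChar ℓ g : (ZMod ℓ)ˣ) : ZMod ℓ).val =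
      (Units.mk0 η hη0) ^ (a : ZMod ℓ).val :=
    Units.ext (by simpa using h1)
  rw [pow_eq_pow_iff_modEq] at h2
  have h3 : orderOf (Units.mk0 η hη0) = ℓ := by
    rw [← orderOf_units, Units.val_mk0, ← hη.eq_orderOf]
  rw [h3, ← ZMod.natCast_eq_natCast_iff, ZMod.natCast_zmod_val, ZMod.natCast_zmod_val] at h2
  exact h2

open Polynomial in
/-- `(Fx H)(ζ)` is spanned by `(1 - ζ)^i`, `i < ℓ - 1` -/
theorem alRes_coeffs (H : Subgroup GQ) {ζ : Qb} (hζ : IsPrimitiveRoot ζ ℓ) {z : Qb}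
    (hz : z ∈ B.Fx (B.stab H ζ)) :
    ∃ c : ℕ → Qb, (∀ i, c i ∈ B.Fx H) ∧ z = ∑ i ∈ Finset.range (ℓ - 1), c i * (1 - ζ) ^ i := by
  have hℓ : ℓ.Prime := Fact.out
  have hfin : {y : Qb | ∃ σ ∈ H, σ ζ = y}.Finite := by
    have h1 : {y : Qb | y ^ ℓ = 1}.Finite := by
      have h2 : (X ^ ℓ - 1 : Polynomial Qb) ≠ 0 := X_pow_sub_C_ne_zero hℓ.pos 1
      refine ((X ^ ℓ - 1 : Polynomial Qb).roots.toFinset.finite_toSet).subset ?_
      intro y hy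
      simp only [Finset.mem_coe, Multiset.mem_toFinset]
      rw [mem_roots h2]
      simp only [IsRoot, eval_sub, eval_pow, eval_X, eval_one]
      rw [hy, sub_self]
    refine h1.subset ?_
    rintro y ⟨σ, -, rfl⟩
    change (σ ζ) ^ ℓ = 1
    rw [← map_pow, hζ.pow_eq_one, map_one]
  obtain ⟨n, c, hc, hzc⟩ := B.exists_coeffs_stab hfin hz
  let P : Polynomial (B.Fx H) := ∑ i ∈ Finset.range n, C (⟨c i, hc i⟩ : B.Fx H) * X ^ i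
  have hP : aeval ζ P = z := by
    simp only [P, map_sum, map_mul, map_pow, aeval_X, aeval_C]
    rw [hzc]
    rfl
  let Φ : Polynomial (B.Fx H) := cyclotomic ℓ (B.Fx H)
  have hΦm : Φ.Monic := cyclotomic.monic ℓ _
  have hΦd : Φ.natDegree = ℓ - 1 := by
    rw [natDegree_cyclotomic, Nat.totient_prime hℓ]
  have hΦ0 : aeval ζ Φ = 0 := by
    have := hζ.isRoot_cyclotomic hℓ.pos
    rw [IsRoot, ← map_cyclotomic ℓ (algebraMap (B.Fx H) Qb), eval_map_algebraMap] at this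
    exact this
  let R : Polynomial (B.Fx H) := P %ₘ Φ
  have hR : aeval ζ R = z := by
    have h1 := modByMonic_add_div P Φ
    have h2 := congrArg (aeval ζ) h1
    rw [map_add, map_mul, hΦ0, zero_mul, add_zero, hP] at h2
    exact h2
  have hRd : R.natDegree < ℓ - 1 := by
    rw [← hΦd]
    refine natDegree_modByMonic_lt P hΦm ?_
    intro h1
    rw [h1, natDegree_one] at hΦd
    have := hℓ.two_le
    omega
  let Q : Polynomial (B.Fx H) := R.comp (1 - X)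
  have hQ : aeval (1 - ζ) Q = z := by
    simp only [Q]
    rw [aeval_comp, map_sub, map_one, aeval_X, sub_sub_cancel, hR]
  have hQd : Q.natDegree < ℓ - 1 := by
    refine lt_of_le_of_lt ?_ hRd
    refine (natDegree_comp_le).trans ?_
    have h1 : (1 - X : Polynomial (B.Fx H)).natDegree ≤ 1 := by
      refine (natDegree_sub_le _ _).trans ?_
      simp
    calc R.natDegree * (1 - X : Polynomial (B.Fx H)).natDegree ≤ R.natDegree * 1 :=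
          Nat.mul_le_mul_left _ h1
      _ = R.natDegree := mul_one _
  refine ⟨fun i => ((Q.coeff i : B.Fx H) : Qb), fun i => (Q.coeff i).2, ?_⟩
  rw [← hQ, aeval_eq_sum_range' hQd]
  refine Finset.sum_congr rfl fun i _ => ?_
  rw [Algebra.smul_def]
  rfl

/-- [S55/G-AL-RES] the residue field of `Z_ℓ(ζ_ℓ)` is `𝔽_ℓ` -/
theorem exists_rat_congr {ζ : Qb} (hζ : IsPrimitiveRoot ζ ℓ) {z : Qb}
    (hz : z ∈ B.Fx (B.stab (Dq (pPrime ℓ)) ζ)) (hz0 : (B.wq (pPrime ℓ)).GE z 0) :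
    ∃ a : ℚ, (B.wq (pPrime ℓ)).GT (z - (a : Qb)) 0 := by
  have hℓ : ℓ.Prime := Fact.out
  obtain ⟨m, hm⟩ : ∃ m : ℕ, ℓ - 1 = m := ⟨_, rfl⟩
  have hm0 : 0 < m := by have := hℓ.two_le; omega
  have hmR : (0 : ℝ) < (m : ℝ) := by exact_mod_cast hm0
  obtain ⟨θ, hθ⟩ : ∃ θ : Qb, θ = 1 - ζ := ⟨_, rfl⟩
  obtain ⟨v, hv⟩ : ∃ v : RVal Qb, v = B.wq (pPrime ℓ) := ⟨_, rfl⟩
  have hw : v.w θ = 1 / (m : ℝ) := by
    rw [hv, hθ, w_one_sub hζ, ← hm, Nat.cast_sub hℓ.one_le, Nat.cast_one]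
  have hθ0 : θ ≠ 0 := by
    rw [hθ, sub_ne_zero]
    exact (hζ.ne_one hℓ.one_lt).symm
  obtain ⟨c, hcmem, hzc⟩ := alRes_coeffs (Dq (pPrime ℓ)) hζ hz
  rw [hm, ← hθ] at hzc
  rw [← hv] at hz0 ⊢
  have hterm : ∀ i, c i * θ ^ i ≠ 0 →
      ∃ n : ℤ, v.w (c i * θ ^ i) = ((n * m + i : ℤ) : ℝ) * (1 / (m : ℝ)) := by
    intro i hi
    have hci : c i ≠ 0 := left_ne_zero_of_mul hi
    obtain ⟨n, hn⟩ := B.w_int (pPrime ℓ) (hcmem i) hci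
    refine ⟨n, ?_⟩
    rw [v.map_mul _ _ hci (pow_ne_zero _ hθ0), RVal.w_pow hθ0, hw, hv, hn]
    push_cast
    field_simp
  have hpos : (0 : ℝ) < 1 / (m : ℝ) := by positivity
  have hd : ∀ i ∈ Finset.range m, ∀ j ∈ Finset.range m, c i * θ ^ i ≠ 0 → c j * θ ^ j ≠ 0 →
      v.w (c i * θ ^ i) = v.w (c j * θ ^ j) → i = j := by
    intro i hi j hj hi0 hj0 hij
    obtain ⟨n, hn⟩ := hterm i hi0
    obtain ⟨n', hn'⟩ := hterm j hj0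
    rw [hn, hn'] at hij
    have h1 : ((n * m + i : ℤ) : ℝ) = ((n' * m + j : ℤ) : ℝ) := mul_right_cancel₀ hpos.ne' hij
    have h2 : n * m + i = n' * m + j := by exact_mod_cast h1
    rw [Finset.mem_range] at hi hj
    have h3 : (i : ℤ) % m = (j : ℤ) % m := by
      have e1 : (n * m + i) % (m : ℤ) = (i : ℤ) % m := by
        rw [add_comm, Int.add_mul_emod_self_right]
      have e2 : (n' * m + j) % (m : ℤ) = (j : ℤ) % m := by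
        rw [add_comm, Int.add_mul_emod_self_right]
      rw [← e1, ← e2, h2]
    rw [Int.emod_eq_of_lt (by positivity) (by exact_mod_cast hi),
      Int.emod_eq_of_lt (by positivity) (by exact_mod_cast hj)] at h3
    exact_mod_cast h3
  have hge := B.GE_of_sum_of_distinct v (Finset.range m) (fun i => c i * θ ^ i) hd
    (a := 0) (by rw [← hzc]; exact hz0)
  have h0mem : 0 ∈ Finset.range m := Finset.mem_range.2 hm0
  have hdiff : v.GT (z - c 0) 0 := by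
    have e : z - c 0 = ∑ i ∈ (Finset.range m).erase 0, c i * θ ^ i := by
      rw [hzc, ← Finset.add_sum_erase _ _ h0mem]
      simp
    rw [e]
    refine B.GT_sum v _ _ 0 fun i hi => ?_
    obtain ⟨hi0, hir⟩ := Finset.mem_erase.1 hi
    by_cases hz : c i * θ ^ i = 0
    · exact Or.inl hz
    refine Or.inr ?_
    have h1 := (hge i hir).le_w hz
    obtain ⟨n, hn⟩ := hterm i hz
    refine lt_of_le_of_ne h1 fun h2 => ?_
    rw [hn] at h2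
    have h3 : ((n * m + i : ℤ) : ℝ) = 0 := (mul_eq_zero.1 h2.symm).resolve_right hpos.ne'
    have h4 : n * m + i = 0 := by exact_mod_cast h3
    have h5 : (m : ℤ) ∣ i := ⟨-n, by linarith⟩
    have h6 : m ∣ i := by exact_mod_cast h5
    exact absurd (Nat.le_of_dvd (Nat.pos_of_ne_zero hi0) h6) (not_le.2 (Finset.mem_range.1 hir))
  obtain ⟨a, ha⟩ := B.exists_rat_approx (pPrime ℓ) (hcmem 0) 0
  refine ⟨a, ?_⟩
  rw [← hv] at ha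
  have e : z - (a : Qb) = (z - c 0) + (c 0 - algebraMap ℚ Qb a) := by
    rw [eq_ratCast]
    ring
  rw [e]
  exact hdiff.add ha

/-- [S55/G-AL-LAM] `ℓ` is a norm from `C` -/
theorem exists_lambda {γ : GQ} (hγ : γ ∉ HC ψ) :
    ∃ lam ∈ B.Fx (HC ψ), lam ≠ 0 ∧ B.Nm γ p lam = (ℓ : Qb) :=
  lamAux_main ψ hγ

theorem alRam_coe_pPrime (ℓ : ℕ) [Fact ℓ.Prime] : ((pPrime ℓ : Nat.Primes) : ℕ) = ℓ := rfl

theorem alRam_Nm_zpow (s : GQ) (n : ℕ) (x : Qb) (k : ℤ) : B.Nm s n (x ^ k) = B.Nm s n x ^ k := by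
  simp only [B.Nm, map_zpow₀, Finset.prod_zpow]

theorem alRam_stab_le {ζ : Qb} (hζ : IsPrimitiveRoot ζ ℓ) (D : Subgroup GQ) :
    B.stab D ζ ≤ D ⊓ HC ψ := by
  intro g hg
  refine ⟨hg.1, mem_HC_of_cycloChar ψ (E.cycloChar_eq_one ℓ g ?_)⟩
  intro t ht
  have : NeZero ℓ := ⟨(Fact.out : ℓ.Prime).ne_zero⟩
  obtain ⟨j, -, rfl⟩ := hζ.eq_pow_of_pow_eq_one (ξ := t) ht
  rw [map_pow, hg.2]

theorem alRam_wq_rat (β : ℚ) (hβ : β ≠ 0) :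
    (B.wq (pPrime ℓ)).w (β : Qb) = (padicValRat ℓ β : ℤ) := wq_rat (pPrime ℓ) β hβ

/-- [S55/G-AL-RAM] -/
theorem PsiQ_eq_zero_of_isLocNorm (hp2 : p ≠ 2) {a : (ZMod ℓ)ˣ} (ha : ψ a ≠ 1) (β : ℚ)
    (hβ : β ≠ 0) (h : IsLocNorm p (Dq (pPrime ℓ)) (HC ψ) (β : Qb)) : PsiQ ψ β = 0 := by
  have hp : p.Prime := Fact.out
  have hℓ : ℓ.Prime := Fact.out
  have hℓ0 : (ℓ : ℚ) ≠ 0 := by exact_mod_cast hℓ.ne_zero
  have hns : ¬ Dq (pPrime ℓ) ≤ HC ψ := by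
    intro hle
    obtain ⟨g, hg, hga⟩ := exists_mem_Dq_cyclo (ℓ := ℓ) a
    have h1 : psiG ψ g = 1 := hle hg
    rw [psiG, MonoidHom.comp_apply, hga] at h1
    exact ha h1
  obtain ⟨γ, hγ, hγ', z, hz, hN⟩ := h.resolve_left hns
  obtain ⟨lam, hlam, hlam0, hNlam⟩ := exists_lambda ψ hγ'
  obtain ⟨n, hn⟩ : ∃ n : ℤ, n = padicValRat ℓ β := ⟨_, rfl⟩
  obtain ⟨z', hz'⟩ : ∃ z' : Qb, z' = z / lam ^ n := ⟨_, rfl⟩
  obtain ⟨β', hβ'⟩ : ∃ β' : ℚ, β' = β / (ℓ : ℚ) ^ n := ⟨_, rfl⟩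
  have hβ'0 : β' ≠ 0 := by rw [hβ']; exact div_ne_zero hβ (zpow_ne_zero _ hℓ0)
  have hβQ : (β : Qb) ≠ 0 := by exact_mod_cast hβ
  have hz0 : z ≠ 0 := by
    rintro rfl
    rw [(B.Nm_eq_zero_iff γ hp.pos).2 rfl] at hN
    exact hβQ hN.symm
  have hz'0 : z' ≠ 0 := by rw [hz']; exact div_ne_zero hz0 (zpow_ne_zero _ hlam0)
  have hN' : B.Nm γ p z' = (β' : Qb) := by
    rw [hz', B.Nm_div, alRam_Nm_zpow, hN, hNlam, hβ']
    push_cast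
    rfl
  have hval : padicValRat ℓ β' = 0 := by
    rw [hβ', padicValRat.div hβ (zpow_ne_zero _ hℓ0), padicValRat.zpow,
      padicValRat.self hℓ.one_lt, ← hn]
    ring
  have hwβ' : (B.wq (pPrime ℓ)).w (β' : Qb) = 0 := by
    rw [alRam_wq_rat β' hβ'0, hval]; simp
  have hwz' : (B.wq (pPrime ℓ)).w z' = 0 := by
    have h1 := B.w_Nm (B.pres_Dq (pPrime ℓ)) hγ p hz'0
    rw [hN', hwβ'] at h1
    have hp0 : (p : ℝ) ≠ 0 := by exact_mod_cast hp.ne_zero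
    exact (mul_eq_zero.1 h1.symm).resolve_left hp0
  obtain ⟨ζ, hζ⟩ := alWq_exists_prim ℓ hℓ.pos
  have hmem : z' ∈ B.Fx (Dq (pPrime ℓ) ⊓ HC ψ) := by
    rw [hz']
    exact div_mem hz (zpow_mem (B.Fx_mono inf_le_right hlam) n)
  have hmem' : z' ∈ B.Fx (B.stab (Dq (pPrime ℓ)) ζ) := B.Fx_mono (alRam_stab_le ψ hζ _) hmem
  obtain ⟨c, hc⟩ := exists_rat_congr hζ hmem' (Or.inr hwz'.ge)
  have hcEQ : (B.wq (pPrime ℓ)).EQ (c : Qb) 0 := by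
    have h1 : (B.wq (pPrime ℓ)).EQ z' 0 := ⟨hz'0, hwz'⟩
    have := h1.sub_GT hc
    rwa [sub_sub_cancel] at this
  have hc0 : c ≠ 0 := by
    rintro rfl
    exact hcEQ.ne_zero (by simp)
  have hcval : padicValRat ℓ c = 0 := by
    have h1 := hcEQ.w_eq
    rw [alRam_wq_rat c hc0] at h1
    exact_mod_cast h1
  have hconj : ∀ i : ℕ, (B.wq (pPrime ℓ)).GT ((γ ^ i) z' - (c : Qb)) 0 := by
    intro i
    have := (B.pres_Dq (pPrime ℓ)).GT (Subgroup.pow_mem _ hγ i) hc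
    rwa [map_sub, map_ratCast] at this
  have hind : ∀ k : ℕ, (B.wq (pPrime ℓ)).GT (B.Nm γ k z' - (c : Qb) ^ k) 0 := by
    intro k
    induction k with
    | zero => simpa using RVal.GT_zero (v := B.wq (pPrime ℓ)) 0
    | succ k ih =>
      rw [B.Nm_succ, pow_succ]
      refine B.GT_mul_sub_mul _ ?_ hcEQ.GE ih (hconj k)
      refine Or.inr ?_
      rw [B.w_Nm (B.pres_Dq (pPrime ℓ)) hγ k hz'0, hwz', mul_zero]
  have hfin := hind p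
  rw [hN'] at hfin
  have hcong : β' = c ^ p ∨ 0 < padicValRat ℓ (β' - c ^ p) := by
    by_cases he : β' = c ^ p
    · exact Or.inl he
    · right
      have hne : β' - c ^ p ≠ 0 := sub_ne_zero.2 he
      have h1 : ((β' - c ^ p : ℚ) : Qb) ≠ 0 := by exact_mod_cast hne
      have h2 : (β' : Qb) - (c : Qb) ^ p = ((β' - c ^ p : ℚ) : Qb) := by push_cast; rfl
      rw [h2] at hfin
      have h3 := hfin.lt_w h1
      rw [alRam_wq_rat _ hne] at h3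
      exact_mod_cast h3
  have hcp0 : c ^ p ≠ 0 := pow_ne_zero _ hc0
  have hcpval : padicValRat ℓ (c ^ p) = 0 := by
    rw [padicValRat.pow, hcval, mul_zero]
  have h1 := PsiQ_congr ψ hp2 hβ'0 hcp0 hval hcpval hcong
  rw [PsiQ_pow ψ hc0] at h1
  have h2 : p • PsiQ ψ c = 0 := by
    rw [nsmul_eq_mul, ZMod.natCast_self, zero_mul]
  have h3 : β = β' * (ℓ : ℚ) ^ n := by
    rw [hβ', div_mul_cancel₀ _ (zpow_ne_zero _ hℓ0)]
  rw [h3, PsiQ_mul ψ hβ'0 (zpow_ne_zero _ hℓ0), h1, h2, PsiQ_zpow ψ hℓ0, PsiQ_ell, smul_zero,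
    add_zero]

end Fermat.Agent.S55.G.Al
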