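import Fermat.Agent.S55.G.AlCoh
import Fermat.Agent.S55.G.AlEll
import Fermat.Agent.S55.G.AlRam

/-!
# S55 / layer G : (α) for `ℚ` (assembly)
-/

set_option autoImplicit false

noncomputable section

namespace Fermat.Agent.S55.G.Al

open T ExtCitation

variable {p : ℕ} [Fact p.Prime]

/-- the reciprocity law for `C / ℚ` in the form needed -/
theorem core_Q (hp2 : p ≠ 2) (q : Nat.Primes) :
    ∃ (ℓ : ℕ) (_ : Fact ℓ.Prime) (ψ : (ZMod ℓ)ˣ →* Multiplicative (ZMod p)), ¬ Dq q ≤ HC ψ ∧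
      ∀ β : ℚ, β ≠ 0 → (∀ v, v ≠ q → IsLocNorm p (Dq v) (HC ψ) (β : Qb)) →
        IsLocNorm p (Dq q) (HC ψ) (β : Qb) := by
  obtain ⟨ℓ, hℓ, hq, hpow⟩ := exists_ell (p := p) hp2 q
  obtain ⟨ψ, hψ⟩ := exists_psi (p := p) _ hpow
  have hψq : psiN ψ q ≠ 0 := by
    rw [psiN_of_coprime ψ hq]
    exact hψ
  have hns : ¬ Dq q ≤ HC ψ := fun h => hψq (psiN_eq_zero_of_le ψ q h)
  refine ⟨ℓ, hℓ, ψ, hns, fun β hβ h => ?_⟩
  have hLq : pPrime ℓ ≠ q := by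
    rintro rfl
    have h1 : (ℓ : ℕ).Coprime ℓ := hq
    rw [Nat.coprime_self] at h1
    exact hℓ.out.one_lt.ne' h1
  have h0 : PsiQ ψ β = 0 := PsiQ_eq_zero_of_isLocNorm ψ hp2 hψ β hβ (h _ hLq)
  have h1 : PsiQ ψ β = ((padicValRat q β : ℤ) : ZMod p) * psiN ψ q := by
    refine PsiQ_eq_single ψ q β fun v hv => ?_
    by_cases hvℓ : (v : ℕ).Coprime ℓ
    · by_cases hle : Dq v ≤ HC ψ
      · rw [psiN_eq_zero_of_le ψ v hle, mul_zero]
      · have := dvd_of_isLocNorm ψ v hvℓ hle β hβ (h v hv)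
        rw [(ZMod.intCast_zmod_eq_zero_iff_dvd _ p).2 this, zero_mul]
    · rw [psiN, dif_neg hvℓ, mul_zero]
  rw [h0] at h1
  have h2 : ((padicValRat q β : ℤ) : ZMod p) = 0 := by
    rcases mul_eq_zero.1 h1.symm with h | h
    · exact h
    · exact absurd h hψq
  exact isLocNorm_of_dvd ψ q hq β hβ ((ZMod.intCast_zmod_eq_zero_iff_dvd _ p).1 h2)

/-- **(α) for `ℚ`** -/
theorem alphaQ (hp2 : p ≠ 2) (hL : LBC p lvlQ (cycloChar p) Dq)
    (hH : HasseAll p lvlQ (cycloChar p) Dq) : Alpha p lvlQ (cycloChar p) Dq :=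
  alpha_of_core hL hH (core_Q hp2)

end Fermat.Agent.S55.G.Al
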