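import Fermat.Agent.S55.G.Pre
import Fermat.Agent.S55.A.Eff

/-!
# S55 / layer G1 : the Hasse principle from its cyclic step  (formal + finite group theory)

## key S55/G-EFF : `exists_efface`
`x = [z]`, `z` a level constant 2-cocycle with values in `M = Fn π ρ`.  Choose `U ∈ 𝓛.sets` NORMAL with `z (g u) (h u') = z g h`
(`LC2.exists_normal` in `Coh/LES.lean`) and acting trivially on the finitely many values of `z` and on `Σ`
(`Smooth.exists_of_finite`, `smooth_Fn`; the set of values is finite: `z` factors through `G/U × G/U`; intersect levels with `𝓛.inter`, `𝓛.normal`).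
`b : G → (Σ × G/U → A)`, `b g (t, sU) := (Fn π ρ s (z s⁻¹ g)) t`  (well defined: `s u · z (u⁻¹ s⁻¹) g = s · u · z (s⁻¹ u'') g = s · z s⁻¹ g`).
Then `d¹ b = pull fst ∘ z` by the cocycle identity for `(s⁻¹, g, h)`:  `z (s⁻¹ g) h + z s⁻¹ g = s⁻¹ · z g h + z s⁻¹ (g h)`; `b` is `LC1`.

## key S55/G-SUBTOR : `cycTorsor_coset`, `exists_index_p`
`R' ≤ R`, `h₀ ∈ R` normalising `R'`... : `G/R' → G/R` is a cyclic torsor with `σ (g R') = g h₀ R'`.
`exists_index_p`: `U ≤ R`, `U` normal in `G`, `[R : U] = p^(n+1)`.  The finite `p`-group `R/U` has a subgroup of order `p^n`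
(`Sylow.exists_subgroup_card_pow_prime_le` with `⊥`), which is normal (`Subgroup.normal_of_index_eq_minFac_card`); take the preimage.

## key S55/G-SPLIT : `cyc_of_trans`  (reduction of the cyclic step to transitive `π`, `π'`)
(a) `π` arbitrary: by `H2_eq_zero_of_fib` (orbits) it suffices that `y_ω := (ι_ω)^* y = 0`; `y_ω` is locally trivial (`res2_H2c`) and dies on the base change
`FibProd ι_ω u` (`T.baseChange`, `pull_pull`).  So we may assume `π` transitive.
(b) `π` transitive, `π'` not transitive: let `O'` be an orbit of `π'`.  `u : O' → Σ` is surjective (`π` transitive) and injective: if `u s = u t`, `s, t ∈ O'`, then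
`t = σ^k s = g s`; if `p ∤ k` then `σ^k`, hence `σ` preserves `O'` [`σ^k (g' s) = g' σ^k s = g' g s`; `σ = (σ^k)^m`], and then `O' = Σ'` (every `s'` has `u s' = u (g' s)`, so
`s' = σ^j g' s ∈ O'`), contradiction.  So there is a `G`-equivariant section `w` of `u` and `y = w^* u^* y = 0` (`pull_pull`, `pull_id`).

## key S55/G-TOWER : `hasse_of_cyc`
`x` locally trivial.  `exists_efface` gives `U`; shrink it so that `U ≤ ker χ` (`hχ 1`) [the pull back to a smaller `U'` factors through the pull back to `U`].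
CLAIM(n): for all `R` with `U ≤ R`, `U.relIndex R = p^n`: `(fst : Σ × G/R → Σ)^* x = 0`.   `n = 0`: `R = U`.
`n + 1`: `R'` from `exists_index_p`; `Σ × G/R' → Σ × G/R` is a cyclic torsor of order `p` (`cycTorsor_prod` of `cycTorsor_coset`); stabilisers of `Σ × G/R` lie in conjugates of `R`, and
`χ (R) = 1` because `χ(R)` is a quotient of the `p`-group `R/U` inside a group of order `p - 1`; apply `cyc_of_trans`.
END: `R` = preimage of a Sylow `p`-subgroup of `G/U`; `d = [G : R]` is prime to `p`; `d • x = fst_* fst^* x = 0` (`push_pull_of_card`), `p • x = 0` (`nsmul_H2_eq_zero`).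
-/

set_option autoImplicit false

noncomputable section

namespace Fermat.Agent.S55.G

open T

section Efface

variable {G : Type*} [Group G] {𝓛 : Lvl G} {Sg : Type*} [Finite Sg] {π : G →* Equiv.Perm Sg}
  {A : Type*} [AddCommGroup A] {ρ : G →* AddMonoid.End A}

/-- [S55/G-EFF] every class in `H²(Fn π ρ)` dies on `Σ × G/U` for a suitable normal level `U` -/
theorem exists_efface (hρ : Smooth 𝓛 ρ) (hπ : SmoothSet π 𝓛) (x : H2 𝓛 (Fn π ρ)) :
    ∃ U ∈ 𝓛.sets, U.Normal ∧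
      H2c 𝓛 (isHom_pull ρ (isSetMap_fst π (cosetPerm U))) x = 0 := by
  obtain ⟨U, hU, h⟩ := Eff.exists_eta_H2_eq_zero (smooth_Fn hρ hπ) x
  obtain ⟨W, hW, hWU, hn⟩ := 𝓛.normal U hU
  refine ⟨W, hW, hn, ?_⟩
  have h1 := h W hWU
  let unc : ((G ⧸ W) → (Sg → A)) →+ (Sg × (G ⧸ W) → A) :=
    { toFun := fun F x => F x.2 x.1
      map_zero' := rfl
      map_add' := fun _ _ => rfl }
  have hunc : IsHom (Fn (cosetPerm W) (Fn π ρ)) (Fn (prodPerm π (cosetPerm W)) ρ) unc := by
    intro g F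
    funext y
    show ρ g (F ((cosetPerm W g)⁻¹ y.2) ((π g)⁻¹ y.1)) =
      ρ g (F ((prodPerm π (cosetPerm W) g)⁻¹ y).2 ((prodPerm π (cosetPerm W) g)⁻¹ y).1)
    rw [← map_inv (prodPerm π (cosetPerm W)), prodPerm_apply, map_inv, map_inv]
  have h2 := H2c_comp' 𝓛 (isHom_eta (cosetPerm W) (Fn π ρ)) hunc
    (isHom_pull ρ (isSetMap_fst π (cosetPerm W))) (fun f => rfl) x
  rw [← h2, h1, map_zero]

end Efface

section SubTor

variable {G : Type*} [Group G]

/-- the projection `G/R' → G/R` -/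
def cosetMap {R' R : Subgroup G} (h : R' ≤ R) : G ⧸ R' → G ⧸ R :=
  Quotient.map' id (fun a b hab => by
    rw [QuotientGroup.leftRel_apply] at hab ⊢
    exact h hab)

@[simp] theorem cosetMap_mk {R' R : Subgroup G} (h : R' ≤ R) (g : G) :
    cosetMap h (g : G ⧸ R') = (g : G ⧸ R) := rfl

theorem isSetMap_cosetMap {R' R : Subgroup G} (h : R' ≤ R) :
    IsSetMap (cosetPerm R) (cosetPerm R') (cosetMap h) := by
  intro g s
  induction s using QuotientGroup.induction_on with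
  | H a => rfl

/-- right translation by an element normalising `R'` -/
def cosetSigma (R' : Subgroup G) (h₀ : G) (hn : ∀ x, x ∈ R' ↔ h₀ * x * h₀⁻¹ ∈ R') :
    Equiv.Perm (G ⧸ R') where
  toFun := Quotient.map' (fun g => g * h₀) (fun a b hab => by
    rw [QuotientGroup.leftRel_apply] at hab ⊢
    have : (a * h₀)⁻¹ * (b * h₀) = h₀⁻¹ * (a⁻¹ * b) * h₀ := by group
    rw [this, hn]
    have : h₀ * (h₀⁻¹ * (a⁻¹ * b) * h₀) * h₀⁻¹ = a⁻¹ * b := by group
    rwa [this])
  invFun := Quotient.map' (fun g => g * h₀⁻¹) (fun a b hab => by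
    rw [QuotientGroup.leftRel_apply] at hab ⊢
    have : (a * h₀⁻¹)⁻¹ * (b * h₀⁻¹) = h₀ * (a⁻¹ * b) * h₀⁻¹ := by group
    rw [this, ← hn]
    exact hab)
  left_inv := fun s => by
    induction s using QuotientGroup.induction_on with
    | H a =>
      change (((a * h₀) * h₀⁻¹ : G) : G ⧸ R') = a
      simp
  right_inv := fun s => by
    induction s using QuotientGroup.induction_on with
    | H a =>
      change (((a * h₀⁻¹) * h₀ : G) : G ⧸ R') = a
      simp

@[simp] theorem cosetSigma_mk (R' : Subgroup G) (h₀ : G) (hn : ∀ x, x ∈ R' ↔ h₀ * x * h₀⁻¹ ∈ R')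
    (g : G) : cosetSigma R' h₀ hn (g : G ⧸ R') = ((g * h₀ : G) : G ⧸ R') := rfl

theorem cosetSigma_pow_mk (R' : Subgroup G) (h₀ : G) (hn : ∀ x, x ∈ R' ↔ h₀ * x * h₀⁻¹ ∈ R')
    (k : ℕ) (g : G) : (cosetSigma R' h₀ hn ^ k) (g : G ⧸ R') = ((g * h₀ ^ k : G) : G ⧸ R') := by
  induction k generalizing g with
  | zero => simp
  | succ k ih =>
    rw [pow_succ, Equiv.Perm.mul_apply, cosetSigma_mk, ih, pow_succ']
    congr 1
    group

/-- [S55/G-SUBTOR] `G/R' → G/R` is a cyclic torsor if `R/R'` is cyclic of order `n`, generated by `h₀` -/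
theorem cycTorsor_coset {R' R : Subgroup G} (h : R' ≤ R) (n : ℕ) (hn0 : 0 < n) (h₀ : G)
    (hn : ∀ x, x ∈ R' ↔ h₀ * x * h₀⁻¹ ∈ R') (h₀R : h₀ ∈ R)
    (hgen : ∀ r ∈ R, ∃ k : ℕ, h₀ ^ k * r ∈ R') (hord : ∀ k : ℕ, h₀ ^ k ∈ R' ↔ n ∣ k) :
    CycTorsor n (cosetPerm R) (cosetPerm R') (cosetMap h) (cosetSigma R' h₀ hn) where
  pos := hn0
  map := isSetMap_cosetMap h
  comm := by
    intro g s
    induction s using QuotientGroup.induction_on with
    | H a =>
      change (((g * a) * h₀ : G) : G ⧸ R') = ((g * (a * h₀) : G) : G ⧸ R')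
      rw [mul_assoc]
  surj := by
    intro s
    induction s using QuotientGroup.induction_on with
    | H a => exact ⟨(a : G ⧸ R'), rfl⟩
  fib := by
    intro s t
    induction s using QuotientGroup.induction_on with
    | H a =>
      induction t using QuotientGroup.induction_on with
      | H b =>
        rw [cosetMap_mk, cosetMap_mk, QuotientGroup.eq]
        constructor
        · intro hab
          obtain ⟨k, hk⟩ := hgen _ hab
          refine ⟨n * k - k, ?_⟩
          rw [cosetSigma_pow_mk, QuotientGroup.eq]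
          have h1 : h₀ ^ (n * k) ∈ R' := (hord _).mpr (dvd_mul_right n k)
          have h2 : k ≤ n * k := Nat.le_mul_of_pos_left k hn0
          have h3 : h₀ ^ (n * k) = h₀ ^ (n * k - k) * h₀ ^ k := by
            rw [← pow_add, Nat.sub_add_cancel h2]
          have h4 : (a * h₀ ^ (n * k - k))⁻¹ * b = (h₀ ^ (n * k))⁻¹ * (h₀ ^ k * (a⁻¹ * b)) := by
            rw [h3]; group
          rw [h4]
          exact R'.mul_mem (R'.inv_mem h1) hk
        · rintro ⟨k, hk⟩
          rw [cosetSigma_pow_mk, QuotientGroup.eq] at hk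
          have h1 : a⁻¹ * b = h₀ ^ k * ((a * h₀ ^ k)⁻¹ * b) := by group
          rw [h1]
          exact R.mul_mem (R.pow_mem h₀R k) (h hk)
  pow := by
    ext s
    induction s using QuotientGroup.induction_on with
    | H a =>
      rw [cosetSigma_pow_mk, Equiv.Perm.one_apply, QuotientGroup.eq]
      have h1 : (a * h₀ ^ n)⁻¹ * a = (h₀ ^ n)⁻¹ := by group
      rw [h1]
      exact R'.inv_mem ((hord n).mpr dvd_rfl)
  free := by
    intro s k hk
    induction s using QuotientGroup.induction_on with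
    | H a =>
      rw [cosetSigma_pow_mk, QuotientGroup.eq] at hk
      have h1 : (a * h₀ ^ k)⁻¹ * a = (h₀ ^ k)⁻¹ := by group
      rw [h1, inv_mem_iff] at hk
      exact (hord k).mp hk

/-- [S55/G-SUBTOR] product of a `G`-set with a cyclic torsor -/
theorem cycTorsor_prod {Sg Sg₁ Sg₁' : Type*} (π : G →* Equiv.Perm Sg) {n : ℕ}
    {π₁ : G →* Equiv.Perm Sg₁} {π₁' : G →* Equiv.Perm Sg₁'} {u : Sg₁' → Sg₁}
    {σ : Equiv.Perm Sg₁'} (T : CycTorsor n π₁ π₁' u σ) :
    CycTorsor n (prodPerm π π₁) (prodPerm π π₁') (Prod.map id u)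
      (Equiv.prodCongr (Equiv.refl Sg) σ) := by
  have hpow : ∀ (k : ℕ) (x : Sg × Sg₁'),
      ((Equiv.prodCongr (Equiv.refl Sg) σ) ^ k) x = (x.1, (σ ^ k) x.2) := by
    intro k
    induction k with
    | zero => intro x; simp
    | succ k ih =>
      intro x
      rw [pow_succ, Equiv.Perm.mul_apply, ih, pow_succ, Equiv.Perm.mul_apply]
      rfl
  refine ⟨T.pos, fun g x => ?_, fun g x => ?_, Function.surjective_id.prodMap T.surj,
    fun s t => ?_, ?_, fun s k hk => ?_⟩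
  · exact Prod.ext rfl (T.map g x.2)
  · exact Prod.ext rfl (T.comm g x.2)
  · simp only [hpow]
    constructor
    · intro hst
      obtain ⟨k, hk⟩ := (T.fib s.2 t.2).mp (Prod.ext_iff.mp hst).2
      exact ⟨k, Prod.ext (Prod.ext_iff.mp hst).1 hk⟩
    · rintro ⟨k, hk⟩
      exact Prod.ext (Prod.ext_iff.mp hk).1 ((T.fib s.2 t.2).mpr ⟨k, (Prod.ext_iff.mp hk).2⟩)
  · ext x
    · rw [hpow]; rfl
    · rw [hpow, T.pow]; rfl
  · rw [hpow] at hk
    exact T.free s.2 k (Prod.ext_iff.mp hk).2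

theorem exists_index_p_aux {p : ℕ} [Fact p.Prime] {P : Type*} [Group P] (N : Subgroup P)
    [N.Normal] (n : ℕ) (hidx : N.index = p ^ (n + 1)) :
    ∃ (P' : Subgroup P) (h₀ : P), N ≤ P' ∧ N.relIndex P' = p ^ n ∧ P'.Normal ∧
      (∀ r, ∃ k : ℕ, h₀ ^ k * r ∈ P') ∧ (∀ k : ℕ, h₀ ^ k ∈ P' ↔ p ∣ k) := by
  have hp := (Fact.out : p.Prime)
  have hcard : Nat.card (P ⧸ N) = p ^ (n + 1) := hidx
  have : Finite (P ⧸ N) := Nat.finite_of_card_ne_zero (by rw [hcard]; exact (pow_pos hp.pos _).ne')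
  obtain ⟨K, hK⟩ := Sylow.exists_subgroup_card_pow_prime (G := P ⧸ N) p (n := n)
    (by rw [hcard]; exact pow_dvd_pow p (Nat.le_succ n))
  have hKidx : K.index = p := by
    have h1 := K.card_mul_index
    rw [hK, hcard, pow_succ] at h1
    exact Nat.eq_of_mul_eq_mul_left (pow_pos hp.pos n) h1
  have hKn : K.Normal := Subgroup.normal_of_index_eq_minFac_card
    (by rw [hKidx, hcard, hp.pow_minFac n.succ_ne_zero])
  have hP'idx : (K.comap (QuotientGroup.mk' N)).index = p := by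
    rw [Subgroup.index_comap_of_surjective _ (QuotientGroup.mk'_surjective N)]; exact hKidx
  have hP'n : (K.comap (QuotientGroup.mk' N)).Normal := hKn.comap _
  have hNP' : N ≤ K.comap (QuotientGroup.mk' N) := fun x hx => by
    rw [Subgroup.mem_comap, QuotientGroup.mk'_apply, (QuotientGroup.eq_one_iff x).mpr hx]
    exact K.one_mem
  generalize K.comap (QuotientGroup.mk' N) = P' at hP'idx hP'n hNP'
  have hrel : N.relIndex P' = p ^ n := by
    have h1 := Subgroup.relIndex_mul_index hNP'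
    rw [hP'idx, hidx, pow_succ] at h1
    exact Nat.eq_of_mul_eq_mul_right hp.pos h1
  have hC : Nat.card (P ⧸ P') = p := hP'idx
  obtain ⟨h₀, hh₀⟩ : ∃ h₀, h₀ ∉ P' := by
    by_contra hcon
    push Not at hcon
    have : P' = ⊤ := (Subgroup.eq_top_iff' P').mpr hcon
    rw [this, Subgroup.index_top] at hP'idx
    exact hp.one_lt.ne hP'idx
  have hg : (h₀ : P ⧸ P') ≠ 1 := by rwa [Ne, QuotientGroup.eq_one_iff]
  refine ⟨P', h₀, hNP', hrel, hP'n, fun r => ?_, fun k => ?_⟩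
  · obtain ⟨k, hk⟩ := mem_powers_of_prime_card hC hg (g' := ((r⁻¹ : P) : P ⧸ P'))
    refine ⟨k, ?_⟩
    have hk' : (h₀ : P ⧸ P') ^ k = ((r⁻¹ : P) : P ⧸ P') := hk
    rw [← QuotientGroup.eq_one_iff, QuotientGroup.mk_mul, QuotientGroup.mk_pow, hk',
      ← QuotientGroup.mk_mul, inv_mul_cancel]
    rfl
  · have hord : orderOf (h₀ : P ⧸ P') = p :=
      orderOf_eq_prime (by rw [← hC]; exact pow_card_eq_one') hg
    rw [← QuotientGroup.eq_one_iff, QuotientGroup.mk_pow, ← orderOf_dvd_iff_pow_eq_one, hord]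

/-- [S55/G-SUBTOR] a subgroup of index `p` in a group which is a `p`-group modulo `U` -/
theorem exists_index_p {p : ℕ} [Fact p.Prime] {U R : Subgroup G} (hU : U.Normal) (hUR : U ≤ R)
    (n : ℕ) (hidx : U.relIndex R = p ^ (n + 1)) :
    ∃ (R' : Subgroup G) (h₀ : G), U ≤ R' ∧ R' ≤ R ∧ U.relIndex R' = p ^ n ∧ h₀ ∈ R ∧
      (∀ x, x ∈ R' ↔ h₀ * x * h₀⁻¹ ∈ R') ∧ (∀ r ∈ R, ∃ k : ℕ, h₀ ^ k * r ∈ R') ∧
      (∀ k : ℕ, h₀ ^ k ∈ R' ↔ p ∣ k) := by
  obtain ⟨P', h₀, h1, h2, h3, h4, h5⟩ := exists_index_p_aux (p := p) (U.subgroupOf R) n hidx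
  have hmem : ∀ y : R, (y : G) ∈ P'.map R.subtype ↔ y ∈ P' := fun y =>
    Subgroup.mem_map_iff_mem R.subtype_injective
  refine ⟨P'.map R.subtype, h₀, ?_, Subgroup.map_subtype_le P', ?_, h₀.2, fun x => ?_,
    fun r hr => ?_, fun k => ?_⟩
  · rw [← Subgroup.map_subgroupOf_eq_of_le hUR]
    exact Subgroup.map_mono h1
  · conv_lhs => rw [← Subgroup.map_subgroupOf_eq_of_le hUR]
    rw [Subgroup.relIndex_map_map_of_injective _ _ R.subtype_injective, h2]
  · constructor
    · rintro ⟨y, hy, rfl⟩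
      exact (hmem (h₀ * y * h₀⁻¹)).mpr (h3.conj_mem y hy h₀)
    · rintro ⟨y, hy, hyx⟩
      have h6 := h3.conj_mem y hy h₀⁻¹
      have h7 : ((h₀⁻¹ * y * h₀⁻¹⁻¹ : R) : G) = x := by
        have : (y : G) = h₀ * x * (h₀ : G)⁻¹ := hyx
        push_cast
        rw [this]
        group
      rw [← h7]
      exact (hmem _).mpr h6
  · obtain ⟨k, hk⟩ := h4 ⟨r, hr⟩
    exact ⟨k, (hmem (h₀ ^ k * ⟨r, hr⟩)).mpr hk⟩
  · rw [← h5 k]
    exact hmem (h₀ ^ k)

/-- [S55/G-SUBTOR] preimage of a Sylow subgroup -/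
theorem exists_sylow_preimage (p : ℕ) [Fact p.Prime] {U : Subgroup G} (hU : U.Normal)
    [U.FiniteIndex] : ∃ (R : Subgroup G) (n : ℕ), U ≤ R ∧ U.relIndex R = p ^ n ∧ ¬ p ∣ R.index := by
  have : Finite (G ⧸ U) := Subgroup.finite_quotient_of_finiteIndex
  obtain ⟨S⟩ : Nonempty (Sylow p (G ⧸ U)) := inferInstance
  obtain ⟨n, hn⟩ := IsPGroup.iff_card.mp S.isPGroup'
  have hidx : ((S : Subgroup (G ⧸ U)).comap (QuotientGroup.mk' U)).index =
      (S : Subgroup (G ⧸ U)).index :=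
    Subgroup.index_comap_of_surjective _ (QuotientGroup.mk'_surjective U)
  have hle : U ≤ (S : Subgroup (G ⧸ U)).comap (QuotientGroup.mk' U) := fun x hx => by
    rw [Subgroup.mem_comap, QuotientGroup.mk'_apply, (QuotientGroup.eq_one_iff x).mpr hx]
    exact Subgroup.one_mem _
  refine ⟨(S : Subgroup (G ⧸ U)).comap (QuotientGroup.mk' U), n, hle, ?_, ?_⟩
  · have h1 := Subgroup.relIndex_mul_index hle
    have h2 := (S : Subgroup (G ⧸ U)).card_mul_index
    rw [hidx] at h1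
    have h3 : U.index = Nat.card (G ⧸ U) := rfl
    rw [h3, ← h2, hn] at h1
    exact Nat.eq_of_mul_eq_mul_right
      (Nat.pos_of_ne_zero (Subgroup.FiniteIndex.index_ne_zero (H := (S : Subgroup (G ⧸ U))))) h1
  · rw [hidx]
    exact S.not_dvd_index

end SubTor

variable {p : ℕ} [Fact p.Prime] {G : Type} [Group G] {𝓛 : Lvl G} {χ : G →* (ZMod p)ˣ}
  {Q : Type} {D : Q → Subgroup G}

section Split

variable {G : Type*} [Group G] {Sg Sg' : Type*} {π : G →* Equiv.Perm Sg}
  {π' : G →* Equiv.Perm Sg'} {u : Sg' → Sg} {σ : Equiv.Perm Sg'} {n : ℕ}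

theorem comm_pow_aux (T : CycTorsor n π π' u σ) (k : ℕ) (g : G) (s : Sg') :
    (σ ^ k) (π' g s) = π' g ((σ ^ k) s) := by
  induction k with
  | zero => rfl
  | succ k ih => rw [pow_succ', Equiv.Perm.mul_apply, ih, T.comm, Equiv.Perm.mul_apply]

/-- a torsor of prime order over a transitive set: if two different points of an orbit have the
same image then the total space is transitive -/
theorem isTrans_of_not_inj_aux {p : ℕ} (hp : p.Prime) (T : CycTorsor p π π' u σ) (hπ : IsTrans π)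
    {s t : Sg'} {g : G} (hg : π' g s = t) (hu : u s = u t) (hne : s ≠ t) : IsTrans π' := by
  obtain ⟨k, hk⟩ := (T.fib s t).mp hu
  have hpk : ¬ p ∣ k := by
    rintro ⟨q, rfl⟩
    apply hne
    rw [← hk, pow_mul, T.pow, one_pow]
    rfl
  -- `σ ^ k` preserves the orbit of `s`
  have hA : ∀ x, (∃ g', π' g' s = x) → ∃ g'', π' g'' s = (σ ^ k) x := by
    rintro x ⟨g', rfl⟩
    exact ⟨g' * g, by rw [comm_pow_aux T, hk, map_mul, Equiv.Perm.mul_apply, hg]⟩
  have hB : ∀ (j : ℕ) x, (∃ g', π' g' s = x) → ∃ g'', π' g'' s = ((σ ^ k) ^ j) x := by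
    intro j
    induction j with
    | zero => intro x hx; simpa using hx
    | succ j ih =>
      intro x hx
      rw [pow_succ', Equiv.Perm.mul_apply]
      exact hA _ (ih x hx)
  obtain ⟨m, -, hm⟩ := Nat.exists_mul_mod_eq_one_of_coprime
    ((Nat.Prime.coprime_iff_not_dvd hp).mpr hpk).symm hp.one_lt
  have hC : (σ ^ k) ^ m = σ := by
    rw [← pow_mul, ← Nat.div_add_mod (k * m) p, hm, pow_add, pow_mul, T.pow, one_pow, one_mul,
      pow_one]
  have hD : ∀ x, ∃ g', π' g' s = x := by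
    intro x
    obtain ⟨g', hg'⟩ := hπ.2 (u s) (u x)
    have h1 : u (π' g' s) = u x := by rw [T.map, hg']
    obtain ⟨i, hi⟩ := (T.fib _ _).mp h1
    have h2 := hB (m * i) (π' g' s) ⟨g', rfl⟩
    rw [pow_mul, hC, hi] at h2
    exact h2
  refine ⟨⟨s⟩, fun a b => ?_⟩
  obtain ⟨ga, rfl⟩ := hD a
  obtain ⟨gb, rfl⟩ := hD b
  exact ⟨gb * ga⁻¹, by rw [← Equiv.Perm.mul_apply, ← map_mul, inv_mul_cancel_right]⟩

/-- if `u` is injective on the orbits and the base is transitive, there is an equivariant section -/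
theorem exists_section_aux (hu : IsSetMap π π' u) (hs : Function.Surjective u) (hπ : IsTrans π)
    (hinj : ∀ (s t : Sg') (g : G), π' g s = t → u s = u t → s = t) :
    ∃ w : Sg → Sg', IsSetMap π' π w ∧ ∀ s, u (w s) = s := by
  obtain ⟨⟨s₀⟩, htr⟩ := hπ
  obtain ⟨s₀', rfl⟩ := hs s₀
  choose γ hγ using fun s => htr (u s₀') s
  have huw : ∀ s, u (π' (γ s) s₀') = s := fun s => by rw [hu, hγ]
  refine ⟨fun s => π' (γ s) s₀', fun g s => ?_, huw⟩
  refine hinj _ _ (g * γ s * (γ (π g s))⁻¹) ?_ ?_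
  · rw [← Equiv.Perm.mul_apply, ← map_mul, inv_mul_cancel_right, map_mul, Equiv.Perm.mul_apply]
  · rw [huw, hu, huw]

end Split

/-- the cyclic step for a transitive base -/
theorem cyc_of_trans_aux (h : Cyc p 𝓛 χ D) {Sg Sg' : Type} [Fintype Sg] [Fintype Sg']
    (π : G →* Equiv.Perm Sg) (π' : G →* Equiv.Perm Sg') (u : Sg' → Sg) (σ : Equiv.Perm Sg')
    (T : CycTorsor p π π' u σ) (hπ : SmoothSet π 𝓛) (hπ' : SmoothSet π' 𝓛) (htr : IsTrans π)
    (hst : StabIn p χ π)
    (y : H2 𝓛 (Fn π (rhoChi χ))) (hy : H2c 𝓛 (isHom_pull (rhoChi χ) T.map) y = 0)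
    (hloc : LocTriv D y) : y = 0 := by
  by_cases hinj : ∀ (s t : Sg') (g : G), π' g s = t → u s = u t → s = t
  · obtain ⟨w, hw, huw⟩ := exists_section_aux T.map T.surj htr hinj
    have hid : IsSetMap π π (fun s : Sg => s) := fun _ _ => rfl
    have h1 := pull_pull (rhoChi χ) 𝓛 T.map hw hid huw y
    rw [hy, map_zero, pull_id (rhoChi χ) 𝓛 hid (fun _ => rfl)] at h1
    exact h1.symm
  · push Not at hinj
    obtain ⟨s, t, g, hg, hu, hne⟩ := hinj
    exact h π π' u σ T hπ hπ' htr (isTrans_of_not_inj_aux Fact.out T htr hg hu hne) hst y hy hloc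

/-- [S55/G-SPLIT] the cyclic step for arbitrary (non transitive) `G`-sets -/
theorem cyc_of_trans (h : Cyc p 𝓛 χ D) {Sg Sg' : Type} [Fintype Sg] [Fintype Sg']
    (π : G →* Equiv.Perm Sg) (π' : G →* Equiv.Perm Sg') (u : Sg' → Sg) (σ : Equiv.Perm Sg')
    (T : CycTorsor p π π' u σ) (hπ : SmoothSet π 𝓛) (hπ' : SmoothSet π' 𝓛) (hst : StabIn p χ π)
    (y : H2 𝓛 (Fn π (rhoChi χ))) (hy : H2c 𝓛 (isHom_pull (rhoChi χ) T.map) y = 0)
    (hloc : LocTriv D y) : y = 0 := by
  refine H2_eq_zero_of_fib π (orbMk π) (orbMk_apply π) (rhoChi χ) 𝓛 y fun ω => ?_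
  have hv : IsSetMap π (orbAct π ω) (Fib.val (c := orbMk π) (j := ω)) := isSetMap_orb π ω
  have : Fintype (FibProd (Fib.val (c := orbMk π) (j := ω)) u) := Fintype.ofFinite _
  refine cyc_of_trans_aux h (orbAct π ω) (fibPerm hv T.map) _ _ (T.baseChange hv)
    (smoothSet_orbAct π hπ ω) (smoothSet_fibPerm hv T.map (smoothSet_orbAct π hπ ω) hπ')
    (isTrans_orbAct π ω) (fun s g hg => hst s.val g (congrArg Fib.val hg)) _ ?_ ?_
  · have hc : IsSetMap π (fibPerm hv T.map)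
        (fun x : FibProd (Fib.val (c := orbMk π) (j := ω)) u => u x.1.2) :=
      fun g x => T.map g x.1.2
    have h1 := pull_pull (rhoChi χ) 𝓛 hv (T.baseChange hv).map hc (fun x => x.2) y
    have h2 := pull_pull (rhoChi χ) 𝓛 T.map (isSetMap_fibProd_snd hv T.map) hc (fun _ => rfl) y
    rw [hy, map_zero] at h2
    exact h1.trans h2.symm
  · intro v
    have h1 := res2_H2c 𝓛 (D v).subtype (isHom_pull (rhoChi χ) hv) y
    rw [hloc v, map_zero] at h1
    exact h1

/-- `χ` is trivial on a group which is a `p`-group modulo a subgroup of `ker χ` -/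
theorem tower_chi_eq_one {U R : Subgroup G} (hU : U.Normal) (m : ℕ)
    (hidx : U.relIndex R = p ^ m) (hχU : ∀ u ∈ U, χ u = 1) {r : G} (hr : r ∈ R) : χ r = 1 := by
  have hp := (Fact.out : p.Prime)
  have h1 : (⟨r, hr⟩ : R) ^ (U.subgroupOf R).index ∈ U.subgroupOf R := Subgroup.pow_index_mem _ _
  have h2 : r ^ p ^ m ∈ U := by
    rw [← hidx]
    exact h1
  have h3 : χ r ^ p ^ m = 1 := by rw [← map_pow]; exact hχU _ h2
  have h4 : χ r ^ (p - 1) = 1 := by
    have := pow_card_eq_one' (x := χ r)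
    rwa [Nat.card_eq_fintype_card, ZMod.card_units_eq_totient, Nat.totient_prime hp] at this
  have h5 : Nat.Coprime (p ^ m) (p - 1) := by
    apply Nat.Coprime.pow_left
    have h1 := hp.one_lt
    exact Nat.coprime_of_lt_prime (by omega) (by omega) hp
  have h6 := orderOf_dvd_of_pow_eq_one h3
  have h7 := orderOf_dvd_of_pow_eq_one h4
  have h8 := Nat.dvd_gcd h6 h7
  rw [h5.gcd_eq_one, Nat.dvd_one, orderOf_eq_one_iff] at h8
  exact h8

/-- the inductive claim in the proof of `hasse_of_cyc` -/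
theorem tower_claim (h : Cyc p 𝓛 χ D) {Sg : Type} [Fintype Sg] (π : G →* Equiv.Perm Sg)
    (hπ : SmoothSet π 𝓛) (x : H2 𝓛 (Fn π (rhoChi χ))) (hx : LocTriv D x) {U : Subgroup G}
    (hU : U ∈ 𝓛.sets) (hUn : U.Normal) (hχU : ∀ u ∈ U, χ u = 1)
    (h0 : H2c 𝓛 (isHom_pull (rhoChi χ) (isSetMap_fst π (cosetPerm U))) x = 0) (n : ℕ) :
    ∀ R : Subgroup G, U ≤ R → U.relIndex R = p ^ n →
      H2c 𝓛 (isHom_pull (rhoChi χ) (isSetMap_fst π (cosetPerm R))) x = 0 := by
  have hp := (Fact.out : p.Prime)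
  induction n with
  | zero =>
    intro R hUR hidx
    rw [pow_zero, Subgroup.relIndex_eq_one] at hidx
    obtain rfl : U = R := le_antisymm hUR hidx
    exact h0
  | succ n ih =>
    intro R hUR hidx
    obtain ⟨R', h₀, hUR', hR'R, hidx', h₀R, hn, hgen, hord⟩ := exists_index_p hUn hUR n hidx
    have hoR : 𝓛.IsOpen R := ⟨U, hU, hUR⟩
    have hoR' : 𝓛.IsOpen R' := ⟨U, hU, hUR'⟩
    have := finite_quotient_of_isOpen hoR
    have := finite_quotient_of_isOpen hoR'
    have : Fintype (G ⧸ R) := Fintype.ofFinite _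
    have : Fintype (G ⧸ R') := Fintype.ofFinite _
    have T' := cycTorsor_prod π (cycTorsor_coset hR'R p hp.pos h₀ hn h₀R hgen hord)
    refine cyc_of_trans h _ _ _ _ T' (smoothSet_prodPerm π hπ (smoothSet_cosetPerm hoR))
      (smoothSet_prodPerm π hπ (smoothSet_cosetPerm hoR')) ?_ _ ?_ ?_
    · rintro ⟨t, a⟩ g hg
      induction a using QuotientGroup.induction_on with
      | H a =>
        have h1 : ((g * a : G) : G ⧸ R) = (a : G ⧸ R) := (Prod.ext_iff.mp hg).2
        rw [eq_comm, QuotientGroup.eq] at h1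
        have h2 := tower_chi_eq_one (χ := χ) hUn (n + 1) hidx hχU h1
        rw [map_mul, map_mul, map_inv, mul_comm (χ g), inv_mul_cancel_left] at h2
        exact h2
    · rw [pull_pull (rhoChi χ) 𝓛 (isSetMap_fst π (cosetPerm R)) T'.map
        (isSetMap_fst π (cosetPerm R')) (fun _ => rfl) x]
      exact ih R' hUR' hidx'
    · intro v
      have h1 := res2_H2c 𝓛 (D v).subtype (isHom_pull (rhoChi χ) (isSetMap_fst π (cosetPerm R))) x
      rw [hx v, map_zero] at h1
      exact h1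

/-- [S55/G-TOWER] **the Hasse principle** -/
theorem hasse_of_cyc (hχ : Smooth 𝓛 (rhoChi χ)) (h : Cyc p 𝓛 χ D) : HasseAll p 𝓛 χ D := by
  intro Sg _ π hπ x hx
  have hp := (Fact.out : p.Prime)
  obtain ⟨U₀, hU₀, -, h0⟩ := exists_efface hχ hπ x
  obtain ⟨V, hV, hχV⟩ := hχ 1
  obtain ⟨W, hW, hWU⟩ := 𝓛.inter U₀ hU₀ V hV
  obtain ⟨U, hU, hUW, hUn⟩ := 𝓛.normal W hW
  have hχU : ∀ u ∈ U, χ u = 1 := by
    intro u hu
    have := hχV u (hWU (hUW hu)).2
    rw [rhoChi_apply, mul_one] at this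
    exact Units.ext this
  have hUU₀ : U ≤ U₀ := fun u hu => (hWU (hUW hu)).1
  have h0' : H2c 𝓛 (isHom_pull (rhoChi χ) (isSetMap_fst π (cosetPerm U))) x = 0 := by
    have hm : IsSetMap (prodPerm π (cosetPerm U₀)) (prodPerm π (cosetPerm U))
        (Prod.map id (cosetMap hUU₀)) :=
      fun g y => Prod.ext rfl (isSetMap_cosetMap hUU₀ g y.2)
    rw [← pull_pull (rhoChi χ) 𝓛 (isSetMap_fst π (cosetPerm U₀)) hm
      (isSetMap_fst π (cosetPerm U)) (fun _ => rfl) x, h0, map_zero]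
  have := 𝓛.fin U hU
  obtain ⟨R, n, hUR, hidx, hnd⟩ := exists_sylow_preimage p hUn
  have h1 := tower_claim h π hπ x hx hU hUn hχU h0' n R hUR hidx
  have := finite_quotient_of_isOpen (𝓛 := 𝓛) (R := R) ⟨U, hU, hUR⟩
  have : Fintype (G ⧸ R) := Fintype.ofFinite _
  have h2 := push_pull_of_card (rhoChi χ) 𝓛 (isSetMap_fst π (cosetPerm R)) R.index (fun s => by
    rw [Subgroup.index_eq_card]
    exact Nat.card_congr
      { toFun := fun y => y.1.2
        invFun := fun q => ⟨(s, q), rfl⟩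
        left_inv := fun y => Subtype.ext (Prod.ext y.2.symm rfl)
        right_inv := fun _ => rfl }) x
  rw [h1, map_zero] at h2
  have h3 : p • x = 0 := nsmul_H2_eq_zero 𝓛 p (fun a => by
    ext s
    rw [Pi.smul_apply, nsmul_eq_mul, ZMod.natCast_self, zero_mul]
    rfl) x
  have h4 := addOrderOf_dvd_of_nsmul_eq_zero h2.symm
  have h5 := addOrderOf_dvd_of_nsmul_eq_zero h3
  have h6 := Nat.dvd_gcd h5 h4
  rw [((Nat.Prime.coprime_iff_not_dvd hp).mpr hnd).gcd_eq_one, Nat.dvd_one,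
    AddMonoid.addOrderOf_eq_one_iff] at h6
  exact h6

end Fermat.Agent.S55.G
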