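import Fermat.Agent.S55.G.LocIf
import Fermat.Agent.S55.G.Tower

/-!
# S55 / layer G : `Cyc` (Hasse norm theorem) and `Beta` (existence) for `ℚ`

`cyc_Q`, `beta_Q` are PROVED from the stubs of `G/LocIf.lean`, `G/LocNorm.lean` and the keys below.

## key S55/G-KUMTOR : `cycTorsor_transport`, `exists_kummer_torsor`
`α ∈ ℚ̄`, `α^p = a` (`IsAlgClosed.exists_pow_nat_eq`), `α ≠ 0`.  `R = stab π s0`, `R' = {g ∈ R | g α = α}`, `ζ = zetaP p`; `g ζ = ζ` for `g ∈ R` (`hst`, `E.cycloChar_spec`).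
For `g ∈ R`: `(g α / α)^p = 1`, so `g α = ζ^k α` (`IsPrimitiveRoot.eq_pow_of_pow_eq_one`).  `α ∉ fld π s0` (`hnp`), so there is `h₀ ∈ R`, `h₀ α = ζ' α`, `ζ' = ζ^j ≠ 1` primitive.
`h₀^k α = ζ'^k α`.  Apply `cycTorsor_coset (R' ≤ R) p _ h₀`: (hn) `h₀ x h₀⁻¹ α = α ↔ x α = α` for `x ∈ R` (as `x` fixes `ζ'`); (hgen) `r α = ζ'^i α`, take `k = p - i`;
(hord) `ζ'^k = 1 ↔ p ∣ k`.  Transport along `GQ ⧸ R ≃ Sg`, `g R ↦ π g s0` (`cycTorsor_transport`).  `R'` is open (`⊇ Fix (E(α))`, `E` a level of `π`): `smoothSet_cosetPerm`,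
`finite_quotient_of_isOpen`, `isTrans_cosetPerm`.  `s0' = 1 R'`, `stab (cosetPerm R') s0' = R'`.
## key S55/G-PLC-c : `plcRel_exists`, `plcRel_inj`
(exists) `P.2 = orbMk t`, `t = π g s0`; `g⁻¹ • primeLocalPlace v` lies over `v` (`E.liesOverPrime_smul`, `D.liesOverPrime_primeLocalPlace`); `exists_over_of_liesOver`.
(inj) both valuation rings lie over `w`, so they contain the same prime number in their maximal ideal: `v = v'` (`Over.exists_prime`; two different primes are coprime, `1 ∉ nonunits`).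
`exists_smul_of_over`: `h • (g⁻¹ • A_v) = g'⁻¹ • A_v`, `h ∈ Fix F = stab π s0` (`fixingSubgroup_fld`); `d := g' h g⁻¹ ∈ Dq v`, `π d (π g s0) = π g' (π h s0) = π g' s0`.
## key S55/G-NSPL : `not_isSplit_of_pow`
`IsSplit.isUnram`, `fiber_nonempty`, `ord_upU`: `1 = ord_W (upU a) = p ord_W α`.
-/

set_option autoImplicit false

noncomputable section

namespace Fermat.Agent.S55.G

open T ExtCitation Pointwise Fermat.Agent.S14

variable {p : ℕ} [Fact p.Prime]

/-- [S55/G-KUMTOR] transport of the base of a torsor along an isomorphism of `G`-sets -/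
theorem cycTorsor_transport {G : Type*} [Group G] {n : ℕ} {S₁ S₂ S' : Type*}
    {π₁ : G →* Equiv.Perm S₁} {π₂ : G →* Equiv.Perm S₂} {π' : G →* Equiv.Perm S'} {u : S' → S₁}
    {σ : Equiv.Perm S'} (T : CycTorsor n π₁ π' u σ) (e : S₁ → S₂) (he : Function.Bijective e)
    (hm : IsSetMap π₂ π₁ e) : CycTorsor n π₂ π' (fun s => e (u s)) σ where
  pos := T.pos
  map := fun g s => by
    change e (u (π' g s)) = π₂ g (e (u s))
    rw [T.map g s, hm g (u s)]
  comm := T.comm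
  surj := fun s => by
    obtain ⟨a, rfl⟩ := he.2 s
    obtain ⟨b, rfl⟩ := T.surj a
    exact ⟨b, rfl⟩
  fib := fun s t => by
    rw [← T.fib]
    exact he.1.eq_iff
  pow := T.pow
  free := T.free

/-- `g R ↦ π g s0` -/
def kumtorE {G : Type*} [Group G] {Sg : Type*} (π : G →* Equiv.Perm Sg) (s0 : Sg) :
    G ⧸ stab π s0 → Sg :=
  Quotient.lift (fun g => π g s0) (fun a b hab => by
    have hab' : a⁻¹ * b ∈ stab π s0 := QuotientGroup.leftRel_apply.1 hab
    rw [mem_stab, map_mul, Equiv.Perm.mul_apply, map_inv, Equiv.Perm.inv_eq_iff_eq] at hab'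
    exact hab'.symm)

theorem kumtorE_mk {G : Type*} [Group G] {Sg : Type*} (π : G →* Equiv.Perm Sg) (s0 : Sg) (g : G) :
    kumtorE π s0 (g : G ⧸ stab π s0) = π g s0 := rfl

theorem kumtorE_bijective {G : Type*} [Group G] {Sg : Type*} (π : G →* Equiv.Perm Sg)
    (htr : IsTrans π) (s0 : Sg) : Function.Bijective (kumtorE π s0) := by
  constructor
  · intro a b
    induction a using QuotientGroup.induction_on with
    | H a =>
      induction b using QuotientGroup.induction_on with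
      | H b =>
        intro h
        rw [kumtorE_mk, kumtorE_mk] at h
        rw [QuotientGroup.eq, mem_stab, map_mul, Equiv.Perm.mul_apply, map_inv,
          Equiv.Perm.inv_eq_iff_eq]
        exact h.symm
  · intro s
    obtain ⟨g, hg⟩ := htr.2 s0 s
    exact ⟨(g : _ ⧸ stab π s0), hg⟩

theorem kumtorE_isSetMap {G : Type*} [Group G] {Sg : Type*} (π : G →* Equiv.Perm Sg) (s0 : Sg) :
    IsSetMap π (cosetPerm (stab π s0)) (kumtorE π s0) := by
  intro g s
  induction s using QuotientGroup.induction_on with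
  | H a =>
    change π (g * a) s0 = π g (π a s0)
    rw [map_mul, Equiv.Perm.mul_apply]

/-- [S55/G-KUMTOR] the Kummer torsor `F(a^(1/p)) / F` -/
theorem exists_kummer_torsor {Sg : Type} [Fintype Sg] (π : GQ →* Equiv.Perm Sg)
    (hπ : SmoothSet π lvlQ) (htr : IsTrans π) (hst : StabIn p (cycloChar p) π) (s0 : Sg) (a : Qb)
    (ha : a ∈ fld π s0) (hnp : ∀ c ∈ fld π s0, c ^ p ≠ a) :
    ∃ (Sg' : Type) (_ : Fintype Sg') (π' : GQ →* Equiv.Perm Sg') (u : Sg' → Sg)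
      (σ : Equiv.Perm Sg') (_ : CycTorsor p π π' u σ) (s0' : Sg'),
      SmoothSet π' lvlQ ∧ IsTrans π' ∧ u s0' = s0 ∧ ∃ α ∈ fld π' s0', α ^ p = a := by
  have hp : p.Prime := Fact.out
  have : Fact (1 < p) := ⟨hp.one_lt⟩
  obtain ⟨α, hα⟩ := IsAlgClosed.exists_pow_nat_eq a hp.pos
  have hα0 : α ≠ 0 := by
    rintro rfl
    rw [zero_pow hp.ne_zero] at hα
    exact hnp 0 (zero_mem _) (by rw [zero_pow hp.ne_zero, hα])
  set R : Subgroup GQ := stab π s0 with hR
  -- elements of `R` fix the `p`-th roots of unity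
  have hfix : ∀ g ∈ R, ∀ t : Qb, t ^ p = 1 → g t = t := by
    intro g hg t ht
    rw [E.cycloChar_spec p g ht, hst s0 g hg, Units.val_one, ZMod.val_one, pow_one]
  have hga : ∀ g ∈ R, g a = a := fun g hg => (mem_fld π).1 ha g hg
  have hroot : ∀ g ∈ R, (g α / α) ^ p = 1 := by
    intro g hg
    rw [div_pow, ← map_pow, hα, hga g hg, div_self]
    rw [← hα]
    exact pow_ne_zero _ hα0
  -- the generator
  have hex : ∃ h₀ ∈ R, h₀ α ≠ α := by
    by_contra hcon
    push Not at hcon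
    exact hnp α ((mem_fld π).2 hcon) hα
  obtain ⟨h₀, h₀R, h₀α⟩ := hex
  set z : Qb := h₀ α / α with hz
  have hz1 : z ≠ 1 := by
    intro h
    rw [hz, div_eq_one_iff_eq hα0] at h
    exact h₀α h
  have hzp : z ^ p = 1 := hroot h₀ h₀R
  have hzprim : IsPrimitiveRoot z p := by
    rw [← orderOf_eq_prime hzp hz1]
    exact IsPrimitiveRoot.orderOf z
  have hz0 : z ≠ 0 := hzprim.ne_zero hp.ne_zero
  have h₀α' : h₀ α = z * α := by rw [hz, div_mul_cancel₀ _ hα0]
  have hfixz : ∀ g ∈ R, ∀ k : ℕ, g (z ^ k) = z ^ k := fun g hg k =>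
    hfix g hg _ (by rw [← pow_mul, mul_comm, pow_mul, hzp, one_pow])
  have hpow : ∀ k : ℕ, (h₀ ^ k) α = z ^ k * α := by
    intro k
    induction k with
    | zero => simp
    | succ k ih =>
      rw [pow_succ', AlgEquiv.mul_apply, ih, map_mul, hfixz h₀ h₀R, h₀α', pow_succ]
      ring
  have hinv : h₀⁻¹ α = z⁻¹ * α := by
    have h1 := hfixz h₀ h₀R 1
    rw [pow_one] at h1
    apply h₀.injective
    rw [← AlgEquiv.mul_apply, mul_inv_cancel, AlgEquiv.one_apply, map_mul, h₀α', map_inv₀, h1,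
      inv_mul_cancel_left₀ hz0]
  let R' : Subgroup GQ := R ⊓ MulAction.stabilizer GQ α
  have hmem : ∀ g, g ∈ R' ↔ g ∈ R ∧ g α = α := fun g => Iff.rfl
  have hle : R' ≤ R := inf_le_left
  have hn : ∀ x, x ∈ R' ↔ h₀ * x * h₀⁻¹ ∈ R' := by
    intro x
    rw [hmem, hmem]
    have h1 : h₀ * x * h₀⁻¹ ∈ R ↔ x ∈ R := by
      rw [R.mul_mem_cancel_right (R.inv_mem h₀R), R.mul_mem_cancel_left h₀R]
    rw [h1]
    refine and_congr_right fun hx => ?_
    rw [AlgEquiv.mul_apply, AlgEquiv.mul_apply, hinv, map_mul, map_inv₀]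
    have h2 := hfixz x hx 1
    rw [pow_one] at h2
    have h3 := hfixz h₀ h₀R 1
    rw [pow_one] at h3
    rw [h2, map_mul, map_inv₀, h3]
    constructor
    · intro h
      rw [h, h₀α', inv_mul_cancel_left₀ hz0]
    · intro h
      have h4 : h₀ (x α) = h₀ α := by
        rw [h₀α']
        nth_rewrite 2 [← h]
        rw [mul_inv_cancel_left₀ hz0]
      exact h₀.injective h4
  have hgen : ∀ r ∈ R, ∃ k : ℕ, h₀ ^ k * r ∈ R' := by
    intro r hr
    obtain ⟨i, hi, hir⟩ := hzprim.eq_pow_of_pow_eq_one (hroot r hr)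
    refine ⟨p - i, (hmem _).2 ⟨R.mul_mem (R.pow_mem h₀R _) hr, ?_⟩⟩
    have h1 : r α = z ^ i * α := by rw [hir, div_mul_cancel₀ _ hα0]
    rw [AlgEquiv.mul_apply, h1, map_mul, hfixz _ (R.pow_mem h₀R _), hpow, ← mul_assoc, ← pow_add,
      Nat.add_sub_cancel' hi.le, hzp, one_mul]
  have hord : ∀ k : ℕ, h₀ ^ k ∈ R' ↔ p ∣ k := by
    intro k
    rw [hmem, ← hzprim.pow_eq_one_iff_dvd, hpow]
    constructor
    · rintro ⟨-, h⟩
      exact mul_right_cancel₀ hα0 (by rw [h, one_mul])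
    · intro h
      exact ⟨R.pow_mem h₀R _, by rw [h, one_mul]⟩
  have T0 := cycTorsor_coset hle p hp.pos h₀ hn h₀R hgen hord
  have T1 := cycTorsor_transport T0 (kumtorE π s0) (kumtorE_bijective π htr s0)
    (kumtorE_isSetMap π s0)
  -- `R'` is open
  have hopen : lvlQ.IsOpen R' := by
    obtain ⟨E, hE, hER⟩ := exists_level hπ s0
    have hfd : FiniteDimensional ℚ (IntermediateField.adjoin ℚ {α}) :=
      IntermediateField.adjoin.finiteDimensional (Algebra.IsIntegral.isIntegral α)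
    refine ⟨_, ⟨E ⊔ IntermediateField.adjoin ℚ {α}, IntermediateField.finiteDimensional_sup _ _,
      rfl⟩, ?_⟩
    intro g hg
    rw [IntermediateField.fixingSubgroup_sup] at hg
    refine (hmem g).2 ⟨hER hg.1, ?_⟩
    exact (IntermediateField.mem_fixingSubgroup_iff _ _).1 hg.2 α
      (IntermediateField.mem_adjoin_simple_self ℚ α)
  have hfin : Finite (GQ ⧸ R') := finite_quotient_of_isOpen hopen
  refine ⟨GQ ⧸ R', Fintype.ofFinite _, cosetPerm R', _, _, T1, ((1 : GQ) : GQ ⧸ R'),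
    smoothSet_cosetPerm hopen, isTrans_cosetPerm R', ?_, α, ?_, hα⟩
  · change π 1 s0 = s0
    rw [map_one, Equiv.Perm.one_apply]
  · rw [mem_fld]
    intro g hg
    have h1 : ((g * 1 : GQ) : GQ ⧸ R') = ((1 : GQ) : GQ ⧸ R') := hg
    rw [eq_comm, QuotientGroup.eq, inv_one, one_mul, mul_one] at h1
    exact ((hmem g).1 h1).2

/-- the place `w` of the field of `s0` corresponds to the place `P` of the `GQ`-set -/
def PlcRel {Sg : Type} (π : GQ →* Equiv.Perm Sg) (s0 : Sg) [NumberField (fld π s0)]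
    (P : Plc Dq π) (w : Pl (fld π s0)) : Prop :=
  ∃ g : GQ, P.2 = orbMk (pv Dq π P.1) (π g s0) ∧
    Br.Over (fld π s0).val (g⁻¹ • primeLocalPlace P.1) w

/-- [S55/G-PLC-c] -/
theorem plcRel_exists {Sg : Type} (π : GQ →* Equiv.Perm Sg) (htr : IsTrans π) (s0 : Sg)
    [NumberField (fld π s0)] (P : Plc Dq π) : ∃ w, PlcRel π s0 P w := by
  obtain ⟨v, ω⟩ := P
  obtain ⟨t, rfl⟩ := orbMk_surjective _ ω
  obtain ⟨g, rfl⟩ := htr.2 s0 t
  obtain ⟨w, hw⟩ := exists_over_of_liesOver (fld π s0) (g⁻¹ • primeLocalPlace v) v v.2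
    (E.liesOverPrime_smul (D.liesOverPrime_primeLocalPlace v) g⁻¹)
  exact ⟨w, g, rfl, hw⟩

theorem natCast_mem_of_over {F : IntermediateField ℚ Qb} [NumberField F] {A : ValuationSubring Qb}
    {w : Pl F} (h : Br.Over F.val A w) {l : ℕ} (hl : A.LiesOverPrime l) :
    (l : NumberField.RingOfIntegers F) ∈ w.asIdeal := by
  rw [h]
  simpa [ValuationSubring.LiesOverPrime] using hl

/-- [S55/G-PLC-c] -/
theorem plcRel_inj {Sg : Type} (π : GQ →* Equiv.Perm Sg) (hπ : SmoothSet π lvlQ) (s0 : Sg)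
    [NumberField (fld π s0)] (P P' : Plc Dq π) (w : Pl (fld π s0)) (h : PlcRel π s0 P w)
    (h' : PlcRel π s0 P' w) : P = P' := by
  obtain ⟨v, ω⟩ := P
  obtain ⟨v', ω'⟩ := P'
  obtain ⟨g, hg, hA⟩ := h
  obtain ⟨g', hg', hA'⟩ := h'
  change ω = orbMk (pv Dq π v) (π g s0) at hg
  change ω' = orbMk (pv Dq π v') (π g' s0) at hg'
  change Br.Over (fld π s0).val (g⁻¹ • primeLocalPlace v) w at hA
  change Br.Over (fld π s0).val (g'⁻¹ • primeLocalPlace v') w at hA'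
  have hvv : v = v' := by
    by_contra hne
    have h1 := natCast_mem_of_over hA
      (E.liesOverPrime_smul (D.liesOverPrime_primeLocalPlace v) g⁻¹)
    have h2 := natCast_mem_of_over hA'
      (E.liesOverPrime_smul (D.liesOverPrime_primeLocalPlace v') g'⁻¹)
    have hco : IsCoprime ((v : ℕ) : ℤ) ((v' : ℕ) : ℤ) :=
      Nat.isCoprime_iff_coprime.mpr ((Nat.coprime_primes v.2 v'.2).mpr
        (fun h => hne (Subtype.ext h)))
    obtain ⟨a, b, hab⟩ := hco
    have h3 : (1 : NumberField.RingOfIntegers (fld π s0)) ∈ w.asIdeal := by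
      have h4 : ((a : NumberField.RingOfIntegers (fld π s0)) * ((v : ℕ) : _) +
          (b : NumberField.RingOfIntegers (fld π s0)) * ((v' : ℕ) : _)) = 1 := by
        exact_mod_cast congrArg (Int.cast : ℤ → NumberField.RingOfIntegers (fld π s0)) hab
      rw [← h4]
      exact w.asIdeal.add_mem (w.asIdeal.mul_mem_left _ h1) (w.asIdeal.mul_mem_left _ h2)
    exact w.isPrime.ne_top ((Ideal.eq_top_iff_one _).mpr h3)
  subst hvv
  obtain ⟨k, hkF, hk⟩ := exists_smul_of_over (fld π s0) _ _ w hA hA'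
  rw [fixingSubgroup_fld hπ s0] at hkF
  have hd : g' * k * g⁻¹ ∈ Dq v := by
    change (g' * k * g⁻¹) • primeLocalPlace v = primeLocalPlace v
    rw [mul_smul, mul_smul, hk, smul_inv_smul]
  subst hg hg'
  congr 1
  rw [orbMk_eq_iff]
  refine ⟨⟨_, hd⟩, ?_⟩
  change π (g' * k * g⁻¹) (π g s0) = π g' s0
  rw [← Equiv.Perm.mul_apply, ← map_mul, inv_mul_cancel_right, map_mul, Equiv.Perm.mul_apply, hkF]

/-- [S55/G-NSPL] -/
theorem not_isSplit_of_pow {F Z : Type*} [Field F] [NumberField F] [Field Z] [NumberField Z]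
    [Algebra F Z] [IsGalois F Z] (hdeg : Module.finrank F Z = p) (w : Pl F) (a : Fˣ)
    (ha : ord w a = 1) (α : Zˣ) (hα : α ^ p = upU a) : ¬ IsSplit Z w := by
  intro hs
  obtain ⟨W, hW⟩ := fiber_nonempty (Z := Z) w
  have h1 := ord_upU W a
  rw [hs.isUnram hdeg W hW, hW, ha, ← hα, ord_pow] at h1
  have h3 : (p : ℤ) ∣ 1 := ⟨_, by simpa using h1.symm⟩
  have h4 := Int.natAbs_dvd_natAbs.mpr h3
  simp at h4
  exact (Fact.out : p.Prime).one_lt.ne' h4

/-- **`Cyc` for `ℚ`** : the Hasse norm theorem `C.K2` through the dictionary -/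
theorem cyc_Q (hp : p ≠ 2) : Cyc p lvlQ (cycloChar p) Dq := by
  intro Sg Sg' _ _ π π' u σ T hπ hπ' htr htr' hst y hy hloc
  obtain ⟨s'⟩ := htr'.1
  have := numberField_fld hπ (u s')
  have := numberField_ZZ T.map hπ' s'
  have := isGalois_ZZ T hπ s'
  obtain ⟨ζ, hζ, -⟩ := exists_zeta p (u s') (hst (u s')) hπ
  have hdeg := finrank_ZZ T hπ hπ' htr' s'
  have hlow := hlow_ZZ hp T hπ hπ' htr' hst s'
  -- `κ y = θ b`
  have h1 : H2c lvlQ (isHom_pull (gm alQ) T.map) ((kumData_Q p).kap π lvlQ y) = 0 := by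
    rw [(kumData_Q p).kap_pull T.map y, hy, map_zero]
  obtain ⟨b, hb⟩ := (T.exists_theta_eq_iff galAct_Q hπ' _).2 h1
  -- `b` is a local norm everywhere
  have h2 : ∀ w : Pl (fld π (u s')), (ev htr (u s') b).toMul ∈ C.Nloc p (ZZ T.map s') w := by
    intro w
    obtain ⟨A, hA⟩ := Br.exists_over (fld π (u s')).val w
    obtain ⟨l, hl, hAl, -⟩ := hA.exists_prime
    obtain ⟨g, hg⟩ := D.exists_conj_place (q := ⟨l, hl⟩) hAl
    rw [mem_Nloc_iff_isLocNorm hp T hπ hπ' htr' hst s' A w hA]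
    have h3 := (isLocNorm_place (p := p) b T.map ⟨l, hl⟩ g⁻¹ s').1
      ((cmp_eq_zero_iff T hπ hπ' y b hb.symm ⟨l, hl⟩ (π' g⁻¹ s')).1 (by
        have h0 := hloc ⟨l, hl⟩
        rw [h0, map_zero]))
    rw [inv_inv, hg] at h3
    exact h3
  obtain ⟨z, hz⟩ := C.K2 hp hζ hdeg hlow _ h2
  have h4 : H0c (isHom_push (gm alQ) T.map) ((evZ T.map htr' s').symm (Additive.ofMul z)) = b := by
    apply (ev htr (u s')).injective
    apply Additive.toMul.injective
    rw [← hz]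
    have := ev_push T.map hπ hπ' htr htr' s' ((evZ T.map htr' s').symm (Additive.ofMul z))
    rw [AddEquiv.apply_symm_apply] at this
    exact this
  have h5 : T.theta (gm alQ) galAct_Q.smooth_gm hπ' b = 0 :=
    (T.theta_eq_zero_iff galAct_Q hπ' b).2 ⟨_, h4⟩
  rw [h5] at hb
  exact (kumData_Q p).kap_injective π galAct_Q hπ (by rw [← hb, map_zero])

/-- the component at the place `P` of the class `x`, `κ x = θ b`, vanishes iff `b` is a local norm at `w` -/
theorem cmp_eq_zero_iff_mem_Nloc (hp : p ≠ 2) {Sg Sg' : Type} [Fintype Sg] [Fintype Sg']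
    {π : GQ →* Equiv.Perm Sg} {π' : GQ →* Equiv.Perm Sg'} {u : Sg' → Sg} {σ : Equiv.Perm Sg'}
    (T : CycTorsor p π π' u σ) (hπ : SmoothSet π lvlQ) (hπ' : SmoothSet π' lvlQ) (htr : IsTrans π)
    (htr' : IsTrans π') (hst : StabIn p (cycloChar p) π) (s' : Sg')
    [NumberField (fld π (u s'))] [NumberField (ZZ T.map s')]
    (x : H2 lvlQ (Fn π (rhoChi (cycloChar p)))) (b : ↥(H0 (Fn π (gm alQ))))
    (hx : (kumData_Q p).kap π lvlQ x = T.theta (gm alQ) galAct_Q.smooth_gm hπ' b)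
    (P : Plc Dq π) (w : Pl (fld π (u s'))) (hP : PlcRel π (u s') P w) :
    cmp lvlQ Dq π (rhoChi (cycloChar p)) P.1 P.2
        (res2 lvlQ (Fn π (rhoChi (cycloChar p))) (Dq P.1).subtype x) = 0 ↔
      (ev htr (u s') b).toMul ∈ C.Nloc p (ZZ T.map s') w := by
  obtain ⟨v, ω⟩ := P
  obtain ⟨g, hg, hA⟩ := hP
  change ω = orbMk (pv Dq π v) (π g (u s')) at hg
  change Br.Over (fld π (u s')).val (g⁻¹ • primeLocalPlace v) w at hA
  change cmp lvlQ Dq π (rhoChi (cycloChar p)) v ω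
        (res2 lvlQ (Fn π (rhoChi (cycloChar p))) (Dq v).subtype x) = 0 ↔ _
  subst hg
  rw [mem_Nloc_iff_isLocNorm hp T hπ hπ' htr' hst s' _ w hA]
  have h1 := cmp_eq_zero_iff T hπ hπ' x b hx v (π' g s')
  rw [isLocNorm_place (p := p) b T.map v g s', T.map g s'] at h1
  exact h1

/-- **`Beta` for `ℚ`** : `C.K3` through the dictionary -/
theorem beta_Q (hp : p ≠ 2) : Beta p lvlQ (cycloChar p) Dq := by
  intro Sg _ π hπ htr hst P₁ P₂ hne
  obtain ⟨s0⟩ := htr.1
  have hNF := numberField_fld hπ s0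
  obtain ⟨w₁, hw₁⟩ := plcRel_exists π htr s0 P₁
  obtain ⟨w₂, hw₂⟩ := plcRel_exists π htr s0 P₂
  have hw : w₁ ≠ w₂ := by
    rintro rfl
    exact hne (plcRel_inj π hπ s0 P₁ P₂ w₁ hw₁ hw₂)
  classical
  obtain ⟨a, ha⟩ := exists_ord_eq ({w₁, w₂} : Finset (Pl (fld π s0))) (fun _ => 1)
  have ha₁ : ord w₁ a = 1 := ha w₁ (by simp)
  have ha₂ : ord w₂ a = 1 := ha w₂ (by simp)
  have hnp : ∀ c ∈ fld π s0, c ^ p ≠ ((a : fld π s0) : Qb) := by
    intro c hc hca
    have hc0 : (⟨c, hc⟩ : fld π s0) ≠ 0 := by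
      intro h0
      have : c = 0 := congrArg Subtype.val h0
      rw [this, zero_pow (Fact.out : p.Prime).ne_zero] at hca
      exact a.ne_zero (Subtype.ext hca.symm)
    have h1 : (Units.mk0 _ hc0) ^ p = a := Units.ext (Subtype.ext hca)
    have h2 : ord w₁ ((Units.mk0 _ hc0) ^ p) = 1 := by rw [h1, ha₁]
    rw [ord_pow] at h2
    have h3 : (p : ℤ) ∣ 1 := ⟨_, h2.symm⟩
    have h4 := Int.natAbs_dvd_natAbs.mpr h3
    simp at h4
    exact (Fact.out : p.Prime).one_lt.ne' h4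
  obtain ⟨Sg', _, π', u, σ, T, s0', hπ', htr', rfl, α, hα, hαa⟩ :=
    exists_kummer_torsor π hπ htr hst s0 _ (a : fld π s0).2 hnp
  have := numberField_ZZ T.map hπ' s0'
  have := isGalois_ZZ T hπ s0'
  obtain ⟨ζ, hζ, -⟩ := exists_zeta p (u s0') (hst (u s0')) hπ
  have hdeg := finrank_ZZ T hπ hπ' htr' s0'
  have hlow := hlow_ZZ hp T hπ hπ' htr' hst s0'
  have hα0 : (⟨α, hα⟩ : ZZ T.map s0') ≠ 0 := by
    intro h0
    have : α = 0 := congrArg Subtype.val h0
    rw [this, zero_pow (Fact.out : p.Prime).ne_zero] at hαa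
    exact a.ne_zero (Subtype.ext hαa.symm)
  have hαU : (Units.mk0 _ hα0) ^ p = (upU a : (ZZ T.map s0')ˣ) := Units.ext (Subtype.ext hαa)
  have hs₁ := not_isSplit_of_pow hdeg w₁ a ha₁ _ hαU
  have hs₂ := not_isSplit_of_pow hdeg w₂ a ha₂ _ hαU
  obtain ⟨b, hb, hb'⟩ := C.K3 hp hζ hdeg hlow w₁ w₂ hw hs₁ hs₂
  set b0 : ↥(H0 (Fn π (gm alQ))) := (ev htr (u s0')).symm (Additive.ofMul b) with hb0
  have hevb : (ev htr (u s0') b0).toMul = b := by rw [hb0, AddEquiv.apply_symm_apply]; rfl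
  obtain ⟨x, hx⟩ := ((kumData_Q p).exists_kap_eq_iff π galAct_Q hπ _).2
    (T.nsmul_theta galAct_Q hπ' b0)
  have key := fun P w hP =>
    cmp_eq_zero_iff_mem_Nloc hp T hπ hπ' htr htr' hst s0' x b0 hx P w hP
  refine ⟨x, ?_, fun P hP₁ hP₂ => ?_⟩
  · rcases hb' with h | h
    · refine ⟨P₁.1, fun h0 => h ?_⟩
      rw [← hevb, ← key P₁ w₁ hw₁, h0, map_zero]
    · refine ⟨P₂.1, fun h0 => h ?_⟩
      rw [← hevb, ← key P₂ w₂ hw₂, h0, map_zero]
  · obtain ⟨w, hw'⟩ := plcRel_exists π htr (u s0') P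
    rw [key P w hw', hevb]
    refine hb w ?_ ?_
    · rintro rfl
      exact hP₁ (plcRel_inj π hπ _ P P₁ w hw' hw₁)
    · rintro rfl
      exact hP₂ (plcRel_inj π hπ _ P P₂ w hw' hw₂)

end Fermat.Agent.S55.G
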