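import Fermat.Agent.S55.G.Pre
import Fermat.Agent.S55.D.ULevel
import Fermat.Agent.S55.D.RamFin
import Fermat.Agent.S55.E.Abs
import Fermat.Agent.S55.D.ProCycInst

/-!
# S55 / layer G5 : a global class is locally trivial almost everywhere

## key S55/G-RAMFIN : `finite_ramified`
`F = ℚ(θ)` (primitive element), WLOG `θ` integral (multiply by a denominator), `f` its minimal polynomial over `ℤ`/`ℚ`, `Δ = ∏_{i<j} (θ_i - θ_j)² = disc f ∈ ℤ \ {0}`
(or simply: `δ := ∏_{θ' ≠ θ conjugate} (θ - θ') ≠ 0`, `N := ` a non zero integer multiple of `δ` in `ℤ̄`, e.g. the constant coefficient of the minimal polynomial of `δ`).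
If `q ∤ N` and `i ∈ Iq q`: `i θ - θ ∈ 𝔪_A` (`E.mem_inertiaSubgroupIn_iff`) and `i θ` is a conjugate of `θ`; if `i θ ≠ θ` then `θ - i θ` divides `δ` in `ℤ̄ ⊆ A`, so `δ`, hence `N`, lies in `𝔪_A`; but
`N ∈ ℤ`, `q ∤ N` is a unit of `A` (`S05.Valuation.val_int_eq_one`).  So `i` fixes `θ`, i.e. `i ∈ F.fixingSubgroup`.

## `H2ur_vanish` : delivered by helper25 (S55/U12-abs + U12-inst, file `B/ProCyc.lean`): to be replaced by a one line proof.

## key S55/G-FIN : `fin_Q`
`x = [z]`; choose a NORMAL level `U = F.fixingSubgroup` with `z (g u) (h u') = z g h` (`LC2.exists_normal`) which acts trivially on `Fn π T` (`E.smooth_uniform`, `smooth_Fn`; intersect).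
For `q` outside `finite_ramified F`: `Iq q ≤ U`, so `z` restricted to `Dq q` satisfies the hypotheses of `H2ur_vanish`; `res2 (mk z) = mk (Z2map .. z)`.
-/

set_option autoImplicit false

noncomputable section

namespace Fermat.Agent.S55.G

open ExtCitation

/-- [S55/G-RAMFIN] only finitely many primes ramify in a number field -/
theorem finite_ramified (F : IntermediateField ℚ Qb) (hF : FiniteDimensional ℚ F) :
    {q : Nat.Primes | ¬ Iq q ≤ F.fixingSubgroup}.Finite :=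
  D.finite_ramified' F hF

/-- [S55/U12, helper25] `H²_ur = 0` -/
theorem H2ur_vanish (p : ℕ) [Fact p.Prime] (q : Nat.Primes) {A : Type} [AddCommGroup A]
    (hpA : ∀ a : A, p • a = 0) (ρ : ↥(Dq q) →* AddMonoid.End A) (z : ↥(Z2 (lvlD q) ρ))
    (hz : ∀ i : ↥(Dq q), (i : GQ) ∈ Iq q → ∀ g h, z.1 (g * i) h = z.1 g h ∧ z.1 g (h * i) = z.1 g h) :
    H2.mk (lvlD q) ρ z = 0 := by
  obtain ⟨b, hb, -, hzb⟩ := D.U1_Dq q (Fact.out : p.Prime).pos hpA z.2 hz
  rw [H2.mk_eq_zero_iff]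
  exact ⟨b, hb, hzb⟩

/-- [S55/G-FIN] -/
theorem fin_Q (p : ℕ) [Fact p.Prime] : FinAll p lvlQ (cycloChar p) Dq := by
  intro Sg _ π _ _ x
  obtain ⟨z, rfl⟩ := H2.mk_surjective lvlQ _ x
  obtain ⟨_, ⟨F, hF, rfl⟩, hU⟩ := z.2.1
  refine (finite_ramified F hF).subset fun q hq hle => hq ?_
  refine H2ur_vanish p q (fun a => ?_) _ _ fun i hi g h => ⟨?_, ?_⟩
  · ext s
    rw [Pi.smul_apply, Pi.zero_apply, nsmul_eq_mul, ZMod.natCast_self, zero_mul]
  · have := hU g h i (hle hi) 1 (one_mem _)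
    rwa [mul_one] at this
  · have := hU g h 1 (one_mem _) i (hle hi)
    rwa [mul_one] at this

end Fermat.Agent.S55.G
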