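import Fermat.Agent.S55.G.Pre
import Fermat.Agent.S55.D.ULevel
import Fermat.Agent.ES.FrobGlue

/-!
# S55 / layer G6 : `Ш¹(Fn π 𝔽_p) = 0`, from the Frobenius density theorem `ES.exists_frobenius_pow`   (key S55/G-SHA1)

No Kummer theory, no class field theory.  `M = Fn π (rhoTriv GQ (ZMod p))`, `(g m)(s) = m (g⁻¹ s)`.
Let `x = [f]`, `f (g h) = g f(h) + f(g)`, `f (g u) = f g` for `u ∈ U = L.fixingSubgroup` (`LC1`); enlarge `L` so that `U` acts trivially on `Σ`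
(`SmoothSet`, `lvlQ.inter`).  Local triviality: for every `v` there is `m_v` with `f d = d m_v - m_v` for all `d ∈ Dq v` (`H1.mk_eq_zero_iff`, `mem_B1`).
1. (conjugation) for `g₀ : GQ`, `d ∈ Dq v`, `τ = g₀ d g₀⁻¹`: `f τ = τ m' - m'` with `m' = g₀ m_v - f g₀`.
   [`f (g₀ d) = g₀ f(d) + f(g₀)` and `f (g₀ d) = f (τ g₀) = τ f(g₀) + f(τ)`.]
2. fix `s₀`, `H = stab π s₀`.  For `k ∈ H`: `f k s₀ = 0`.  Indeed `ES.exists_frobenius_pow L hL 1 one_ne_zero k` gives `l, A, σ, b` with `σ` a Frobenius at `A | l`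
   (so `σ^b ∈ A.decompositionSubgroup ℚ`) and `k = σ^b` on `L`, i.e. `σ^b = k u`, `u ∈ U`; `f (σ^b) = f k`.  By `D.exists_conj_Iq` (second component) `σ^b = g₀ d g₀⁻¹`, `d ∈ Dq ⟨l, _⟩`.
   By 1. `f (σ^b) s₀ = m' ((σ^b)⁻¹ s₀) - m' s₀ = 0` because `σ^b = k u` fixes `s₀`.
3. `m (g⁻¹ s₀) := f g s₀` is well defined (`g' = k g`, `k ∈ H`: `f (k g) s₀ = f g (k⁻¹ s₀) + f k s₀ = f g s₀`), every `s` is of this form (`IsTrans`), and
   `f g s = m (g⁻¹ s) - m s` [`s = a⁻¹ s₀`: `m (g⁻¹ a⁻¹ s₀) = f (a g) s₀ = f g (a⁻¹ s₀) + f a s₀`].  So `f = d⁰ m`.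
-/

set_option autoImplicit false

noncomputable section

namespace Fermat.Agent.S55.G

section Abs

variable {G : Type*} [Group G] {Sg : Type*} {π : G →* Equiv.Perm Sg} {A : Type*} [AddCommGroup A]

theorem sha1_Fn_apply (g : G) (m : Sg → A) (s : Sg) :
    Fn π (rhoTriv G A) g m s = m ((π g)⁻¹ s) := rfl

/-- conjugation of a local trivialisation -/
theorem sha1_conj {M : Type*} [AddCommGroup M] {ρ : G →* AddMonoid.End M} {f : G → M}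
    (hf : ∀ g h, f (g * h) = ρ g (f h) + f g) (g₀ d : G) (m : M) (hd : f d = ρ d m - m) :
    f (g₀ * d * g₀⁻¹) = ρ (g₀ * d * g₀⁻¹) (ρ g₀ m - f g₀) - (ρ g₀ m - f g₀) := by
  have h1 := hf g₀ d
  have h2 := hf (g₀ * d * g₀⁻¹) g₀
  rw [inv_mul_cancel_right] at h2
  have h3 : ρ (g₀ * d * g₀⁻¹) (ρ g₀ m) = ρ g₀ (ρ d m) := by
    have e1 : ρ (g₀ * d * g₀⁻¹) (ρ g₀ m) = ρ (g₀ * d * g₀⁻¹ * g₀) m := by
      rw [map_mul _ (g₀ * d * g₀⁻¹) g₀]; rfl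
    have e2 : ρ g₀ (ρ d m) = ρ (g₀ * d) m := by rw [map_mul]; rfl
    rw [e1, e2, inv_mul_cancel_right]
  rw [map_sub, h3]
  rw [h1, hd, map_sub] at h2
  have h4 : f (g₀ * d * g₀⁻¹) = ρ g₀ (ρ d m) - ρ g₀ m + f g₀ - ρ (g₀ * d * g₀⁻¹) (f g₀) := by
    rw [h2]; abel
  rw [h4]; abel

/-- a cocycle with values in `Map(Σ, A)` (`Σ` transitive, `A` trivial) which vanishes at `s₀` on the stabiliser of `s₀`
is a coboundary -/
theorem sha1_coboundary (htr : IsTrans π) (s₀ : Sg) {f : G → Sg → A}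
    (hf : ∀ g h, f (g * h) = Fn π (rhoTriv G A) g (f h) + f g)
    (h0 : ∀ k, π k s₀ = s₀ → f k s₀ = 0) : ∃ m, f = d0 (Fn π (rhoTriv G A)) m := by
  have hex : ∀ s, ∃ g, π g s = s₀ := fun s => htr.2 s s₀
  choose γ hγ using hex
  have key : ∀ g s, π g s = s₀ → f (γ s) s₀ = f g s₀ := by
    intro g s hg
    have hk : π (γ s * g⁻¹) s₀ = s₀ := by
      have e : (π g)⁻¹ s₀ = s := by rw [Equiv.Perm.inv_eq_iff_eq, hg]
      rw [map_mul, Equiv.Perm.mul_apply, map_inv, e, hγ]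
    have h1 := hf (γ s * g⁻¹) g
    rw [inv_mul_cancel_right] at h1
    rw [h1, Pi.add_apply, sha1_Fn_apply, h0 _ hk, add_zero]
    congr 1
    rw [Equiv.Perm.inv_eq_iff_eq, hk]
  refine ⟨fun s => f (γ s) s₀, ?_⟩
  funext g s
  rw [d0_apply, Pi.sub_apply, sha1_Fn_apply]
  have h1 : π (γ s * g) ((π g)⁻¹ s) = s₀ := by
    rw [map_mul, Equiv.Perm.mul_apply]
    simp [hγ]
  rw [key _ _ h1, hf, Pi.add_apply, sha1_Fn_apply]
  have h2 : (π (γ s))⁻¹ s₀ = s := by rw [Equiv.Perm.inv_eq_iff_eq, hγ]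
  rw [h2]
  abel

end Abs

/-- [S55/G-SHA1] -/
theorem sha1_Q (p : ℕ) [Fact p.Prime] : Sha1All' p lvlQ Dq := by
  intro Sg _ π hπ htr x hx
  obtain ⟨f, rfl⟩ := H1.mk_surjective lvlQ _ x
  obtain ⟨hLC, hf⟩ := f.2
  rw [H1.mk_eq_zero_iff]
  refine ⟨hLC, ?_⟩
  -- local trivialisations
  have hloc : ∀ v : Nat.Primes, ∃ m : Sg → ZMod p, ∀ d ∈ Dq v,
      f.1 d = Fn π (rhoTriv GQ (ZMod p)) d m - m := by
    intro v
    have h1 := hx v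
    have h2 : res1 lvlQ (Fn π (rhoTriv GQ (ZMod p))) (Dq v).subtype (H1.mk lvlQ _ f) =
        H1.mk _ _ (Z1map (LvlMap.comap lvlQ (Dq v).subtype)
          (isHomAlong_res (Fn π (rhoTriv GQ (ZMod p))) (Dq v).subtype) f) := rfl
    rw [h2, H1.mk_eq_zero_iff] at h1
    obtain ⟨-, m, hm⟩ := h1
    exact ⟨m, fun d hd => congrFun hm ⟨d, hd⟩⟩
  obtain ⟨⟨s₀⟩, -⟩ := id htr
  refine sha1_coboundary htr s₀ hf fun k hk => ?_
  -- a common level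
  obtain ⟨U, hU, hfU⟩ := hLC
  obtain ⟨U', hU', hπU⟩ := hπ
  obtain ⟨W, ⟨L, hL, rfl⟩, hW⟩ := lvlQ.inter U hU U' hU'
  obtain ⟨l, A, σ, b, hl, -, hA, hσ, hkσ⟩ := ES.exists_frobenius_pow L hL 1 one_ne_zero k
  have hw : k⁻¹ * σ ^ b ∈ L.fixingSubgroup := by
    rw [IntermediateField.mem_fixingSubgroup_iff]
    intro y hy
    rw [AlgEquiv.mul_apply, ← hkσ y hy]
    exact AlgEquiv.symm_apply_apply k y
  have hτ : σ ^ b = k * (k⁻¹ * σ ^ b) := by group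
  have hfτ : f.1 (σ ^ b) = f.1 k := by
    rw [hτ]
    exact hfU k _ (hW hw).1
  have hπτ : π (σ ^ b) s₀ = s₀ := by
    rw [hτ, map_mul, Equiv.Perm.mul_apply, hπU _ (hW hw).2, Equiv.Perm.one_apply, hk]
  obtain ⟨g₀, -, hg₀⟩ := D.exists_conj_Iq (q := ⟨l, hl⟩) hA
  have hd : g₀⁻¹ * σ ^ b * g₀ ∈ Dq ⟨l, hl⟩ :=
    (hg₀ _).1 (pow_mem hσ.mem_decompositionSubgroup b)
  obtain ⟨m, hm⟩ := hloc ⟨l, hl⟩
  have h1 := sha1_conj hf g₀ _ m (hm _ hd)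
  have e : g₀ * (g₀⁻¹ * σ ^ b * g₀) * g₀⁻¹ = σ ^ b := by group
  rw [e] at h1
  rw [← hfτ, h1, Pi.sub_apply, sha1_Fn_apply]
  have h2 : (π (σ ^ b))⁻¹ s₀ = s₀ := by rw [Equiv.Perm.inv_eq_iff_eq, hπτ]
  rw [h2, sub_self]

end Fermat.Agent.S55.G
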