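import Fermat.Agent.S55.G.Inv
import Fermat.Agent.S55.G.CycBeta
import Fermat.Agent.S55.G.Fin
import Fermat.Agent.S55.G.Sha1
import Fermat.Agent.S55.E.Chi
import Fermat.Agent.S55.G.Alpha
import Fermat.Agent.S55.B7.Inst

/-!
# S55 / layer G : the arithmetic datum for `ℚ`

`datumQ'` is proved from `datum_of` (`G/Inv.lean`) and
* `lbc_Q`   : (B7), to be wired to the final theorem of `S55/B7/` (helper3);
* `alpha_Q` : cyclotomic reciprocity, to be wired to `G/Alpha*.lean` (helper28);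
* `cyc_Q`, `beta_Q` (`G/CycBeta.lean`), `fin_Q` (`G/Fin.lean`), `sha1_Q` (`G/Sha1.lean`).
-/

set_option autoImplicit false

noncomputable section

namespace Fermat.Agent.S55.G

open ExtCitation

variable (p : ℕ) [Fact p.Prime]

/-- **[B7, helper3]** -/
theorem lbc_Q (hp : p ≠ 2) : LBC p lvlQ (cycloChar p) Dq :=
  B7.lbc_Q p hp

theorem smooth_rhoT' : Smooth lvlQ (rhoChi (cycloChar p)) := fun a =>
  ⟨_, ⟨E.cycloField p, E.finiteDimensional_cycloField p, rfl⟩, fun u hu => by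
    rw [rhoChi_apply, E.cycloChar_eq_one_of_mem p hu]; simp⟩

/-- **[G-ALPHA, helper28]** -/
theorem alpha_Q (hp : p ≠ 2) : Alpha p lvlQ (cycloChar p) Dq :=
  Al.alphaQ hp (lbc_Q p hp) (hasse_of_cyc (smooth_rhoT' p) (cyc_Q hp))

/-- **the arithmetic datum for `ℚ`** -/
theorem datumQ' (hp : p ≠ 2) : Nonempty (Datum p lvlQ (cycloChar p) Dq) :=
  datum_of (smooth_rhoT' p) (lbc_Q p hp) (fin_Q p) (cyc_Q hp) (alpha_Q p hp) (beta_Q hp) (sha1_Q p)

end Fermat.Agent.S55.G
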