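import Fermat.Agent.S55.T.Inst
import Fermat.Agent.S55.C.Main
import Fermat.Agent.S55.E.Smooth
import Fermat.Agent.S55.G.Sets

/-!
# S55, layer G0 (global dictionary): transitive smooth `GQ`-sets with base point ↔ number fields
-/

set_option autoImplicit false

noncomputable section

namespace Fermat.Agent.S55.G

open Fermat.Agent.S55 Fermat.Agent.S55.T

local instance isAlgebraicQbar_g0 : Algebra.IsAlgebraic ℚ (AlgebraicClosure ℚ) :=
  AlgebraicClosure.isAlgebraic ℚ
local instance isAlgClosureQbar_g0 : IsAlgClosure ℚ (AlgebraicClosure ℚ) :=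
  ⟨inferInstance, inferInstance⟩
local instance normalQbar_g0 : Normal ℚ (AlgebraicClosure ℚ) :=
  IsAlgClosure.normal ℚ (AlgebraicClosure ℚ)
local instance isGaloisQbar_g0 : IsGalois ℚ (AlgebraicClosure ℚ) := ⟨⟩

section Stab

variable {G : Type*} [Group G] {Sg : Type*} (π : G →* Equiv.Perm Sg)

variable {π}

theorem inv_mul_mem_stab {s : Sg} {g h : G} : g⁻¹ * h ∈ stab π s ↔ π g s = π h s := by
  rw [mem_stab, map_mul, Equiv.Perm.mul_apply, map_inv, Equiv.Perm.inv_eq_iff_eq, eq_comm]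

/-- invariant functions are equivariant -/
theorem H0_apply {A : Type*} [AddCommGroup A] {ρ : G →* AddMonoid.End A} {b : Sg → A}
    (hb : b ∈ H0 (Fn π ρ)) (g : G) (s : Sg) : b (π g s) = ρ g (b s) := by
  have h := congrFun (hb g) (π g s)
  rw [Fn_apply] at h
  rw [← h]
  simp

theorem mem_H0_Fn_iff {A : Type*} [AddCommGroup A] {ρ : G →* AddMonoid.End A} {b : Sg → A} :
    b ∈ H0 (Fn π ρ) ↔ ∀ g s, b (π g s) = ρ g (b s) := by
  refine ⟨fun hb g s => H0_apply hb g s, fun h g => ?_⟩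
  ext s
  rw [Fn_apply, ← h]
  simp

/-- a chosen element moving `s0` to `s` -/
def sec (htr : IsTrans π) (s0 s : Sg) : G := (htr.2 s0 s).choose

theorem sec_spec (htr : IsTrans π) (s0 s : Sg) : π (sec htr s0 s) s0 = s := (htr.2 s0 s).choose_spec

/-- the invariant function with a given value (fixed by the stabiliser) at the base point -/
def fnOf {A : Type*} [AddCommGroup A] (ρ : G →* AddMonoid.End A) (htr : IsTrans π) (s0 : Sg) (a : A) :
    Sg → A := fun s => ρ (sec htr s0 s) a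

theorem fnOf_apply {A : Type*} [AddCommGroup A] (ρ : G →* AddMonoid.End A) (htr : IsTrans π) (s0 : Sg)
    {a : A} (ha : ∀ g ∈ stab π s0, ρ g a = a) (g : G) : fnOf ρ htr s0 a (π g s0) = ρ g a := by
  have h1 : g⁻¹ * sec htr s0 (π g s0) ∈ stab π s0 := inv_mul_mem_stab.mpr (sec_spec htr s0 _).symm
  have h2 := ha _ h1
  rw [map_mul, AddMonoid.End.coe_mul, Function.comp_apply] at h2
  have h3 := congrArg (ρ g) h2
  have h4 : ∀ x : A, ρ g (ρ g⁻¹ x) = x := fun x => by
    rw [← Function.comp_apply (f := ρ g), ← AddMonoid.End.coe_mul, ← map_mul, mul_inv_cancel, map_one]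
    rfl
  rw [h4] at h3
  exact h3

theorem fnOf_mem_H0 {A : Type*} [AddCommGroup A] (ρ : G →* AddMonoid.End A) (htr : IsTrans π) (s0 : Sg)
    {a : A} (ha : ∀ g ∈ stab π s0, ρ g a = a) : fnOf ρ htr s0 a ∈ H0 (Fn π ρ) := by
  rw [mem_H0_Fn_iff]
  intro g s
  obtain ⟨h, rfl⟩ := htr.2 s0 s
  rw [← Equiv.Perm.mul_apply, ← map_mul, fnOf_apply ρ htr s0 ha, fnOf_apply ρ htr s0 ha, map_mul]
  rfl

/-- an invariant function on a transitive set is determined by its value at the base point -/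
theorem H0_ext {A : Type*} [AddCommGroup A] {ρ : G →* AddMonoid.End A} (htr : IsTrans π) (s0 : Sg)
    {b b' : Sg → A} (hb : b ∈ H0 (Fn π ρ)) (hb' : b' ∈ H0 (Fn π ρ)) (h : b s0 = b' s0) : b = b' := by
  ext s
  obtain ⟨g, rfl⟩ := htr.2 s0 s
  rw [H0_apply hb, H0_apply hb', h]

theorem H0_fixed {A : Type*} [AddCommGroup A] {ρ : G →* AddMonoid.End A} {b : Sg → A}
    (hb : b ∈ H0 (Fn π ρ)) (s0 : Sg) (g : G) (hg : g ∈ stab π s0) : ρ g (b s0) = b s0 := by
  rw [← H0_apply hb, hg]

end Stab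


/-! ### the field of a point -/

section Field

variable {Sg : Type*} (π : GQ →* Equiv.Perm Sg)

/-- the field of definition of a point of a `GQ`-set -/
def fld (s : Sg) : IntermediateField ℚ Qb := IntermediateField.fixedField (stab π s)

theorem mem_fld {s : Sg} {x : Qb} : x ∈ fld π s ↔ ∀ g ∈ stab π s, g x = x :=
  IntermediateField.mem_fixedField_iff _ _

variable {π}

theorem exists_level (hπ : SmoothSet π lvlQ) (s : Sg) :
    ∃ E : IntermediateField ℚ Qb, FiniteDimensional ℚ E ∧ E.fixingSubgroup ≤ stab π s := by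
  obtain ⟨_, ⟨E, hE, rfl⟩, h⟩ := hπ
  exact ⟨E, hE, fun g hg => by rw [mem_stab, h g hg, Equiv.Perm.one_apply]⟩

theorem fixingSubgroup_fld (hπ : SmoothSet π lvlQ) (s : Sg) :
    (fld π s).fixingSubgroup = stab π s := by
  obtain ⟨E, hE, hle⟩ := exists_level hπ s
  have hopen : IsOpen (stab π s : Set GQ) := Subgroup.isOpen_mono hle E.fixingSubgroup_isOpen
  have hclosed : IsClosed (stab π s : Set GQ) := Subgroup.isClosed_of_isOpen _ hopen
  exact InfiniteGalois.fixingSubgroup_fixedField (k := ℚ) (K := Qb) ⟨stab π s, hclosed⟩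

theorem finiteDimensional_fld (hπ : SmoothSet π lvlQ) (s : Sg) : FiniteDimensional ℚ (fld π s) := by
  obtain ⟨E, hE, hle⟩ := exists_level hπ s
  have h2 : fld π s ≤ E := by
    rw [← InfiniteGalois.fixedField_fixingSubgroup E]
    exact IntermediateField.fixedField_antitone hle
  exact FiniteDimensional.of_injective (IntermediateField.inclusion h2).toLinearMap
      (IntermediateField.inclusion_injective h2)

theorem numberField_fld (hπ : SmoothSet π lvlQ) (s : Sg) : NumberField (fld π s) :=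
  { to_charZero := inferInstance
    to_finiteDimensional := finiteDimensional_fld hπ s }

/-- every embedding of a subfield of `ℚ̄` extends to an automorphism -/
theorem exists_extend (L : IntermediateField ℚ Qb) (f : L →ₐ[ℚ] Qb) :
    ∃ g : GQ, ∀ x : L, g x = f x := by
  obtain ⟨φ, hφ⟩ := IntermediateField.exists_algHom_of_splits (K := Qb) (L := L)
    (fun s : Qb => ⟨Algebra.IsIntegral.isIntegral s, IsAlgClosed.splits _⟩) f
  refine ⟨AlgEquiv.ofBijective φ (Algebra.IsAlgebraic.algHom_bijective φ), fun x => ?_⟩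
  exact DFunLike.congr_fun hφ x

theorem rhoGm_eq_iff (g : GQ) (a : Additive Qbˣ) :
    rhoGm g a = a ↔ g ((a.toMul : Qbˣ) : Qb) = ((a.toMul : Qbˣ) : Qb) := by
  constructor
  · intro h
    exact congrArg (fun z : Additive Qbˣ => ((z.toMul : Qbˣ) : Qb)) h
  · intro h
    apply Additive.toMul.injective
    exact Units.ext h

theorem coe_rhoGm (g : GQ) (a : Additive Qbˣ) :
    (((rhoGm g a).toMul : Qbˣ) : Qb) = g ((a.toMul : Qbˣ) : Qb) := rfl

/-- a unit of `ℚ̄` lying in a subfield, as a unit of the subfield -/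
def unitOf {K : Type*} [Field K] [Algebra K Qb] (F : IntermediateField K Qb) (x : Qbˣ)
    (hx : (x : Qb) ∈ F) : Fˣ :=
  Units.mk0 ⟨x, hx⟩ (fun h => x.ne_zero (congrArg Subtype.val h))

@[simp] theorem coe_unitOf {K : Type*} [Field K] [Algebra K Qb] (F : IntermediateField K Qb) (x : Qbˣ)
    (hx : (x : Qb) ∈ F) : (((unitOf F x hx : Fˣ) : F) : Qb) = x := rfl

/-- units of a subfield as units of `ℚ̄` -/
def inclU {K : Type*} [Field K] [Algebra K Qb] (F : IntermediateField K Qb) : Fˣ →* Qbˣ :=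
  Units.map (F.val : F →* Qb)

@[simp] theorem coe_inclU {K : Type*} [Field K] [Algebra K Qb] (F : IntermediateField K Qb) (x : Fˣ) :
    ((inclU F x : Qbˣ) : Qb) = ((x : F) : Qb) := rfl

/-- **(i)** `H⁰(GQ, Fn π 𝔾_m) = Fˣ`, more generally for any description `K` of the field of `s0` -/
def evK (htr : IsTrans π) (s0 : Sg) {K : Type*} [Field K] [Algebra K Qb]
    (F : IntermediateField K Qb) (hF : ∀ x : Qb, x ∈ F ↔ x ∈ fld π s0) :
    ↥(H0 (Fn π rhoGm)) ≃+ Additive Fˣ where
  toFun b := Additive.ofMul (unitOf F (b.1 s0).toMul ((hF _).mpr (mem_fld π |>.mpr fun g hg =>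
    (rhoGm_eq_iff g _).mp (H0_fixed b.2 s0 g hg))))
  invFun x := ⟨fnOf rhoGm htr s0 (Additive.ofMul (inclU F x.toMul)),
    fnOf_mem_H0 rhoGm htr s0 fun g hg => (rhoGm_eq_iff g _).mpr
      ((mem_fld π).mp ((hF _).mp (x.toMul : F).2) g hg)⟩
  left_inv b := by
    apply Subtype.ext
    refine H0_ext htr s0 (Subtype.property _) b.2 ?_
    have h := fnOf_apply rhoGm htr s0 (a := b.1 s0) (fun g hg => H0_fixed b.2 s0 g hg) 1
    rw [map_one, map_one] at h
    have e : ∀ hx, Additive.ofMul (inclU F (unitOf F (b.1 s0).toMul hx)) = b.1 s0 := fun hx => by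
      apply Additive.toMul.injective
      exact Units.ext rfl
    change fnOf rhoGm htr s0 (Additive.ofMul (inclU F (unitOf F (b.1 s0).toMul _))) s0 = b.1 s0
    rw [e]
    exact h
  right_inv x := by
    apply Additive.toMul.injective
    apply Units.ext
    apply Subtype.ext
    have h := fnOf_apply rhoGm htr s0 (a := Additive.ofMul (inclU F x.toMul))
      (fun g hg => (rhoGm_eq_iff g _).mpr ((mem_fld π).mp ((hF _).mp (x.toMul : F).2) g hg)) 1
    rw [map_one, map_one] at h
    exact congrArg (fun z : Additive Qbˣ => ((z.toMul : Qbˣ) : Qb)) h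
  map_add' b b' := by
    apply Additive.toMul.injective
    apply Units.ext
    apply Subtype.ext
    rfl

theorem coe_evK (htr : IsTrans π) (s0 : Sg) {K : Type*} [Field K] [Algebra K Qb]
    (F : IntermediateField K Qb) (hF : ∀ x : Qb, x ∈ F ↔ x ∈ fld π s0) (b : ↥(H0 (Fn π rhoGm))) :
    ((((evK htr s0 F hF b).toMul : Fˣ) : F) : Qb) = (((b.1 s0).toMul : Qbˣ) : Qb) := rfl

theorem evK_symm_apply (htr : IsTrans π) (s0 : Sg) {K : Type*} [Field K] [Algebra K Qb]
    (F : IntermediateField K Qb) (hF : ∀ x : Qb, x ∈ F ↔ x ∈ fld π s0) (x : Additive Fˣ) (g : GQ) :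
    (((((evK htr s0 F hF).symm x).1 (π g s0)).toMul : Qbˣ) : Qb) = g (((x.toMul : Fˣ) : F) : Qb) := by
  have h := fnOf_apply rhoGm htr s0 (a := Additive.ofMul (inclU F x.toMul))
    (fun g hg => (rhoGm_eq_iff g _).mpr ((mem_fld π).mp ((hF _).mp (x.toMul : F).2) g hg)) g
  exact congrArg (fun z : Additive Qbˣ => ((z.toMul : Qbˣ) : Qb)) h

/-- **(i)** `H⁰(GQ, Fn π 𝔾_m) = Fˣ` -/
def ev (htr : IsTrans π) (s0 : Sg) : ↥(H0 (Fn π rhoGm)) ≃+ Additive (fld π s0)ˣ :=
  evK htr s0 (fld π s0) (fun _ => Iff.rfl)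

end Field


/-! ### maps of `GQ`-sets ↔ field extensions -/

section Rel

variable {Sg Sg' : Type*} {π : GQ →* Equiv.Perm Sg} {π' : GQ →* Equiv.Perm Sg'} {u : Sg' → Sg}

theorem stab_le {G : Type*} [Group G] {π : G →* Equiv.Perm Sg} {π' : G →* Equiv.Perm Sg'}
    (hu : IsSetMap π π' u) (s' : Sg') : stab π' s' ≤ stab π (u s') := by
  intro g hg
  rw [mem_stab, ← hu, hg]

theorem fld_le (hu : IsSetMap π π' u) (s' : Sg') : fld π (u s') ≤ fld π' s' :=
  IntermediateField.fixedField_antitone (stab_le hu s')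

/-- the field of `s'` as an extension of the field of `u s'` -/
def ZZ (hu : IsSetMap π π' u) (s' : Sg') : IntermediateField (fld π (u s')) Qb :=
  IntermediateField.extendScalars (fld_le hu s')

theorem mem_ZZ (hu : IsSetMap π π' u) (s' : Sg') (x : Qb) : x ∈ ZZ hu s' ↔ x ∈ fld π' s' := Iff.rfl

theorem finiteDimensional_ZZ_rat (hu : IsSetMap π π' u) (hπ' : SmoothSet π' lvlQ) (s' : Sg') :
    FiniteDimensional ℚ (ZZ hu s') := by
  have := finiteDimensional_fld hπ' s'
  let f : ZZ hu s' →+ fld π' s' :=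
    { toFun := fun x => ⟨x.1, x.2⟩
      map_zero' := rfl
      map_add' := fun _ _ => rfl }
  exact FiniteDimensional.of_injective f.toRatLinearMap
    (fun x y h => Subtype.ext (congrArg (fun z : fld π' s' => (z : Qb)) h))

theorem numberField_ZZ (hu : IsSetMap π π' u) (hπ' : SmoothSet π' lvlQ) (s' : Sg') :
    NumberField (ZZ hu s') :=
  { to_charZero := inferInstance
    to_finiteDimensional := finiteDimensional_ZZ_rat hu hπ' s' }

theorem finiteDimensional_ZZ (hu : IsSetMap π π' u) (hπ' : SmoothSet π' lvlQ) (s' : Sg') :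
    FiniteDimensional (fld π (u s')) (ZZ hu s') := by
  have := finiteDimensional_ZZ_rat hu hπ' s'
  exact FiniteDimensional.right ℚ (fld π (u s')) (ZZ hu s')

/-- `H⁰(GQ, Fn π' 𝔾_m) = Zˣ` -/
def evZ (hu : IsSetMap π π' u) (htr' : IsTrans π') (s' : Sg') :
    ↥(H0 (Fn π' rhoGm)) ≃+ Additive (ZZ hu s')ˣ :=
  evK htr' s' (ZZ hu s') (fun _ => Iff.rfl)

/-- the restriction of an element of the stabiliser of `u s'` to `ZZ` -/
def resHom (hu : IsSetMap π π' u) (s' : Sg') (g : GQ) (hg : g ∈ stab π (u s')) :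
    ZZ hu s' →ₐ[fld π (u s')] Qb :=
  { (g : Qb →+* Qb).comp (ZZ hu s').val.toRingHom with
    commutes' := fun r => (mem_fld π).mp r.2 g hg }

@[simp] theorem resHom_apply (hu : IsSetMap π π' u) (s' : Sg') (g : GQ) (hg : g ∈ stab π (u s'))
    (z : ZZ hu s') : resHom hu s' g hg z = g (z : Qb) := rfl

theorem sec_mem_stab (hu : IsSetMap π π' u) (htr' : IsTrans π') (s' t : Sg') (ht : u t = u s') :
    sec htr' s' t ∈ stab π (u s') := by
  rw [mem_stab, ← hu, sec_spec, ht]

/-- the fibre of `u` through `s'` ↔ the embeddings of `ZZ` over the field of `u s'` -/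
def fibEquiv (hu : IsSetMap π π' u) (hπ : SmoothSet π lvlQ) (hπ' : SmoothSet π' lvlQ)
    (htr' : IsTrans π') (s' : Sg') :
    {t : Sg' // u t = u s'} ≃ (ZZ hu s' →ₐ[fld π (u s')] Qb) :=
  Equiv.ofBijective (fun t => resHom hu s' (sec htr' s' t.1) (sec_mem_stab hu htr' s' t.1 t.2)) (by
    constructor
    · intro t t' h
      apply Subtype.ext
      rw [← sec_spec htr' s' t.1, ← sec_spec htr' s' t'.1, ← inv_mul_mem_stab,
        ← fixingSubgroup_fld hπ' s', IntermediateField.mem_fixingSubgroup_iff]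
      intro x hx
      have h1 := DFunLike.congr_fun h (⟨x, hx⟩ : ZZ hu s')
      simp only [resHom_apply] at h1
      rw [AlgEquiv.mul_apply, ← h1]
      exact (sec htr' s' t.1).symm_apply_apply x
    · intro τ
      let f : fld π' s' →ₐ[ℚ] Qb := RingHom.toRatAlgHom
        { toFun := fun x => τ ⟨x.1, x.2⟩
          map_one' := map_one τ
          map_mul' := fun x y => map_mul τ ⟨x.1, x.2⟩ ⟨y.1, y.2⟩
          map_zero' := map_zero τ
          map_add' := fun x y => map_add τ ⟨x.1, x.2⟩ ⟨y.1, y.2⟩ }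
      obtain ⟨g, hg⟩ := exists_extend (fld π' s') f
      have hgs : g ∈ stab π (u s') := by
        rw [← fixingSubgroup_fld hπ (u s'), IntermediateField.mem_fixingSubgroup_iff]
        intro x hx
        have h1 := hg ⟨x, fld_le hu s' hx⟩
        rw [h1]
        exact τ.commutes ⟨x, hx⟩
      have hfib : u (π' g s') = u s' := by rw [hu, hgs]
      refine ⟨⟨π' g s', hfib⟩, ?_⟩
      ext z
      rw [resHom_apply]
      have h2 : g⁻¹ * sec htr' s' (π' g s') ∈ stab π' s' :=
        inv_mul_mem_stab.mpr (sec_spec htr' s' _).symm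
      have h3 := (mem_fld π').mp z.2 _ h2
      rw [AlgEquiv.mul_apply] at h3
      have h4 := congrArg g h3
      rw [show g (g⁻¹ (sec htr' s' (π' g s') (z : Qb))) = sec htr' s' (π' g s') (z : Qb) from
        g.apply_symm_apply _] at h4
      rw [h4]
      exact hg ⟨z.1, z.2⟩)

/-- **(ii)** `push` is the norm -/
theorem ev_push [Fintype Sg'] (hu : IsSetMap π π' u) (hπ : SmoothSet π lvlQ)
    (hπ' : SmoothSet π' lvlQ) (htr : IsTrans π) (htr' : IsTrans π') (s' : Sg')
    (b' : ↥(H0 (Fn π' rhoGm))) :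
    (ev htr (u s') (H0c (isHom_push rhoGm hu) b')).toMul =
      Fermat.Agent.S14.normU (evZ hu htr' s' b').toMul := by
  classical
  have := finiteDimensional_ZZ hu hπ' s'
  apply Units.ext
  apply Subtype.ext
  change (((push (Additive Qbˣ) u b'.1 (u s')).toMul : Qbˣ) : Qb) =
    algebraMap (fld π (u s')) Qb (Algebra.norm (fld π (u s')) (((evZ hu htr' s' b').toMul :
      (ZZ hu s')ˣ) : ZZ hu s'))
  rw [Algebra.norm_eq_prod_embeddings (fld π (u s')) Qb, push_apply, toMul_sum, Units.coe_prod,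
    ← Fintype.prod_equiv (fibEquiv hu hπ hπ' htr' s') (fun t => (((b'.1 t.1).toMul : Qbˣ) : Qb)),
    Finset.prod_subtype (p := fun t => u t = u s') _ (by simp)]
  intro t
  change _ = sec htr' s' t.1 (((b'.1 s').toMul : Qbˣ) : Qb)
  rw [← coe_rhoGm, ← H0_apply b'.2, sec_spec]

/-- **(ii)** `pull` is the inclusion -/
theorem evZ_pull (hu : IsSetMap π π' u) (htr : IsTrans π) (htr' : IsTrans π') (s' : Sg')
    (b : ↥(H0 (Fn π rhoGm))) :
    (evZ hu htr' s' (H0c (isHom_pull rhoGm hu) b)).toMul =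
      Fermat.Agent.S14.upU (ev htr (u s') b).toMul := by
  apply Units.ext
  apply Subtype.ext
  rfl

end Rel


/-! ### cyclic torsors ↔ cyclic extensions -/

section Cyc

variable {Sg Sg' : Type*}

theorem sigma_pow_comm {G : Type*} [Group G] {n : ℕ} {π : G →* Equiv.Perm Sg}
    {π' : G →* Equiv.Perm Sg'} {u : Sg' → Sg} {σ : Equiv.Perm Sg'} (T : CycTorsor n π π' u σ)
    (k : ℕ) (g : G) (s : Sg') : (σ ^ k) (π' g s) = π' g ((σ ^ k) s) := by
  induction k with
  | zero => simp
  | succ k ih => rw [pow_succ', Equiv.Perm.mul_apply, ih, T.comm, Equiv.Perm.mul_apply]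

/-- the stabiliser upstairs is normal in the stabiliser downstairs -/
theorem conj_mem_stab {G : Type*} [Group G] {n : ℕ} {π : G →* Equiv.Perm Sg}
    {π' : G →* Equiv.Perm Sg'} {u : Sg' → Sg} {σ : Equiv.Perm Sg'} (T : CycTorsor n π π' u σ)
    (s' : Sg') {g h : G} (hg : g ∈ stab π (u s')) (hh : h ∈ stab π' s') :
    g⁻¹ * h * g ∈ stab π' s' := by
  rw [← mem_stab_apply, mem_stab]
  have h1 : u s' = u (π' g s') := by rw [T.map, hg]
  obtain ⟨k, hk⟩ := (T.fib _ _).1 h1
  rw [← hk, ← sigma_pow_comm T, hh]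

theorem card_fib {G : Type*} [Group G] {n : ℕ} {π : G →* Equiv.Perm Sg}
    {π' : G →* Equiv.Perm Sg'} {u : Sg' → Sg} {σ : Equiv.Perm Sg'} (T : CycTorsor n π π' u σ)
    (s' : Sg') : Nat.card {t : Sg' // u t = u s'} = n := by
  rw [← Nat.card_fin n]
  refine (Nat.card_congr (Equiv.ofBijective
    (fun k : Fin n => (⟨(σ ^ (k : ℕ)) s', T.u_pow k s'⟩ : {t : Sg' // u t = u s'})) ⟨?_, ?_⟩)).symm
  · intro k l h
    exact Fin.ext (T.pow_inj s' k.2 l.2 (congrArg Subtype.val h))
  · rintro ⟨t, ht⟩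
    obtain ⟨k, hk⟩ := (T.fib s' t).1 ht.symm
    refine ⟨⟨k % n, Nat.mod_lt _ T.pos⟩, Subtype.ext ?_⟩
    change (σ ^ (k % n)) s' = t
    rw [← pow_eq_pow_mod k T.pow, hk]

variable {π : GQ →* Equiv.Perm Sg} {π' : GQ →* Equiv.Perm Sg'} {u : Sg' → Sg}
  {σ : Equiv.Perm Sg'} {n : ℕ}

/-- **(iii)** the degree -/
theorem finrank_ZZ (T : CycTorsor n π π' u σ) (hπ : SmoothSet π lvlQ) (hπ' : SmoothSet π' lvlQ)
    (htr' : IsTrans π') (s' : Sg') : Module.finrank (fld π (u s')) (ZZ T.map s') = n := by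
  have := finiteDimensional_ZZ T.map hπ' s'
  rw [← AlgHom.card (fld π (u s')) (ZZ T.map s') Qb, ← Nat.card_eq_fintype_card,
    ← Nat.card_congr (fibEquiv T.map hπ hπ' htr' s'), card_fib T]

/-- **(iii)** the extension is Galois -/
theorem isGalois_ZZ (T : CycTorsor n π π' u σ) (hπ : SmoothSet π lvlQ) (s' : Sg') :
    IsGalois (fld π (u s')) (ZZ T.map s') := by
  have : Normal (fld π (u s')) Qb := Normal.tower_top_of_normal ℚ (fld π (u s')) Qb
  have hn : Normal (fld π (u s')) (ZZ T.map s') := by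
    rw [IntermediateField.normal_iff_forall_map_le']
    rintro τ _ ⟨z, hz, rfl⟩
    let g : GQ := τ.restrictScalars ℚ
    have hg : g ∈ stab π (u s') := by
      rw [← fixingSubgroup_fld hπ (u s'), IntermediateField.mem_fixingSubgroup_iff]
      intro x hx
      exact τ.commutes ⟨x, hx⟩
    change g z ∈ fld π' s'
    rw [mem_fld]
    intro h hh
    have h1 := (mem_fld π').mp hz _ (conj_mem_stab T s' hg hh)
    rw [AlgEquiv.mul_apply, AlgEquiv.mul_apply] at h1
    have h2 := congrArg g h1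
    rwa [show g (g⁻¹ (h (g z))) = h (g z) from g.apply_symm_apply _] at h2
  exact ⟨⟩

open ExtCitation in
/-- `ζ_p` lies in the field of a point whose stabiliser is in the kernel of the cyclotomic character -/
theorem exists_zeta (p : ℕ) [Fact p.Prime] (s : Sg)
    (hst : ∀ g, π g s = s → cycloChar p g = 1) (hπ : SmoothSet π lvlQ) :
    haveI := numberField_fld hπ s
    ∃ ζ : NumberField.RingOfIntegers (fld π s), IsPrimitiveRoot ζ p ∧
      (((ζ : fld π s) : Qb) = (zetaP p : Qb)) := by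
  haveI := numberField_fld hπ s
  have hz : IsPrimitiveRoot ((zetaP p : Qbˣ) : Qb) p := (zetaP_spec p).map_of_injective
    (f := Units.coeHom Qb) Units.val_injective
  have hmem : ((zetaP p : Qbˣ) : Qb) ∈ fld π s := by
    rw [mem_fld]
    intro g hg
    have h1 := E.cycloChar_spec p g hz.pow_eq_one
    rw [hst g hg] at h1
    simpa [ZMod.val_one] using h1
  have hF : IsPrimitiveRoot (⟨_, hmem⟩ : fld π s) p :=
    IsPrimitiveRoot.of_map_of_injective (f := (fld π s).val) hz (fld π s).val.injective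
  haveI : NeZero p := ⟨(Fact.out : p.Prime).ne_zero⟩
  exact ⟨hF.toInteger, hF.toInteger_isPrimitiveRoot, rfl⟩

end Cyc

end Fermat.Agent.S55.G
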