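import Mathlib

/-!
# S55 / layer G4 : two lemmas of linear algebra over `𝔽_p`  (Mathlib only)

## key S55/G-LINT : `exists_invariants`
`B v` groups of order `p`, `V ≤ ∏ B v` a subgroup of finitely supported families such that
(α) no element of `V` has exactly one non zero component, (β) for `v₁ ≠ v₂` there is a non zero element of `V` supported in `{v₁, v₂}`.
Then there are isomorphisms `t v : B v ≃ 𝔽_p` with `∑ t v (x v) = 0` on `V`.
Proof.  If `Q` is empty: trivial.  Fix `q₀` and an isomorphism `t₀ : B q₀ → ZMod p` (a group of prime order is cyclic: `isCyclic_of_prime_card`,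
`zmodCyclicAddEquiv`-like, or choose `b ≠ 0` and use `ZMod.lift`/`zmultiplesHom`).
For `q ≠ q₀`, `y : B q` there is a UNIQUE `x = X q y ∈ V` supported in `{q, q₀}` with `x q = y`:
existence: take `x` from (β); by (α) `x q ≠ 0` [if `x q = 0` then `x` is supported in `{q₀}`, so `x q₀ = 0` by (α), contradiction with `x q ≠ 0 ∨ x q₀ ≠ 0`];
`B q` has prime order, so `y = n • x q` for some `n : ℕ`; take `n • x`.  Uniqueness: the difference is supported in `{q₀}`, so it is `0` by (α).
`t q y := - t₀ ((X q y) q₀)`: additive by uniqueness; injective: `t q y = 0 ⟹ (X q y) q₀ = 0 ⟹ X q y` supported in `{q}` `⟹ y = 0` by (α);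
bijective by cardinality (`Nat.card (ZMod p) = p`, `Function.Injective.bijective_of_nat_card_le`-like).
Reciprocity: `x ∈ V`, `s` = its finite support without `q₀`; `x - ∑_{q ∈ s} X q (x q) ∈ V` is supported in `{q₀}`, hence `0`; apply `t₀` to the `q₀` component;
`finsum` = sum over `insert q₀ s` (`finsum_eq_sum_of_support_subset`).

## key S55/G-LINEX : `mem_of_finsum_eq_zero`
Induction on the cardinality of the support of `Φ y`.  If it is empty, `Φ y = 0`, `y = 0 ∈ V`.  Otherwise take `i` in the support; as the sum is `0` there is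
`j ≠ i` in the support.  `x ∈ V` from `hpair i j`: `Φ x i + Φ x j = 0`, `Φ x ≠ 0`, so `c := Φ x i ≠ 0`.  Let `n : ℕ` with `(n : ZMod p) = Φ y i / c`;
`y' := y - n • x` has `Φ y' i = 0`, support contained in the support of `Φ y` minus `i`, sum `0`.
-/

set_option autoImplicit false

namespace Fermat.Agent.S55.G

theorem exists_iso_of_card {p : ℕ} [Fact p.Prime] (G : Type*) [AddCommGroup G]
    (h : Nat.card G = p) : ∃ t : G →+ ZMod p, Function.Bijective t := by
  have hc : IsAddCyclic G := isAddCyclic_of_prime_card h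
  subst h
  exact ⟨(zmodAddCyclicAddEquiv hc).symm.toAddMonoidHom, (zmodAddCyclicAddEquiv hc).symm.bijective⟩

/-- [S55/G-LINT] -/
theorem exists_invariants {p : ℕ} [Fact p.Prime] {Q : Type*} (B : Q → Type*)
    [∀ v, AddCommGroup (B v)] (hcard : ∀ v, Nat.card (B v) = p) (V : AddSubgroup (∀ v, B v))
    (hfin : ∀ x ∈ V, {v | x v ≠ 0}.Finite)
    (halpha : ∀ x ∈ V, ∀ q, (∀ v, v ≠ q → x v = 0) → x q = 0)
    (hbeta : ∀ v₁ v₂, v₁ ≠ v₂ → ∃ x ∈ V, (x v₁ ≠ 0 ∨ x v₂ ≠ 0) ∧ ∀ v, v ≠ v₁ → v ≠ v₂ → x v = 0) :
    ∃ t : ∀ v, B v →+ ZMod p, (∀ v, Function.Bijective (t v)) ∧ ∀ x ∈ V, ∑ᶠ v, t v (x v) = 0 := by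
  classical
  rcases isEmpty_or_nonempty Q with hQ | ⟨⟨q₀⟩⟩
  · exact ⟨fun v => isEmptyElim v, fun v => isEmptyElim v, fun x _ => finsum_of_isEmpty _⟩
  obtain ⟨t₀, ht₀⟩ := exists_iso_of_card (B q₀) (hcard q₀)
  have hα : ∀ (q : Q) (b : B q), Pi.single q b ∈ V → b = 0 := by
    intro q b hb
    have := halpha _ hb q (fun v hv => Pi.single_eq_of_ne hv b)
    rwa [Pi.single_eq_same] at this
  have hex : ∀ (q : Q) (y : B q), ∃ z : B q₀, Pi.single q y - Pi.single q₀ z ∈ V := by
    intro q y
    by_cases hq : q = q₀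
    · subst hq
      exact ⟨y, by rw [sub_self]; exact V.zero_mem⟩
    · obtain ⟨x, hxV, hx0, hxs⟩ := hbeta q q₀ hq
      have hxq : x q ≠ 0 := by
        intro h
        have h1 : x q₀ = 0 := halpha x hxV q₀ (fun v hv => by
          by_cases hvq : v = q
          · rw [hvq]; exact h
          · exact hxs v hvq hv)
        rcases hx0 with h2 | h2
        · exact h2 h
        · exact h2 h1
      obtain ⟨n, hn⟩ : ∃ n : ℕ, n • x q = y :=
        (AddSubmonoid.mem_multiples_iff _ _).1 (mem_multiples_of_prime_card (hcard q) hxq)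
      refine ⟨-(n • x q₀), ?_⟩
      have : Pi.single q y - Pi.single q₀ (-(n • x q₀)) = n • x := by
        funext v
        by_cases hvq : v = q
        · subst hvq
          simp [Pi.single_eq_of_ne hq, hn]
        · by_cases hv0 : v = q₀
          · subst hv0
            simp [Pi.single_eq_of_ne hvq]
          · simp [Pi.single_eq_of_ne hvq, Pi.single_eq_of_ne hv0, hxs v hvq hv0]
      rw [this]
      exact V.nsmul_mem hxV n
  have huniq : ∀ (q : Q) (y : B q) (z z' : B q₀), Pi.single q y - Pi.single q₀ z ∈ V →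
      Pi.single q y - Pi.single q₀ z' ∈ V → z = z' := by
    intro q y z z' h h'
    have h1 := V.sub_mem h' h
    have h2 : Pi.single q y - Pi.single q₀ z' - (Pi.single q y - Pi.single q₀ z) =
        Pi.single q₀ (z - z') := by
      rw [Pi.single_sub]; abel
    rw [h2] at h1
    exact sub_eq_zero.1 (hα _ _ h1)
  choose Z hZ using hex
  have hZadd : ∀ q (y y' : B q), Z q (y + y') = Z q y + Z q y' := by
    intro q y y'
    refine huniq q (y + y') _ _ (hZ q _) ?_
    have := V.add_mem (hZ q y) (hZ q y')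
    have e : Pi.single q y - Pi.single q₀ (Z q y) + (Pi.single q y' - Pi.single q₀ (Z q y')) =
        Pi.single q (y + y') - Pi.single q₀ (Z q y + Z q y') := by
      rw [Pi.single_add, Pi.single_add]; abel
    rwa [e] at this
  have hZzero : ∀ q, Z q 0 = 0 := by
    intro q
    have := hZadd q 0 0
    rw [add_zero] at this
    exact left_eq_add.1 this
  let ZZ : ∀ q, B q →+ B q₀ := fun q =>
    { toFun := Z q, map_zero' := hZzero q, map_add' := hZadd q }
  have hZZ : ∀ q y, ZZ q y = Z q y := fun _ _ => rfl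
  refine ⟨fun q => t₀.comp (ZZ q), fun q => ?_, fun x hx => ?_⟩
  · have hinj : Function.Injective (t₀.comp (ZZ q)) := by
      rw [injective_iff_map_eq_zero]
      intro y hy
      have h1 : Z q y = 0 := ht₀.1 (by rw [map_zero]; exact hy)
      have h2 := hZ q y
      rw [h1, Pi.single_zero, sub_zero] at h2
      exact hα _ _ h2
    have hfinB : Finite (B q) := Nat.finite_of_card_ne_zero (by
      rw [hcard q]; exact (Fact.out : p.Prime).ne_zero)
    exact (Nat.bijective_iff_injective_and_card _).2 ⟨hinj, by rw [hcard q, Nat.card_zmod]⟩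
  · set s := (hfin x hx).toFinset with hs
    have hxs : ∀ v, v ∉ s → x v = 0 := by
      intro v hv
      by_contra h
      exact hv ((hfin x hx).mem_toFinset.2 h)
    have hxsum : x = ∑ q ∈ s, Pi.single q (x q) := by
      funext v
      rw [Finset.sum_apply]
      by_cases hv : v ∈ s
      · rw [Finset.sum_eq_single v (fun q _ hq => Pi.single_eq_of_ne (Ne.symm hq) _)
          (fun h => absurd hv h), Pi.single_eq_same]
      · rw [hxs v hv]
        symm
        refine Finset.sum_eq_zero fun q hq => Pi.single_eq_of_ne ?_ _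
        rintro rfl
        exact hv hq
    have h1 : ∑ q ∈ s, (Pi.single q (x q) - Pi.single q₀ (Z q (x q))) ∈ V :=
      V.sum_mem fun q _ => hZ q _
    rw [Finset.sum_sub_distrib, ← hxsum] at h1
    have h2 : ∑ q ∈ s, (Pi.single q₀ (Z q (x q)) : ∀ v, B v) =
        Pi.single q₀ (∑ q ∈ s, Z q (x q)) := by
      exact (map_sum (AddMonoidHom.single B q₀) _ _).symm
    rw [h2] at h1
    have h3 := V.sub_mem hx h1
    rw [sub_sub_cancel] at h3
    have h4 := hα _ _ h3
    rw [finsum_eq_sum_of_support_subset (s := s)]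
    · show ∑ q ∈ s, t₀ (Z q (x q)) = 0
      rw [← map_sum, h4, map_zero]
    · intro v hv
      by_contra hvs
      apply hv
      show (t₀.comp (ZZ v)) (x v) = 0
      rw [hxs v (by simpa using hvs), map_zero]

/-- [S55/G-LINEX] -/
theorem mem_of_finsum_eq_zero {p : ℕ} [Fact p.Prime] {L I : Type*} [AddCommGroup L]
    (V : AddSubgroup L) (Φ : L →+ (I → ZMod p)) (hΦ : Function.Injective Φ)
    (hfin : ∀ y, (Function.support (Φ y)).Finite)
    (hpair : ∀ i j, i ≠ j → ∃ x ∈ V, Φ x ≠ 0 ∧ (∀ k, k ≠ i → k ≠ j → Φ x k = 0) ∧ ∑ᶠ k, Φ x k = 0)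
    (y : L) (hy : ∑ᶠ k, Φ y k = 0) : y ∈ V := by
  classical
  suffices H : ∀ n : ℕ, ∀ y : L, (hfin y).toFinset.card ≤ n → ∑ᶠ k, Φ y k = 0 → y ∈ V from
    H _ y le_rfl hy
  have hzero : ∀ y : L, Φ y = 0 → y ∈ V := by
    intro y h
    have : y = 0 := hΦ (by rw [h, map_zero])
    rw [this]; exact V.zero_mem
  intro n
  induction n with
  | zero =>
    intro y hc _
    apply hzero
    have h0 : (hfin y).toFinset = ∅ := Finset.card_eq_zero.1 (Nat.le_zero.1 hc)
    funext k
    by_contra hk
    have : k ∈ (hfin y).toFinset := (hfin y).mem_toFinset.2 hk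
    rw [h0] at this
    simp at this
  | succ n ih =>
    intro y hc hy
    by_cases h0 : Φ y = 0
    · exact hzero y h0
    obtain ⟨i, hi⟩ : ∃ i, Φ y i ≠ 0 := by
      by_contra h
      exact h0 (funext fun k => by_contra fun hk => h ⟨k, hk⟩)
    obtain ⟨j, hji, hj⟩ : ∃ j, j ≠ i ∧ Φ y j ≠ 0 := by
      by_contra h
      have h' : ∀ k, k ≠ i → Φ y k = 0 := fun k hk => by_contra fun hk' => h ⟨k, hk, hk'⟩
      have : ∑ᶠ k, Φ y k = Φ y i := finsum_eq_single _ i h'
      exact hi (this ▸ hy)
    obtain ⟨x, hxV, hx0, hxs, hxsum⟩ := hpair i j hji.symm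
    have hsum2 : Φ x i + Φ x j = 0 := by
      rw [← hxsum, finsum_eq_sum_of_support_subset (s := {i, j}), Finset.sum_pair hji.symm]
      intro k hk
      by_contra hk'
      simp only [Finset.coe_insert, Finset.coe_singleton, Set.mem_insert_iff,
        Set.mem_singleton_iff, not_or] at hk'
      exact hk (hxs k hk'.1 hk'.2)
    have hc0 : Φ x i ≠ 0 := by
      intro h
      apply hx0
      funext k
      by_cases hki : k = i
      · rw [hki]; exact h
      by_cases hkj : k = j
      · rw [h, zero_add] at hsum2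
        rw [hkj]; exact hsum2
      exact hxs k hki hkj
    set c : ZMod p := Φ y i / Φ x i with hc'
    have hm : ((c.val : ℕ) : ZMod p) = c := ZMod.natCast_zmod_val _
    set y' := y - c.val • x with hy'
    have hy'k : ∀ k, Φ y' k = Φ y k - c * Φ x k := by
      intro k
      rw [hy', map_sub, map_nsmul, Pi.sub_apply, Pi.smul_apply, nsmul_eq_mul, hm]
    have hy'i : Φ y' i = 0 := by
      rw [hy'k, hc', div_mul_cancel₀ _ hc0, sub_self]
    have hsub : (hfin y').toFinset ⊆ (hfin y).toFinset.erase i := by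
      intro k hk
      rw [Set.Finite.mem_toFinset, Function.mem_support] at hk
      rw [Finset.mem_erase, Set.Finite.mem_toFinset, Function.mem_support]
      have hki : k ≠ i := fun h' => hk (h' ▸ hy'i)
      refine ⟨hki, fun h => ?_⟩
      by_cases hkj : k = j
      · exact hj (hkj ▸ h)
      · exact hk (by rw [hy'k, h, hxs k hki hkj, mul_zero, sub_zero])
    have hcard : (hfin y').toFinset.card ≤ n := by
      have := Finset.card_le_card hsub
      rw [Finset.card_erase_of_mem ((hfin y).mem_toFinset.2 hi)] at this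
      omega
    have hsum' : ∑ᶠ k, Φ y' k = 0 := by
      have e : (fun k => Φ y' k) = fun k => Φ y k - c * Φ x k := funext hy'k
      have hf2 : (Function.support fun k => c * Φ x k).Finite :=
        (hfin x).subset fun k hk h => hk (by show c * Φ x k = 0; rw [h, mul_zero])
      rw [e, finsum_sub_distrib (hfin y) hf2, ← mul_finsum, hy, hxsum, mul_zero, sub_zero]
    have hmem := ih y' hcard hsum'
    have e : y = y' + c.val • x := by rw [hy', sub_add_cancel]
    rw [e]
    exact V.add_mem hmem (V.nsmul_mem hxV _)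

end Fermat.Agent.S55.G
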