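import Fermat.Agent.S55.G.Tower
import Fermat.Agent.S55.G.Lin

/-!
# S55 / layer G4 : the invariants `t v`, reciprocity, `lb`, `ex`   (formal)

## key S55/G-INV : `card_H2_loc`, `betaQ`, `exists_t`, `lb_of`
* `card_H2_loc`: `LBC` for the one point set + `eps_eta_pt`, `eta_eps_pt` (over `D v`; `ptPerm ↥(D v)`).
* `betaQ`: `π₁ := cosetPerm χ.ker` (open by `hχ 1`: `χ u * 1 = 1`; `finite_quotient_of_isOpen`, `smoothSet_cosetPerm`, `isTrans_cosetPerm`; `StabIn`: `g a K = a K ⟹ a⁻¹ g a ∈ K ⟹ χ g = 1`).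
  `P_i := ⟨v_i, orbMk _ 1⟩`, `x₁` from `Beta`, `x := eps_* x₁`.  `res_v x = eps_* res_v x₁` (`res2_H2c`) `= ∑_ω eps_* cmp_ω (res_v x₁)` (`eps_eq_sum_fib` for the `D v`-set `pv D π₁ v`, `c = orbMk`).
  For `v ∉ {v₁, v₂}` all terms vanish.  For `v = v₁` only `ω = P₁.2` survives, and `eps_*` is injective on it (`LBC`, `isTrans_orbAct`, `smoothSet_orbAct`).
  Some `res_v x₁ ≠ 0`, so some component is `≠ 0` (`H2_eq_zero_of_fib`), it is `P₁` or `P₂`.
* `exists_t`: `exists_invariants` with `B v := H2 (lv 𝓛 D v) (rv D (rhoChi χ) v)`, `V :=` range of `x ↦ (res_v x)_v` (`AddMonoidHom.pi`/`AddMonoidHom.range`).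
  `hfin`, `halpha`: transport along `eta_* : H²(T) → H²(Fn pt T)` (injective by `eps_eta_pt`; commutes with `res2`: `res2_H2c`).
* `lb_of`: an injective map between finite sets of the same cardinality `p` is bijective.

## key S55/G-EX1 : `ex_stab`  (stabilisers in `ker χ`)
`mem_of_finsum_eq_zero` with `L :=` the subgroup of finitely supported families `y : ∀ v, H2 (lv 𝓛 D v) (rv D (Fn π T) v)`, `I := Plc D π`,
`Φ y ⟨v, ω⟩ := t v (eps_* (cmp v ω (y v)))`, `V :=` the families `(res_v x)_v` (finitely supported by `FinAll`).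
Injectivity: `lb_of` on the orbits + `H2_eq_zero_of_fib`.  `∑ᶠ_P Φ y P = ∑ᶠ_v t v (eps_* (y v))` by `eps_eq_sum_fib` (write both as finite sums over the support of `y`).
`hpair`: `Beta`; the sum vanishes by reciprocity applied to `eps_* x` (`res2_H2c`).

## key S55/G-EX2 : `ex_of`  (general transitive `π`)
`s₀ : Σ`, `R := Stab(s₀) ⊓ χ.ker` (open), `π₁ := cosetPerm R`, `u (g R) := π g s₀`, all fibres have `d = [Stab s₀ : R]` elements, `d ∣ p - 1` (`Stab s₀ / R ↪ (ZMod p)ˣ`).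
`y₁ v := u^* (y v)`; `eps₁ ∘ u^* = d • eps`, so the sum of invariants of `y₁` is `0`; `x₁` from `ex_stab`; `x := d' • u_* x₁` with `d d' ≡ 1 mod p`
(`push_pull_of_card` over `D v`, `res2_H2c`, `nsmul_H2_eq_zero`).
-/

set_option autoImplicit false

noncomputable section

namespace Fermat.Agent.S55.G

variable {p : ℕ} [Fact p.Prime] {G : Type} [Group G] {𝓛 : Lvl G} {χ : G →* (ZMod p)ˣ}
  {Q : Type} {D : Q → Subgroup G}

/-! ### auxiliary lemmas for G-INV -/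

theorem isOpen_ker_aux (hχ : Smooth 𝓛 (rhoChi χ)) : 𝓛.IsOpen χ.ker := by
  obtain ⟨U, hU, hu⟩ := hχ 1
  refine ⟨U, hU, fun u hu' => ?_⟩
  have := hu u hu'
  rw [rhoChi_apply, mul_one] at this
  exact MonoidHom.mem_ker.2 (Units.ext this)

theorem stabIn_ker_aux (χ : G →* (ZMod p)ˣ) : StabIn p χ (cosetPerm χ.ker) := by
  intro s g h
  induction s using QuotientGroup.induction_on with
  | H a =>
    have h1 : ((g * a : G) : G ⧸ χ.ker) = (a : G ⧸ χ.ker) := h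
    rw [eq_comm, QuotientGroup.eq, MonoidHom.mem_ker, map_mul, map_mul, map_inv] at h1
    rw [mul_comm (χ g), ← mul_assoc, inv_mul_cancel, one_mul] at h1
    exact h1

section Aux

variable {Sg : Type} [Fintype Sg] {π : G →* Equiv.Perm Sg}

/-- a local class all of whose components vanish is zero -/
theorem eq_zero_of_cmp_aux (v : Q) (y : H2 (lv 𝓛 D v) (rv D (Fn π (rhoChi χ)) v))
    (h : ∀ ω, cmp 𝓛 D π (rhoChi χ) v ω y = 0) : y = 0 :=
  H2_eq_zero_of_fib (pv D π v) (orbMk (pv D π v)) (orbMk_apply (pv D π v)) (rv D (rhoChi χ) v)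
    (lv 𝓛 D v) y h

/-- `eps_*` of a local class is the sum over the components -/
theorem eps_eq_sum_cmp_aux (v : Q) (y : H2 (lv 𝓛 D v) (rv D (Fn π (rhoChi χ)) v)) :
    H2c (lv 𝓛 D v) ((isHom_eps π (rhoChi χ)).res (D v).subtype) y =
      ∑ ω : Orb (pv D π v), H2c (lv 𝓛 D v) (isHom_eps (orbAct (pv D π v) ω) (rv D (rhoChi χ) v))
        (cmp 𝓛 D π (rhoChi χ) v ω y) :=
  eps_eq_sum_fib (pv D π v) (orbMk (pv D π v)) (orbMk_apply (pv D π v)) (rv D (rhoChi χ) v)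
    (lv 𝓛 D v) y

theorem res_eps_eq_sum_aux (x : H2 𝓛 (Fn π (rhoChi χ))) (v : Q) :
    res2 𝓛 (rhoChi χ) (D v).subtype (H2c 𝓛 (isHom_eps π (rhoChi χ)) x) =
      ∑ ω : Orb (pv D π v), H2c (lv 𝓛 D v) (isHom_eps (orbAct (pv D π v) ω) (rv D (rhoChi χ) v))
        (cmp 𝓛 D π (rhoChi χ) v ω (res2 𝓛 (Fn π (rhoChi χ)) (D v).subtype x)) := by
  rw [res2_H2c]
  exact eps_eq_sum_cmp_aux v _

theorem res_eps_ne_zero_aux (hlb : LBC p 𝓛 χ D) (hπ : SmoothSet π 𝓛)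
    (x : H2 𝓛 (Fn π (rhoChi χ))) (v : Q) (ω : Orb (pv D π v))
    (hω : cmp 𝓛 D π (rhoChi χ) v ω (res2 𝓛 (Fn π (rhoChi χ)) (D v).subtype x) ≠ 0)
    (h : ∀ ω', ω' ≠ ω →
      cmp 𝓛 D π (rhoChi χ) v ω' (res2 𝓛 (Fn π (rhoChi χ)) (D v).subtype x) = 0) :
    res2 𝓛 (rhoChi χ) (D v).subtype (H2c 𝓛 (isHom_eps π (rhoChi χ)) x) ≠ 0 := by
  rw [res_eps_eq_sum_aux, Finset.sum_eq_single ω (fun ω' _ hω' => by rw [h ω' hω', map_zero])
    (fun h' => absurd (Finset.mem_univ _) h')]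
  intro h0
  refine hω ((hlb v (orbAct (pv D π v) ω) (smoothSet_orbAct _ (hπ.comap _) ω)
    (isTrans_orbAct _ ω)).2 ?_)
  rw [h0, map_zero]

end Aux

theorem res_eta_eq_zero_iff_aux (x : H2 𝓛 (rhoChi χ)) (v : Q) :
    res2 𝓛 (Fn (ptPerm G) (rhoChi χ)) (D v).subtype (H2c 𝓛 (isHom_eta (ptPerm G) (rhoChi χ)) x) = 0
      ↔ res2 𝓛 (rhoChi χ) (D v).subtype x = 0 := by
  constructor
  · intro h
    have h1 := res2_H2c 𝓛 (D v).subtype (isHom_eps (ptPerm G) (rhoChi χ))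
      (H2c 𝓛 (isHom_eta (ptPerm G) (rhoChi χ)) x)
    rw [eps_eta_pt, h, map_zero] at h1
    exact h1
  · intro h
    rw [res2_H2c, h, map_zero]

/-- [S55/G-INV] -/
theorem card_H2_loc (hlb : LBC p 𝓛 χ D) (v : Q) :
    Nat.card (H2 (lv 𝓛 D v) (rv D (rhoChi χ) v)) = p := by
  refine Eq.trans ?_ (hlb v (ptPerm ↥(D v)) (smoothSet_ptPerm _) isTrans_ptPerm).1
  exact Nat.card_congr
    { toFun := H2c _ (isHom_eta (ptPerm ↥(D v)) _)
      invFun := H2c _ (isHom_eps (ptPerm ↥(D v)) _)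
      left_inv := eps_eta_pt _ _
      right_inv := eta_eps_pt _ _ }

/-- [S55/G-INV] (β) over the base -/
theorem betaQ (hχ : Smooth 𝓛 (rhoChi χ)) (hlb : LBC p 𝓛 χ D) (hbeta : Beta p 𝓛 χ D)
    (v₁ v₂ : Q) (hne : v₁ ≠ v₂) :
    ∃ x : H2 𝓛 (rhoChi χ),
      (res2 𝓛 (rhoChi χ) (D v₁).subtype x ≠ 0 ∨ res2 𝓛 (rhoChi χ) (D v₂).subtype x ≠ 0) ∧
      ∀ v, v ≠ v₁ → v ≠ v₂ → res2 𝓛 (rhoChi χ) (D v).subtype x = 0 := by
  classical
  have hopen : 𝓛.IsOpen χ.ker := isOpen_ker_aux hχ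
  have hfinq : Finite (G ⧸ χ.ker) := finite_quotient_of_isOpen hopen
  let _ : Fintype (G ⧸ χ.ker) := Fintype.ofFinite _
  have hsm : SmoothSet (cosetPerm χ.ker) 𝓛 := smoothSet_cosetPerm hopen
  let P₁ : Plc D (cosetPerm χ.ker) := ⟨v₁, orbMk _ ((1 : G) : G ⧸ χ.ker)⟩
  let P₂ : Plc D (cosetPerm χ.ker) := ⟨v₂, orbMk _ ((1 : G) : G ⧸ χ.ker)⟩
  have hP : P₁ ≠ P₂ := fun h => hne (congrArg Sigma.fst h)
  obtain ⟨x₁, ⟨v₀, hv₀⟩, hx₁⟩ := hbeta (cosetPerm χ.ker) hsm (isTrans_cosetPerm _) (stabIn_ker_aux χ)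
    P₁ P₂ hP
  refine ⟨H2c 𝓛 (isHom_eps _ _) x₁, ?_, ?_⟩
  · -- some component is nonzero
    obtain ⟨ω, hω⟩ : ∃ ω, cmp 𝓛 D (cosetPerm χ.ker) (rhoChi χ) v₀ ω
        (res2 𝓛 (Fn (cosetPerm χ.ker) (rhoChi χ)) (D v₀).subtype x₁) ≠ 0 := by
      by_contra h
      exact hv₀ (eq_zero_of_cmp_aux _ _ fun ω => by_contra fun hω => h ⟨ω, hω⟩)
    have hcase : (⟨v₀, ω⟩ : Plc D (cosetPerm χ.ker)) = P₁ ∨ (⟨v₀, ω⟩ : Plc D (cosetPerm χ.ker)) = P₂ := by
      by_contra h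
      rw [not_or] at h
      exact hω (hx₁ ⟨v₀, ω⟩ h.1 h.2)
    rcases hcase with h | h
    · left
      obtain ⟨rfl, h2⟩ := Sigma.mk.inj_iff.1 h
      have h2 := eq_of_heq h2
      refine res_eps_ne_zero_aux hlb hsm x₁ v₀ ω hω fun ω' hω' => hx₁ ⟨v₀, ω'⟩ ?_ ?_
      · intro h3
        exact hω' ((eq_of_heq (Sigma.mk.inj_iff.1 h3).2).trans h2.symm)
      · intro h3
        exact hne (congrArg Sigma.fst h3)
    · right
      obtain ⟨rfl, h2⟩ := Sigma.mk.inj_iff.1 h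
      have h2 := eq_of_heq h2
      refine res_eps_ne_zero_aux hlb hsm x₁ v₀ ω hω fun ω' hω' => hx₁ ⟨v₀, ω'⟩ ?_ ?_
      · intro h3
        exact hne (congrArg Sigma.fst h3).symm
      · intro h3
        exact hω' ((eq_of_heq (Sigma.mk.inj_iff.1 h3).2).trans h2.symm)
  · intro v hv1 hv2
    rw [res_eps_eq_sum_aux]
    refine Finset.sum_eq_zero fun ω _ => ?_
    rw [hx₁ ⟨v, ω⟩ (fun h => hv1 (congrArg Sigma.fst h)) (fun h => hv2 (congrArg Sigma.fst h)),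
      map_zero]

/-- [S55/G-INV] the local invariants and the reciprocity law -/
theorem exists_t (hχ : Smooth 𝓛 (rhoChi χ)) (hlb : LBC p 𝓛 χ D) (hfin : FinAll p 𝓛 χ D)
    (halpha : Alpha p 𝓛 χ D) (hbeta : Beta p 𝓛 χ D) :
    ∃ t : ∀ v, H2 (lv 𝓛 D v) (rv D (rhoChi χ) v) →+ ZMod p, (∀ v, Function.Bijective (t v)) ∧
      ∀ x : H2 𝓛 (rhoChi χ), ∑ᶠ v, t v (res2 𝓛 (rhoChi χ) (D v).subtype x) = 0 := by
  let R : H2 𝓛 (rhoChi χ) →+ ∀ v, H2 (lv 𝓛 D v) (rv D (rhoChi χ) v) :=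
    AddMonoidHom.pi fun v => res2 𝓛 (rhoChi χ) (D v).subtype
  have hR : ∀ x v, R x v = res2 𝓛 (rhoChi χ) (D v).subtype x := fun _ _ => rfl
  obtain ⟨t, ht, hsum⟩ := exists_invariants (p := p)
    (fun v => H2 (lv 𝓛 D v) (rv D (rhoChi χ) v)) (card_H2_loc hlb) R.range
    (by
      rintro _ ⟨x, rfl⟩
      refine (hfin (ptPerm G) (smoothSet_ptPerm 𝓛) isTrans_ptPerm
        (H2c 𝓛 (isHom_eta (ptPerm G) (rhoChi χ)) x)).subset fun v hv => ?_
      exact fun h => hv ((res_eta_eq_zero_iff_aux x v).1 h))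
    (by
      rintro _ ⟨x, rfl⟩ q hq
      exact (res_eta_eq_zero_iff_aux x q).1 (halpha (H2c 𝓛 (isHom_eta (ptPerm G) (rhoChi χ)) x) q
        fun v hv => (res_eta_eq_zero_iff_aux x v).2 (hq v hv)))
    (by
      intro v₁ v₂ hne
      obtain ⟨x, h1, h2⟩ := betaQ hχ hlb hbeta v₁ v₂ hne
      exact ⟨R x, ⟨x, rfl⟩, h1, h2⟩)
  exact ⟨t, ht, fun x => hsum (R x) ⟨x, rfl⟩⟩

/-- [S55/G-INV] -/
theorem lb_of (hlb : LBC p 𝓛 χ D) (t : ∀ v, H2 (lv 𝓛 D v) (rv D (rhoChi χ) v) →+ ZMod p)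
    (ht : ∀ v, Function.Bijective (t v)) (v : Q) {Sg : Type} [Fintype Sg]
    (π : ↥(D v) →* Equiv.Perm Sg) (hπ : SmoothSet π (lv 𝓛 D v)) (htr : IsTrans π) :
    Function.Bijective fun x : H2 (lv 𝓛 D v) (Fn π (rv D (rhoChi χ) v)) =>
      t v (H2c (lv 𝓛 D v) (isHom_eps π (rv D (rhoChi χ) v)) x) := by
  obtain ⟨hc, hinj⟩ := hlb v π hπ htr
  refine (Nat.bijective_iff_injective_and_card _).2 ⟨(ht v).1.comp hinj, ?_⟩
  rw [hc, Nat.card_zmod]

/-! ### auxiliary definitions for G-EX1 -/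

section Fam

variable {Sg : Type} [Fintype Sg]

/-- finitely supported families of local classes -/
def finFam (𝓛 : Lvl G) (χ : G →* (ZMod p)ˣ) (D : Q → Subgroup G) (π : G →* Equiv.Perm Sg) :
    AddSubgroup (∀ v, H2 (lv 𝓛 D v) (rv D (Fn π (rhoChi χ)) v)) where
  carrier := {y | {v | y v ≠ 0}.Finite}
  zero_mem' := by simp
  add_mem' := by
    intro a b ha hb
    refine (ha.union hb).subset fun v hv => ?_
    by_contra h
    simp only [Set.mem_union, Set.mem_ofPred_eq, not_or, not_not] at h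
    exact hv (by rw [Pi.add_apply, h.1, h.2, add_zero])
  neg_mem' := by
    intro a ha
    refine ha.subset fun v hv h => hv ?_
    rw [Pi.neg_apply, h, neg_zero]

/-- the family of localisations of a global class -/
def globFam (hfin : FinAll p 𝓛 χ D) (π : G →* Equiv.Perm Sg) (hπ : SmoothSet π 𝓛)
    (htr : IsTrans π) : H2 𝓛 (Fn π (rhoChi χ)) →+ ↥(finFam 𝓛 χ D π) :=
  (AddMonoidHom.pi fun v => res2 𝓛 (Fn π (rhoChi χ)) (D v).subtype).codRestrict _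
    (fun x => hfin π hπ htr x)

/-- the invariants of the components of a family -/
def PhiFam (t : ∀ v, H2 (lv 𝓛 D v) (rv D (rhoChi χ) v) →+ ZMod p) (π : G →* Equiv.Perm Sg) :
    ↥(finFam 𝓛 χ D π) →+ (Plc D π → ZMod p) where
  toFun y P := t P.1 (H2c (lv 𝓛 D P.1) (isHom_eps (orbAct (pv D π P.1) P.2) (rv D (rhoChi χ) P.1))
    (cmp 𝓛 D π (rhoChi χ) P.1 P.2 (y.1 P.1)))
  map_zero' := by
    funext P
    simp
  map_add' a b := by
    funext P
    simp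

theorem PhiFam_apply (t : ∀ v, H2 (lv 𝓛 D v) (rv D (rhoChi χ) v) →+ ZMod p)
    (π : G →* Equiv.Perm Sg) (y : ↥(finFam 𝓛 χ D π)) (P : Plc D π) :
    PhiFam t π y P = t P.1 (H2c (lv 𝓛 D P.1)
      (isHom_eps (orbAct (pv D π P.1) P.2) (rv D (rhoChi χ) P.1))
      (cmp 𝓛 D π (rhoChi χ) P.1 P.2 (y.1 P.1))) := rfl

theorem PhiFam_injective (hlb : LBC p 𝓛 χ D)
    (t : ∀ v, H2 (lv 𝓛 D v) (rv D (rhoChi χ) v) →+ ZMod p) (ht : ∀ v, Function.Bijective (t v))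
    {π : G →* Equiv.Perm Sg} (hπ : SmoothSet π 𝓛) : Function.Injective (PhiFam t π) := by
  rw [injective_iff_map_eq_zero]
  intro y hy
  apply Subtype.ext
  funext v
  refine eq_zero_of_cmp_aux v _ fun ω => ?_
  have h1 : PhiFam t π y ⟨v, ω⟩ = 0 := by rw [hy]; rfl
  rw [PhiFam_apply] at h1
  have h2 := (ht v).1 (h1.trans (map_zero (t v)).symm)
  exact (hlb v (orbAct (pv D π v) ω) (smoothSet_orbAct _ (hπ.comap _) ω)
    (isTrans_orbAct _ ω)).2 (h2.trans (map_zero _).symm)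

theorem PhiFam_support_subset (t : ∀ v, H2 (lv 𝓛 D v) (rv D (rhoChi χ) v) →+ ZMod p)
    (π : G →* Equiv.Perm Sg) (y : ↥(finFam 𝓛 χ D π)) :
    Function.support (PhiFam t π y) ⊆ Set.sigma {v | y.1 v ≠ 0} (fun _ => Set.univ) := by
  intro P hP
  refine ⟨fun h => hP ?_, Set.mem_univ _⟩
  rw [PhiFam_apply, h, map_zero, map_zero, map_zero]

theorem PhiFam_support_finite (t : ∀ v, H2 (lv 𝓛 D v) (rv D (rhoChi χ) v) →+ ZMod p)
    (π : G →* Equiv.Perm Sg) (y : ↥(finFam 𝓛 χ D π)) :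
    (Function.support (PhiFam t π y)).Finite := by
  classical
  have hy : {v | y.1 v ≠ 0}.Finite := y.2
  refine ((hy.toFinset.sigma fun _ => Finset.univ).finite_toSet).subset fun P hP => ?_
  have := PhiFam_support_subset t π y hP
  rw [Finset.mem_coe, Finset.mem_sigma, Set.Finite.mem_toFinset]
  exact ⟨this.1, Finset.mem_univ _⟩

theorem finsum_PhiFam (t : ∀ v, H2 (lv 𝓛 D v) (rv D (rhoChi χ) v) →+ ZMod p)
    (π : G →* Equiv.Perm Sg) (y : ↥(finFam 𝓛 χ D π)) :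
    ∑ᶠ P, PhiFam t π y P =
      ∑ᶠ v, t v (H2c (lv 𝓛 D v) ((isHom_eps π (rhoChi χ)).res (D v).subtype) (y.1 v)) := by
  classical
  have hy : {v | y.1 v ≠ 0}.Finite := y.2
  rw [finsum_eq_sum_of_support_subset (s := hy.toFinset.sigma fun _ => Finset.univ),
    finsum_eq_sum_of_support_subset (s := hy.toFinset), Finset.sum_sigma]
  · refine Finset.sum_congr rfl fun v _ => ?_
    rw [eps_eq_sum_cmp_aux, map_sum]
    rfl
  · intro v hv
    rw [Finset.mem_coe, Set.Finite.mem_toFinset]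
    intro h
    exact hv (by show t v _ = 0; rw [h, map_zero, map_zero])
  · intro P hP
    have := PhiFam_support_subset t π y hP
    rw [Finset.mem_coe, Finset.mem_sigma, Set.Finite.mem_toFinset]
    exact ⟨this.1, Finset.mem_univ _⟩

end Fam

/-- [S55/G-EX1] -/
theorem ex_stab (hlb : LBC p 𝓛 χ D) (hfin : FinAll p 𝓛 χ D) (hbeta : Beta p 𝓛 χ D)
    (t : ∀ v, H2 (lv 𝓛 D v) (rv D (rhoChi χ) v) →+ ZMod p) (ht : ∀ v, Function.Bijective (t v))
    (hrec : ∀ x : H2 𝓛 (rhoChi χ), ∑ᶠ v, t v (res2 𝓛 (rhoChi χ) (D v).subtype x) = 0)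
    {Sg : Type} [Fintype Sg] (π : G →* Equiv.Perm Sg) (hπ : SmoothSet π 𝓛) (htr : IsTrans π)
    (hst : StabIn p χ π)
    (y : ∀ v, H2 (lv 𝓛 D v) (rv D (Fn π (rhoChi χ)) v)) (hy : {v | y v ≠ 0}.Finite)
    (hsum : ∑ᶠ v, t v (H2c (lv 𝓛 D v) ((isHom_eps π (rhoChi χ)).res (D v).subtype) (y v)) = 0) :
    ∃ x : H2 𝓛 (Fn π (rhoChi χ)), ∀ v, res2 𝓛 (Fn π (rhoChi χ)) (D v).subtype x = y v := by
  classical
  have hmem := mem_of_finsum_eq_zero (p := p) (globFam hfin π hπ htr).range (PhiFam t π)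
    (PhiFam_injective hlb t ht hπ) (PhiFam_support_finite t π)
    (by
      intro P₁ P₂ hP
      obtain ⟨x, ⟨v₀, hv₀⟩, hx⟩ := hbeta π hπ htr hst P₁ P₂ hP
      refine ⟨globFam hfin π hπ htr x, ⟨x, rfl⟩, ?_, ?_, ?_⟩
      · intro h0
        have h1 : globFam hfin π hπ htr x = 0 :=
          PhiFam_injective hlb t ht hπ (by rw [h0, map_zero])
        exact hv₀ (congrFun (congrArg Subtype.val h1) v₀)
      · intro P h1 h2
        show t P.1 (H2c _ _ (cmp 𝓛 D π (rhoChi χ) P.1 P.2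
          (res2 𝓛 (Fn π (rhoChi χ)) (D P.1).subtype x))) = 0
        rw [hx P h1 h2, map_zero, map_zero]
      · rw [finsum_PhiFam]
        rw [← hrec (H2c 𝓛 (isHom_eps π (rhoChi χ)) x)]
        refine finsum_congr fun v => ?_
        rw [res2_H2c]
        rfl)
    ⟨y, hy⟩ (by rw [finsum_PhiFam]; exact hsum)
  obtain ⟨x, hx⟩ := hmem
  exact ⟨x, fun v => congrFun (congrArg Subtype.val hx) v⟩

/-! ### auxiliary lemmas for G-EX2 -/

theorem stabIn_of_le_aux (χ : G →* (ZMod p)ˣ) {R : Subgroup G} (hR : R ≤ χ.ker) :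
    StabIn p χ (cosetPerm R) := by
  intro s g h
  induction s using QuotientGroup.induction_on with
  | H a =>
    have h1 : ((g * a : G) : G ⧸ R) = (a : G ⧸ R) := h
    rw [eq_comm, QuotientGroup.eq] at h1
    have h2 := hR h1
    rw [MonoidHom.mem_ker, map_mul, map_mul, map_inv] at h2
    rw [mul_comm (χ g), ← mul_assoc, inv_mul_cancel, one_mul] at h2
    exact h2

section Ex2

variable {Sg : Type}

/-- the orbit map `G/R → Σ`, `g R ↦ g s₀` -/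
def orbitMapAux (π : G →* Equiv.Perm Sg) (s₀ : Sg) {R : Subgroup G} (hR : R ≤ stab π s₀) :
    G ⧸ R → Sg :=
  Quotient.lift (s := QuotientGroup.leftRel R) (fun g => π g s₀) (fun a b hab => by
    have h1 : a⁻¹ * b ∈ R := QuotientGroup.leftRel_apply.1 hab
    have h2 := mem_stab.1 (hR h1)
    rw [map_mul, Equiv.Perm.mul_apply, map_inv, Equiv.Perm.inv_eq_iff_eq] at h2
    exact h2.symm)

theorem orbitMapAux_mk (π : G →* Equiv.Perm Sg) (s₀ : Sg) {R : Subgroup G} (hR : R ≤ stab π s₀)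
    (g : G) : orbitMapAux π s₀ hR (g : G ⧸ R) = π g s₀ := rfl

theorem isSetMap_orbitMapAux (π : G →* Equiv.Perm Sg) (s₀ : Sg) {R : Subgroup G}
    (hR : R ≤ stab π s₀) : IsSetMap π (cosetPerm R) (orbitMapAux π s₀ hR) := by
  intro g s
  induction s using QuotientGroup.induction_on with
  | H a =>
    show π (g * a) s₀ = π g (π a s₀)
    rw [map_mul, Equiv.Perm.mul_apply]

/-- the fibres of `G/(Stab ⊓ ker χ) → Σ` all have the same number `0 < d < p` of elements -/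
theorem card_fiber_aux (χ : G →* (ZMod p)ˣ) (π : G →* Equiv.Perm Sg) (s₀ : Sg)
    (htr : ∀ s s' : Sg, ∃ g, π g s = s') :
    ∃ d : ℕ, (∀ s, Nat.card {s' : G ⧸ (stab π s₀ ⊓ χ.ker) //
      orbitMapAux π s₀ inf_le_left s' = s} = d) ∧ 0 < d ∧ d < p := by
  have hp : p.Prime := Fact.out
  set R : Subgroup G := stab π s₀ ⊓ χ.ker with hR
  have hu := isSetMap_orbitMapAux π s₀ (R := R) inf_le_left
  refine ⟨Nat.card {s' : G ⧸ R // orbitMapAux π s₀ inf_le_left s' = s₀}, fun s => ?_, ?_, ?_⟩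
  · obtain ⟨g, rfl⟩ := htr s₀ s
    refine (Nat.card_congr (Equiv.subtypeEquiv (cosetPerm R g) fun a => ?_)).symm
    rw [hu g a]
    exact (π g).injective.eq_iff.symm
  all_goals
    let f : {s' : G ⧸ R // orbitMapAux π s₀ inf_le_left s' = s₀} → (ZMod p)ˣ :=
      fun s' => χ (Quotient.out s'.1)
    have hf : Function.Injective f := by
      intro a b hab
      have ha : Quotient.out a.1 ∈ stab π s₀ := by
        have := a.2
        rw [← QuotientGroup.out_eq' a.1] at this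
        exact this
      have hb : Quotient.out b.1 ∈ stab π s₀ := by
        have := b.2
        rw [← QuotientGroup.out_eq' b.1] at this
        exact this
      apply Subtype.ext
      rw [← QuotientGroup.out_eq' a.1, ← QuotientGroup.out_eq' b.1, QuotientGroup.eq]
      refine Subgroup.mem_inf.2 ⟨mul_mem (inv_mem ha) hb, ?_⟩
      rw [MonoidHom.mem_ker, map_mul, map_inv]
      have : χ (Quotient.out a.1) = χ (Quotient.out b.1) := hab
      rw [this, inv_mul_cancel]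
    have hfin : Finite {s' : G ⧸ R // orbitMapAux π s₀ inf_le_left s' = s₀} := Finite.of_injective f hf
  · have : Nonempty {s' : G ⧸ R // orbitMapAux π s₀ inf_le_left s' = s₀} :=
      ⟨⟨((1 : G) : G ⧸ R), by rw [orbitMapAux_mk, map_one]; rfl⟩⟩
    exact Nat.card_pos
  · have h1 := Nat.card_le_card_of_injective f hf
    rw [Nat.card_eq_fintype_card (α := (ZMod p)ˣ), ZMod.card_units] at h1
    have := hp.pos
    omega

variable [Fintype Sg] {Sg' : Type} [Fintype Sg'] {π : G →* Equiv.Perm Sg}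
  {π' : G →* Equiv.Perm Sg'} {u : Sg' → Sg}

theorem push_pull_res_aux (hu : IsSetMap π π' u) (d : ℕ)
    (hd : ∀ s, Nat.card {s' // u s' = s} = d) (v : Q)
    (y : H2 (lv 𝓛 D v) (rv D (Fn π (rhoChi χ)) v)) :
    H2c (lv 𝓛 D v) ((isHom_push (rhoChi χ) hu).res (D v).subtype)
      (H2c (lv 𝓛 D v) ((isHom_pull (rhoChi χ) hu).res (D v).subtype) y) = d • y :=
  push_pull_of_card (π := pv D π v) (π' := pv D π' v) (rv D (rhoChi χ) v) (lv 𝓛 D v)
    (u := u) (fun g s => hu g s) d hd y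

theorem eps_push_res_aux (hu : IsSetMap π π' u) (v : Q)
    (z : H2 (lv 𝓛 D v) (rv D (Fn π' (rhoChi χ)) v)) :
    H2c (lv 𝓛 D v) ((isHom_eps π (rhoChi χ)).res (D v).subtype)
      (H2c (lv 𝓛 D v) ((isHom_push (rhoChi χ) hu).res (D v).subtype) z) =
      H2c (lv 𝓛 D v) ((isHom_eps π' (rhoChi χ)).res (D v).subtype) z :=
  eps_push (π := pv D π v) (π' := pv D π' v) (rv D (rhoChi χ) v) (lv 𝓛 D v)
    (u := u) (fun g s => hu g s) z

end Ex2

/-- [S55/G-EX2] -/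
theorem ex_of (hχ : Smooth 𝓛 (rhoChi χ)) (hlb : LBC p 𝓛 χ D) (hfin : FinAll p 𝓛 χ D)
    (hbeta : Beta p 𝓛 χ D)
    (t : ∀ v, H2 (lv 𝓛 D v) (rv D (rhoChi χ) v) →+ ZMod p) (ht : ∀ v, Function.Bijective (t v))
    (hrec : ∀ x : H2 𝓛 (rhoChi χ), ∑ᶠ v, t v (res2 𝓛 (rhoChi χ) (D v).subtype x) = 0)
    {Sg : Type} [Fintype Sg] (π : G →* Equiv.Perm Sg) (hπ : SmoothSet π 𝓛) (htr : IsTrans π)
    (y : ∀ v, H2 (lv 𝓛 D v) (rv D (Fn π (rhoChi χ)) v)) (hy : {v | y v ≠ 0}.Finite)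
    (hsum : ∑ᶠ v, t v (H2c (lv 𝓛 D v) ((isHom_eps π (rhoChi χ)).res (D v).subtype) (y v)) = 0) :
    ∃ x : H2 𝓛 (Fn π (rhoChi χ)), ∀ v, res2 𝓛 (Fn π (rhoChi χ)) (D v).subtype x = y v := by
  classical
  have hp : p.Prime := Fact.out
  obtain ⟨⟨s₀⟩, htr'⟩ := htr
  set R : Subgroup G := stab π s₀ ⊓ χ.ker with hR
  have hopen : 𝓛.IsOpen R := by
    obtain ⟨U, hU, hUs⟩ := isOpen_stab hπ s₀
    obtain ⟨V, hV, hVk⟩ := isOpen_ker_aux hχ
    obtain ⟨W, hW, hWUV⟩ := 𝓛.inter U hU V hV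
    exact ⟨W, hW, fun w hw => ⟨hUs (hWUV hw).1, hVk (hWUV hw).2⟩⟩
  have hfinq : Finite (G ⧸ R) := finite_quotient_of_isOpen hopen
  let _ : Fintype (G ⧸ R) := Fintype.ofFinite _
  have hsm : SmoothSet (cosetPerm R) 𝓛 := smoothSet_cosetPerm hopen
  have hu : IsSetMap π (cosetPerm R) (orbitMapAux π s₀ inf_le_left) := isSetMap_orbitMapAux π s₀ _
  obtain ⟨d, hd, hd0, hdp⟩ := card_fiber_aux χ π s₀ htr'
  -- the inverse of `d` modulo `p`
  have hcop : Nat.Coprime d p := by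
    rw [Nat.coprime_comm, hp.coprime_iff_not_dvd]
    intro hdvd
    have := Nat.le_of_dvd hd0 hdvd
    omega
  obtain ⟨d', -, hd'⟩ := Nat.exists_mul_mod_eq_one_of_coprime hcop hp.one_lt
  have hkill : ∀ (v : Q) (z : H2 (lv 𝓛 D v) (rv D (Fn π (rhoChi χ)) v)), (d' * d) • z = z := by
    intro v z
    have hpz : p • z = 0 := nsmul_H2_eq_zero _ p (fun a => by
      funext s
      simp) z
    have e : d' * d = p * (d * d' / p) + 1 := by
      rw [mul_comm d' d]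
      conv_lhs => rw [← Nat.div_add_mod (d * d') p, hd']
    rw [e, add_smul, mul_smul, one_smul, smul_comm, hpz, smul_zero, zero_add]
  -- the pulled back family
  let y₁ : ∀ v, H2 (lv 𝓛 D v) (rv D (Fn (cosetPerm R) (rhoChi χ)) v) := fun v =>
    H2c (lv 𝓛 D v) ((isHom_pull (rhoChi χ) hu).res (D v).subtype) (y v)
  have hy₁ : {v | y₁ v ≠ 0}.Finite := hy.subset fun v hv h => hv (by
    show H2c _ _ (y v) = 0
    rw [h, map_zero])
  have heps : ∀ v, H2c (lv 𝓛 D v) ((isHom_eps (cosetPerm R) (rhoChi χ)).res (D v).subtype) (y₁ v) =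
      d • H2c (lv 𝓛 D v) ((isHom_eps π (rhoChi χ)).res (D v).subtype) (y v) := by
    intro v
    rw [← eps_push_res_aux hu v (y₁ v), push_pull_res_aux hu d hd v (y v), map_nsmul]
  have hsum₁ : ∑ᶠ v, t v (H2c (lv 𝓛 D v)
      ((isHom_eps (cosetPerm R) (rhoChi χ)).res (D v).subtype) (y₁ v)) = 0 := by
    have : (fun v => t v (H2c (lv 𝓛 D v)
        ((isHom_eps (cosetPerm R) (rhoChi χ)).res (D v).subtype) (y₁ v))) =
        fun v => (d : ZMod p) * t v (H2c (lv 𝓛 D v)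
          ((isHom_eps π (rhoChi χ)).res (D v).subtype) (y v)) := by
      funext v
      rw [heps v, map_nsmul, nsmul_eq_mul]
    rw [this, ← mul_finsum, hsum, mul_zero]
  obtain ⟨x₁, hx₁⟩ := ex_stab hlb hfin hbeta t ht hrec (cosetPerm R) hsm (isTrans_cosetPerm R)
    (stabIn_of_le_aux χ inf_le_right) y₁ hy₁ hsum₁
  refine ⟨d' • H2c 𝓛 (isHom_push (rhoChi χ) hu) x₁, fun v => ?_⟩
  rw [map_nsmul, res2_H2c, hx₁ v, push_pull_res_aux hu d hd v (y v), ← mul_smul, hkill]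

/-- **the `Datum` from the reduced list of arithmetic statements** -/
theorem datum_of (hχ : Smooth 𝓛 (rhoChi χ)) (hlb : LBC p 𝓛 χ D) (hfin : FinAll p 𝓛 χ D)
    (hcyc : Cyc p 𝓛 χ D) (halpha : Alpha p 𝓛 χ D) (hbeta : Beta p 𝓛 χ D)
    (hsha : Sha1All' p 𝓛 D) : Nonempty (Datum p 𝓛 χ D) := by
  obtain ⟨t, ht, hrec⟩ := exists_t hχ hlb hfin halpha hbeta
  exact ⟨{
    t := t
    lb := fun v _ _ π hπ htr => lb_of hlb t ht v π hπ htr
    fin := fun π hπ htr x => hfin π hπ htr x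
    hasse := fun π hπ _ x hx => hasse_of_cyc hχ hcyc π hπ x hx
    recip := hrec
    ex := fun π hπ htr y hy hsum => ex_of hχ hlb hfin hbeta t ht hrec π hπ htr y hy hsum
    sha1 := fun π hπ htr x hx => hsha π hπ htr x hx }⟩

end Fermat.Agent.S55.G
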