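import Fermat.Agent.S55.G.AlDefs
import Fermat.Agent.S55.G.Inv

/-!
# S55 / layer G : (α), cohomological reduction to a statement on local norms     (key `S55/G-AL-COH`)

`alpha_of_core` : let `x ∈ H²(GQ, Fn pt T)` with `res_v x = 0` for `v ≠ q`.  Take `ℓ, ψ` from `hcore q`, `T := cycTorsor_piC ψ`, `χ = cycloChar p`.
1. `y := H2c (isHom_pull (rhoChi χ) T.map) x` is locally trivial.  `res2 (H2c pull x) = H2c (pull.res) (res2 x)` (`G.res2_H2c`).  For `v ≠ q` this is `0`.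
   For `v = q`: `(piC ψ).comp (Dq q).subtype` is transitive (`isTrans_piC_of_not_le`) and smooth (`SmoothSet.comap`), so `eps_*` is injective (`hL`);
   `eps ∘ pull = p • eps_pt` as maps `(Unit → ZMod p) →+ ZMod p` (`Finset.sum_const`, `ZMod.card`), so `eps_* (pull_* z) = p • (..) = 0`
   (`H2c_comp'`, `H2c_nsmul`, `nsmul_H2_eq_zero p`; `p • a = 0` in `ZMod p`).
2. `hH` gives `y = 0`.
3. `(kumData_Q p).kap_pull` : `H2c (isHom_pull (gm alQ) T.map) (kap x) = kap y = 0`; `T.exists_theta_eq_iff galAct_Q (smoothSet_piC ψ)` gives `b` with `θ b = kap x`.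
4. `val0 b ()` is a non zero element of `Qb` fixed by `GQ` (`b.2 : b ∈ H0`, evaluate at `()`; `ptPerm` acts trivially), so it is `(β : Qb)`, `β : ℚ`, `β ≠ 0`
   (`IsGalois.mem_bot_iff_fixed` / `IntermediateField.mem_bot`; `B.isGaloisQb`).
5. `cmp_eq_zero_iff T (smoothSet_ptPerm _) (smoothSet_piC ψ) x b hb v 0`, with `stab_ptPerm`, `inf_top_eq`, `stab_piC` :
   `cmp .. v (orbMk _ ()) (res2 x) = 0 ↔ IsLocNorm p (Dq v) (HC ψ) β`.  `res2 x = 0 ↔ cmp .. = 0` : `map_zero` and `eq_zero_of_cmp_aux` (every orbit of `Unit` is `orbMk _ ()`).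
-/

set_option autoImplicit false

noncomputable section

namespace Fermat.Agent.S55.G.Al

open T ExtCitation

variable {p : ℕ} [Fact p.Prime]

theorem coh_res_eq_zero_iff (x : H2 lvlQ (Fn (ptPerm GQ) (rhoChi (cycloChar p)))) (v : Nat.Primes) :
    res2 lvlQ (Fn (ptPerm GQ) (rhoChi (cycloChar p))) (Dq v).subtype x = 0 ↔
      cmp lvlQ Dq (ptPerm GQ) (rhoChi (cycloChar p)) v (orbMk _ ())
        (res2 lvlQ (Fn (ptPerm GQ) (rhoChi (cycloChar p))) (Dq v).subtype x) = 0 := by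
  constructor
  · intro h; rw [h, map_zero]
  · intro h
    refine eq_zero_of_cmp_aux v _ fun ω => ?_
    obtain ⟨s, rfl⟩ := orbMk_surjective _ ω
    exact h

theorem coh_exists_rat (b : ↥(H0 (Fn (ptPerm GQ) (gm alQ)))) :
    ∃ β : ℚ, β ≠ 0 ∧ val0 b () = (β : Qb) := by
  have hfix : ∀ g : GQ, g (val0 b ()) = val0 b () := by
    intro g
    have h1 := congrFun (b.2 g) ()
    have h2 : gm alQ g (b.1 ()) = b.1 () := h1
    have h3 := congrArg (fun y : Additive Qbˣ => ((y.toMul : Qbˣ) : Qb)) h2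
    exact h3
  have := B.isGaloisQb
  obtain ⟨β, hβ⟩ := (InfiniteGalois.mem_range_algebraMap_iff_fixed (k := ℚ) (K := Qb) _).2 hfix
  refine ⟨β, ?_, ?_⟩
  · rintro rfl
    rw [map_zero] at hβ
    exact (Units.ne_zero _) hβ.symm
  · rw [← hβ]; simp


theorem coh_pull_eq_zero {ℓ : ℕ} [Fact ℓ.Prime] (ψ : (ZMod ℓ)ˣ →* Multiplicative (ZMod p))
    (hL : LBC p lvlQ (cycloChar p) Dq) (q : Nat.Primes) (hns : ¬ Dq q ≤ HC ψ)
    (z : H2 (lv lvlQ Dq q) (rv Dq (Fn (ptPerm GQ) (rhoChi (cycloChar p))) q)) :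
    H2c (lv lvlQ Dq q) ((isHom_pull (rhoChi (cycloChar p)) (cycTorsor_piC ψ).map).res
      (Dq q).subtype) z = 0 := by
  have hinj := (hL q ((piC ψ).comp (Dq q).subtype) ((smoothSet_piC ψ).comap _)
    (isTrans_piC_of_not_le ψ (Dq q) hns)).2
  refine hinj (Eq.trans ?_ (map_zero _).symm)
  have h1 := H2c_comp' (lv lvlQ Dq q)
    ((isHom_pull (rhoChi (cycloChar p)) (cycTorsor_piC ψ).map).res (Dq q).subtype)
    (isHom_eps ((piC ψ).comp (Dq q).subtype) (rv Dq (rhoChi (cycloChar p)) q))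
    (isHom_nsmul p (isHom_eps ((ptPerm GQ).comp (Dq q).subtype) (rv Dq (rhoChi (cycloChar p)) q)))
    (fun f => by
      rw [AddMonoidHom.nsmul_apply, eps_apply, eps_apply]
      simp) z
  refine h1.trans ((H2c_nsmul (lv lvlQ Dq q) p
    (isHom_eps ((ptPerm GQ).comp (Dq q).subtype) (rv Dq (rhoChi (cycloChar p)) q)) z).trans ?_)
  exact nsmul_H2_eq_zero _ p (fun a => by simp) _

/-- [S55/G-AL-COH] -/
theorem alpha_of_core (hL : LBC p lvlQ (cycloChar p) Dq) (hH : HasseAll p lvlQ (cycloChar p) Dq)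
    (hcore : ∀ q : Nat.Primes, ∃ (ℓ : ℕ) (_ : Fact ℓ.Prime)
      (ψ : (ZMod ℓ)ˣ →* Multiplicative (ZMod p)), ¬ Dq q ≤ HC ψ ∧
        ∀ β : ℚ, β ≠ 0 → (∀ v, v ≠ q → IsLocNorm p (Dq v) (HC ψ) (β : Qb)) →
          IsLocNorm p (Dq q) (HC ψ) (β : Qb)) :
    Alpha p lvlQ (cycloChar p) Dq := by
  intro x q hx
  obtain ⟨ℓ, hℓ, ψ, hns, hβ⟩ := hcore q
  have T := cycTorsor_piC ψ
  have hπ' := smoothSet_piC ψ
  have hy : LocTriv Dq (H2c lvlQ (isHom_pull (rhoChi (cycloChar p)) T.map) x) := by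
    intro v
    refine (res2_H2c lvlQ (Dq v).subtype _ x).trans ?_
    by_cases hv : v = q
    · subst hv
      exact coh_pull_eq_zero ψ hL v hns _
    · rw [hx v hv, map_zero]
  have hy0 := hH (piC ψ) hπ' _ hy
  have hk := (kumData_Q p).kap_pull (𝓛 := lvlQ) T.map x
  rw [hy0, map_zero] at hk
  obtain ⟨b, hb⟩ := (T.exists_theta_eq_iff galAct_Q hπ' _).2 hk
  obtain ⟨β, hβ0, hbβ⟩ := coh_exists_rat b
  have key : ∀ v : Nat.Primes,
      res2 lvlQ (Fn (ptPerm GQ) (rhoChi (cycloChar p))) (Dq v).subtype x = 0 ↔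
        IsLocNorm p (Dq v) (HC ψ) (β : Qb) := by
    intro v
    have h1 := cmp_eq_zero_iff T (smoothSet_ptPerm lvlQ) hπ' x b hb.symm v (0 : ZMod p)
    rw [stab_ptPerm, inf_top_eq, stab_piC, hbβ] at h1
    exact (coh_res_eq_zero_iff x v).trans h1
  exact (key q).2 (hβ β hβ0 fun v hv => (key v).1 (hx v hv))

end Fermat.Agent.S55.G.Al
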