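import Fermat.Agent.S55.G.LocNorm
import Fermat.Agent.S55.B.Padic

/-!
# S55 / layer G : (α) = cyclotomic reciprocity over `ℚ`.  Definitions          (key `S55/G-AL-DEF`)

`p` an odd prime, `ℓ` a prime, `ψ : (ZMod ℓ)ˣ →* Multiplicative (ZMod p)` any homomorphism.
NO field `C ⊂ ℚ(ζ_ℓ)` is ever introduced:
* `psiG ψ = ψ ∘ cycloChar ℓ : GQ →* Multiplicative (ZMod p)`, `HC ψ` its kernel (`= Gal(ℚ̄/C)`);
* `piC ψ` : the `GQ`-set `ZMod p`, `g • k = k + ψ(χ_ℓ g)`; with `σ = (· + 1)` it is a `ℤ/p`-torsor over the point;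
* `psiN ψ n = ψ (n mod ℓ)` for `n : ℕ` prime to `ℓ` (`0` otherwise);
* `PsiQ ψ β = ∑_v ord_v(β) ψ(v)` for `β : ℚ`.

## proofs (all short)
`cycTorsor_piC` : `fib`: `k ↦ (σ^k) s = s + k`, take `k = (t - s).val`; `pow`: `p • 1 = 0` in `ZMod p`; `free`: `(k : ZMod p) = 0 ↔ p ∣ k`
(`ZMod.natCast_eq_zero_iff`).  First prove `sigma_pow_apply : ((Equiv.addRight 1)^k) s = s + k` by induction.
`smoothSet_piC` : the level `(E.cycloField ℓ).fixingSubgroup` (`E.cycloChar_eq_one_of_mem`).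
`isTrans_piC_of_not_le` : `g ∈ D`, `a = ψ(χ g) ≠ 0`; `g^k • s = s + k a`, and `k ↦ k a` is onto `ZMod p` (`a` is a unit).
-/

set_option autoImplicit false

noncomputable section

namespace Fermat.Agent.S55.G.Al

open T ExtCitation

variable {p ℓ : ℕ} [Fact p.Prime] [Fact ℓ.Prime] (ψ : (ZMod ℓ)ˣ →* Multiplicative (ZMod p))

/-- `ψ ∘ χ_ℓ` -/
def psiG : GQ →* Multiplicative (ZMod p) := ψ.comp (cycloChar ℓ)

/-- additive version of `psiG` -/
def psiA (g : GQ) : ZMod p := (psiG ψ g).toAdd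

@[simp] theorem psiA_one : psiA ψ 1 = 0 := by simp [psiA]

@[simp] theorem psiA_mul (g h : GQ) : psiA ψ (g * h) = psiA ψ g + psiA ψ h := by simp [psiA]

@[simp] theorem psiA_inv (g : GQ) : psiA ψ g⁻¹ = - psiA ψ g := by simp [psiA]

theorem psiA_pow (g : GQ) (k : ℕ) : psiA ψ (g ^ k) = k • psiA ψ g := by simp [psiA]

/-- `Gal(ℚ̄ / C)` -/
def HC : Subgroup GQ := (psiG ψ).ker

theorem mem_HC {g : GQ} : g ∈ HC ψ ↔ psiA ψ g = 0 := by
  rw [HC, MonoidHom.mem_ker]; rfl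

theorem mem_HC_of_cycloChar {g : GQ} (h : cycloChar ℓ g = 1) : g ∈ HC ψ := by
  rw [HC, MonoidHom.mem_ker, psiG, MonoidHom.comp_apply, h, map_one]

/-- the `GQ`-set `Hom(C, ℚ̄)` -/
def piC : GQ →* Equiv.Perm (ZMod p) where
  toFun g := Equiv.addRight (psiA ψ g)
  map_one' := by ext k; simp
  map_mul' g h := by ext k; simp [add_comm (psiA ψ g), add_assoc]

@[simp] theorem piC_apply (g : GQ) (k : ZMod p) : piC ψ g k = k + psiA ψ g := rfl

theorem stab_piC (k : ZMod p) : stab (piC ψ) k = HC ψ := by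
  ext g
  rw [mem_stab, piC_apply, mem_HC]
  constructor
  · intro h; simpa using h
  · intro h; rw [h, add_zero]

theorem stab_ptPerm : stab (ptPerm GQ) () = ⊤ := by
  ext g; simp [mem_stab]

theorem sigma_pow_apply (k : ℕ) (s : ZMod p) : ((Equiv.addRight (1 : ZMod p)) ^ k) s = s + k := by
  induction k with
  | zero => simp
  | succ k ih =>
    rw [pow_succ', Equiv.Perm.mul_apply, ih]
    simp [add_assoc]

/-- [S55/G-AL-DEF] -/
theorem cycTorsor_piC :
    CycTorsor p (ptPerm GQ) (piC ψ) (fun _ => ()) (Equiv.addRight (1 : ZMod p)) where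
  pos := (Fact.out : p.Prime).pos
  map := fun _ _ => rfl
  comm := fun g s => by
    simp only [piC_apply, Equiv.coe_addRight]
    abel
  surj := fun _ => ⟨0, rfl⟩
  fib := fun s t => by
    constructor
    · intro _
      refine ⟨(t - s).val, ?_⟩
      have : NeZero p := ⟨(Fact.out : p.Prime).ne_zero⟩
      rw [sigma_pow_apply, ZMod.natCast_zmod_val]
      abel
    · intro _; rfl
  pow := by
    ext s
    rw [sigma_pow_apply]
    simp
  free := fun s k h => by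
    rw [sigma_pow_apply] at h
    have h1 : (k : ZMod p) = 0 := by simpa using h
    exact (ZMod.natCast_eq_zero_iff k p).1 h1

/-- [S55/G-AL-DEF] -/
theorem smoothSet_piC : SmoothSet (piC ψ) lvlQ := by
  refine ⟨_, ⟨E.cycloField ℓ, E.finiteDimensional_cycloField ℓ, rfl⟩, fun u hu => ?_⟩
  ext k
  have h1 := (mem_HC ψ).1 (mem_HC_of_cycloChar ψ (E.cycloChar_eq_one_of_mem ℓ hu))
  rw [piC_apply, h1, add_zero]
  rfl

/-- [S55/G-AL-DEF] a subgroup which is not contained in `HC ψ` acts transitively -/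
theorem isTrans_piC_of_not_le (D : Subgroup GQ) (h : ¬ D ≤ HC ψ) :
    IsTrans ((piC ψ).comp D.subtype) := by
  obtain ⟨g, hg, hg'⟩ := SetLike.not_le_iff_exists.1 h
  rw [mem_HC] at hg'
  refine ⟨⟨0⟩, fun s t => ?_⟩
  have : NeZero p := ⟨(Fact.out : p.Prime).ne_zero⟩
  refine ⟨⟨g, hg⟩ ^ ((t - s) * (psiA ψ g)⁻¹).val, ?_⟩
  rw [MonoidHom.comp_apply, map_pow, Subgroup.subtype_apply, piC_apply, psiA_pow, nsmul_eq_mul,
    ZMod.natCast_zmod_val, mul_assoc, inv_mul_cancel₀ hg', mul_one]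
  abel

/-- `ψ` on the natural numbers prime to `ℓ` -/
def psiN (n : ℕ) : ZMod p :=
  if h : n.Coprime ℓ then (ψ (ZMod.unitOfCoprime n h)).toAdd else 0

theorem psiN_of_coprime {n : ℕ} (h : n.Coprime ℓ) :
    psiN ψ n = (ψ (ZMod.unitOfCoprime n h)).toAdd := dif_pos h

/-- `∑_v ord_v(β) ψ(v)` -/
def PsiQ (β : ℚ) : ZMod p := ∑ᶠ v : Nat.Primes, ((padicValRat v β : ℤ) : ZMod p) * psiN ψ v

end Fermat.Agent.S55.G.Al
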