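import Fermat.Agent.S55.G.AlDefs
import Fermat.Agent.S55.B.UnramNorm

/-!
# S55 / layer G : (α), the places `v ≠ ℓ` (unramified in `ℚ(ζ_ℓ)`)
(keys `S55/G-AL-WQ` = `wq_rat`, `exists_zeta`, `exists_frob_cyclo`, `psiN_eq_zero_of_le`;  `S55/G-AL-UNR` = `dvd_of_isLocNorm`;  `S55/G-AL-Q` = `isLocNorm_of_dvd`)

Black boxes from layer B (abstract local theory, `H = Dq v`, `h := B.lf_Dq v : LF (wq v) (Dq v) v v v`):
`B.wq_q`, `B.pres_Dq`, `B.lf_stab`, `B.exists_frob`, `B.cyc_stab`, `B.exists_norm_unit`, `B.w_Nm`, `B.Nm_*`, `B.mem_Fx`, `B.mem_stab`.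

## `wq_rat`
`β = v^n * (a / b)`, `a, b` integers prime to `v`.  `w v = 1` (`wq_q`); an integer `a` prime to `v` has `w a = 0`: `a ∈ A` (integral) and `a⁻¹ ∈ A`
(`Frob.int_not_mem_nonunits` with `D.liesOverPrime_primeLocalPlace v`; `wq_nonneg_iff`).  Or: `u a + t v = 1` (Bezout), `w (t v) > 0`, so `w (u a) = 0`, `w a ≤ 0`.
## `exists_zeta`
`n := orderOf (ZMod.unitOfCoprime v hv)`, so `ℓ ∣ v^n - 1` (`ZMod.natCast_eq_zero_iff`, cast of `v^n - 1`).  `ζ` : `IsAlgClosed` + char `0` ⇒ primitive root of order `v^n - 1 ≠ 0`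
(`HasEnoughRootsOfUnity`/`IsAlgClosed.exists_..`, as in `T.exists_zetaP`).  If `g ζ = ζ` and `t^ℓ = 1` then `t^(v^n-1) = 1`, `t = ζ^j` (`IsPrimitiveRoot.eq_pow_of_pow_eq_one`), `g t = t`;
`E.cycloChar_eq_one ℓ g`, `mem_HC_of_cycloChar`.
## `exists_frob_cyclo`
`B.exists_frob (B.lf_Dq v) (M := ℓ)` applied to a primitive `ℓ`-th root `η`: `φ η = η^v`; every `t` with `t^ℓ = 1` is a power of `η`, so `φ t = t^v`;
`E.cycloChar_spec`: `η^(χ φ).val = η^v` ⇒ `(χ φ).val ≡ v mod ℓ` (`IsPrimitiveRoot.pow_inj`/`pow_eq_pow_iff_modEq`) ⇒ `χ φ = unitOfCoprime v hv` (`Units.ext`, `ZMod.natCast_zmod_val`).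
## `dvd_of_isLocNorm`
`h = Or.inr ⟨γ, hγ, _, z, hz, hN⟩`.  `z ≠ 0`.  `z ∈ Fx (stab (Dq v) ζ)` (`exists_zeta`, fixed fields are antitone).  `(lf_stab ..).unif.gen` : `w z = m * w v = m`.
`w β = w (Nm γ p z) = p * w z` (`B.w_Nm (pres_Dq v)`), `wq_rat`, cast to `ℤ`.
## `isLocNorm_of_dvd`
If `Dq v ≤ HC ψ`: left alternative.  Otherwise `n, ζ` from `exists_zeta`, `φ ∈ Dq v`, `φ ζ = ζ^v` (`B.exists_frob`, `M = v^n - 1`, `LF.not_dvd`), `hc := cyc_stab`.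
(a) every `σ ∈ Dq v` is `φ^i h`, `h ∈ stab ≤ HC` (`hc.gen`), so `psiA σ = i • psiA φ`; hence `psiA φ ≠ 0`, `φ ∉ HC`; `φ^n ∈ stab` gives `n • psiA φ = 0`, so `p ∣ n`, `n = p n'`.
(b) `β = v^(p m) u`, `u : ℚ`, `w u = 0`; `u = Nm φ n y`, `y ∈ Fx (stab ..)` (`exists_norm_unit`); `z₀ := ∏_{k<n'} φ^(p k) y`, `z := v^m z₀`.
`Nm φ p z = v^(p m) ∏_{j<p} ∏_{k<n'} φ^(j + p k) y = v^(p m) Nm φ n y` (`Finset.prod_range` reindexing `i = j + p k`, e.g. `Finset.prod_product'` + `Nat.divModEquiv`, or induction on `n'`).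
(c) `z₀ ∈ Fx (Dq v ⊓ HC)`: `σ = φ^i h` with `p ∣ i` (by (a), as `psiA σ = 0`); `h` fixes each `φ^(pk) y` (`hc.conj`: `Cyc.Nm_mem'`-style lemmas in `B/Basic.lean`);
`φ^p z₀ = z₀` because `φ^n y = y` (telescoping: `φ^p z₀ / z₀ = φ^n y / y`).
-/

set_option autoImplicit false

noncomputable section

namespace Fermat.Agent.S55.G.Al

open T ExtCitation Fermat.Agent.S05

variable {p ℓ : ℕ} [Fact p.Prime] [Fact ℓ.Prime] (ψ : (ZMod ℓ)ˣ →* Multiplicative (ZMod p))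

theorem alWq_pos (v : Nat.Primes) : 0 < (B.wq v).w ((v : ℕ) : Qb) := by
  rw [B.wq_q]; exact one_pos

theorem alWq_nat (v : Nat.Primes) {n : ℕ} (hn : n ≠ 0) :
    (B.wq v).w (n : Qb) = (padicValNat v n : ℝ) := by
  have h1 := Nat.ordProj_mul_ordCompl_eq_self n v
  have h2 := Nat.not_dvd_ordCompl v.2 hn
  have h3 : (n : Qb) = ((v : ℕ) : Qb) ^ (n.factorization v) * ((n / (v : ℕ) ^ n.factorization v : ℕ) : Qb) := by
    exact_mod_cast h1.symm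
  have h4 : ((n / (v : ℕ) ^ n.factorization v : ℕ) : Qb) ≠ 0 := by
    intro h
    have : n / (v : ℕ) ^ n.factorization v = 0 := by exact_mod_cast h
    rw [this] at h2
    exact h2 (dvd_zero _)
  rw [h3, (B.wq v).map_mul _ _ (pow_ne_zero _ (B.q_ne_zero v)) h4, RVal.w_pow (B.q_ne_zero v),
    B.wq_q, B.w_natCast_eq_zero v.2 (alWq_pos v) h2, Nat.factorization_def n v.2]
  simp

theorem alWq_int (v : Nat.Primes) {n : ℤ} (hn : n ≠ 0) :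
    (B.wq v).w (n : Qb) = (padicValInt v n : ℝ) := by
  have h0 : n.natAbs ≠ 0 := Int.natAbs_ne_zero.2 hn
  rw [padicValInt, ← alWq_nat v h0]
  rcases Int.natAbs_eq n with h | h
  · conv_lhs => rw [h]
    simp
  · conv_lhs => rw [h]
    rw [Int.cast_neg, RVal.w_neg]
    simp

/-- [S55/G-AL-WQ] the valuation of a rational number -/
theorem wq_rat (v : Nat.Primes) (β : ℚ) (hβ : β ≠ 0) :
    (B.wq v).w (β : Qb) = (padicValRat v β : ℤ) := by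
  have hnum : β.num ≠ 0 := Rat.num_ne_zero.2 hβ
  have hden : β.den ≠ 0 := β.den_nz
  rw [Rat.cast_def, RVal.w_div (by exact_mod_cast hnum) (by exact_mod_cast hden), alWq_int v hnum,
    alWq_nat v hden, padicValRat_def, Int.cast_sub, Int.cast_natCast, Int.cast_natCast]

theorem alWq_exists_prim (M : ℕ) (hM : 0 < M) : ∃ ζ : Qb, IsPrimitiveRoot ζ M := by
  have : NeZero M := ⟨hM.ne'⟩
  exact HasEnoughRootsOfUnity.exists_primitiveRoot Qb M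

/-- [S55/G-AL-WQ] `ℚ(ζ_ℓ) ⊆ ℚ(ζ_{v^n-1})` -/
theorem exists_zeta (v : Nat.Primes) (hv : (v : ℕ).Coprime ℓ) :
    ∃ (n : ℕ) (ζ : Qb), 0 < n ∧ IsPrimitiveRoot ζ ((v : ℕ) ^ n - 1) ∧
      B.stab (Dq v) ζ ≤ Dq v ⊓ HC ψ := by
  have hℓ : ℓ.Prime := Fact.out
  have hn : 0 < Nat.totient ℓ := Nat.totient_pos.2 hℓ.pos
  have h1 : 1 < (v : ℕ) ^ Nat.totient ℓ := Nat.one_lt_pow hn.ne' v.2.one_lt
  have hd : ℓ ∣ (v : ℕ) ^ Nat.totient ℓ - 1 :=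
    (Nat.modEq_iff_dvd' h1.le).1 (Nat.ModEq.pow_totient hv).symm
  have hM : 0 < (v : ℕ) ^ Nat.totient ℓ - 1 := by omega
  obtain ⟨ζ, hζ⟩ := alWq_exists_prim _ hM
  refine ⟨_, ζ, hn, hζ, fun g hg => ⟨hg.1, mem_HC_of_cycloChar ψ (E.cycloChar_eq_one ℓ g ?_)⟩⟩
  intro t ht
  have : NeZero ((v : ℕ) ^ Nat.totient ℓ - 1) := ⟨hM.ne'⟩
  obtain ⟨c, hc⟩ := hd
  obtain ⟨j, -, rfl⟩ := hζ.eq_pow_of_pow_eq_one (ξ := t) (by rw [hc, pow_mul, ht, one_pow])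
  rw [map_pow, hg.2]

/-- [S55/G-AL-WQ] a Frobenius element -/
theorem exists_frob_cyclo (v : Nat.Primes) (hv : (v : ℕ).Coprime ℓ) :
    ∃ φ ∈ Dq v, cycloChar ℓ φ = ZMod.unitOfCoprime (v : ℕ) hv := by
  have hℓ : ℓ.Prime := Fact.out
  obtain ⟨η, hη⟩ := alWq_exists_prim ℓ hℓ.pos
  have hvl : ¬ (v : ℕ) ∣ ℓ := by
    intro h
    have := Nat.eq_one_of_dvd_coprimes hv dvd_rfl h
    exact v.2.one_lt.ne' this
  obtain ⟨φ, hφ, h1⟩ := B.exists_frob (B.lf_Dq v) hℓ.pos hvl hη.pow_eq_one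
  refine ⟨φ, hφ, Units.ext ?_⟩
  rw [E.cycloChar_spec ℓ φ hη.pow_eq_one] at h1
  have hη0 : η ≠ 0 := hη.ne_zero hℓ.ne_zero
  have h2 : (Units.mk0 η hη0) ^ ((cycloChar ℓ φ : (ZMod ℓ)ˣ) : ZMod ℓ).val = (Units.mk0 η hη0) ^ (v : ℕ) :=
    Units.ext (by simpa using h1)
  rw [pow_eq_pow_iff_modEq] at h2
  have h3 : orderOf (Units.mk0 η hη0) = ℓ := by
    rw [← orderOf_units, Units.val_mk0, ← hη.eq_orderOf]
  rw [h3, ← ZMod.natCast_eq_natCast_iff, ZMod.natCast_zmod_val] at h2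
  rw [h2, ZMod.coe_unitOfCoprime]

/-- [S55/G-AL-WQ] `v` splits in `C` ⇒ `ψ(v) = 0` -/
theorem psiN_eq_zero_of_le (v : Nat.Primes) (h : Dq v ≤ HC ψ) : psiN ψ v = 0 := by
  by_cases hv : (v : ℕ).Coprime ℓ
  · obtain ⟨φ, hφ, hχ⟩ := exists_frob_cyclo (ℓ := ℓ) v hv
    have h1 := (mem_HC ψ).1 (h hφ)
    rw [psiN_of_coprime ψ hv, ← hχ]
    exact h1
  · exact dif_neg hv

/-- [S55/G-AL-UNR] a local norm at a non split place `v ≠ ℓ` has valuation divisible by `p` -/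
theorem dvd_of_isLocNorm (v : Nat.Primes) (hv : (v : ℕ).Coprime ℓ) (hns : ¬ Dq v ≤ HC ψ)
    (β : ℚ) (hβ : β ≠ 0) (h : IsLocNorm p (Dq v) (HC ψ) (β : Qb)) :
    (p : ℤ) ∣ padicValRat v β := by
  have hp : p.Prime := Fact.out
  obtain ⟨γ, hγ, -, z, hz, hN⟩ := h.resolve_left hns
  obtain ⟨n, ζ, hn, hζ, hle⟩ := exists_zeta ψ v hv
  have hβ' : (β : Qb) ≠ 0 := by exact_mod_cast hβ
  have hz0 : z ≠ 0 := by
    rintro rfl
    rw [(B.Nm_eq_zero_iff γ hp.pos).2 rfl] at hN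
    exact hβ' hN.symm
  obtain ⟨m, hm⟩ := (B.lf_stab (B.lf_Dq v) hn hζ).unif.gen z (B.Fx_mono hle hz) hz0
  have h1 := B.w_Nm (B.pres_Dq v) hγ p hz0
  rw [hN, wq_rat v β hβ, hm, B.wq_q, mul_one] at h1
  exact ⟨m, by exact_mod_cast h1⟩

/-- transitivity of partial norms -/
theorem alQ_Nm_Nm (s : GQ) (a b : ℕ) (y : Qb) : B.Nm s a (B.Nm (s ^ a) b y) = B.Nm s (a * b) y := by
  induction b with
  | zero => simp
  | succ b ih =>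
    rw [B.Nm_succ, B.Nm_mul, ih, Nat.mul_succ, B.Nm, B.Nm, B.Nm, Finset.prod_range_add]
    congr 1
    refine Finset.prod_congr rfl fun i _ => ?_
    rw [← pow_mul, ← B.pow_add_apply, add_comm]

theorem alQ_rat_mem (H : Subgroup GQ) (β : ℚ) : (β : Qb) ∈ B.Fx H :=
  B.mem_Fx.2 fun σ _ => map_ratCast σ β

/-- [S55/G-AL-Q] conversely -/
theorem isLocNorm_of_dvd (v : Nat.Primes) (hv : (v : ℕ).Coprime ℓ) (β : ℚ) (hβ : β ≠ 0)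
    (h : (p : ℤ) ∣ padicValRat v β) : IsLocNorm p (Dq v) (HC ψ) (β : Qb) := by
  have hp : p.Prime := Fact.out
  by_cases hle : Dq v ≤ HC ψ
  · exact Or.inl hle
  obtain ⟨n, ζ, hn, hζ, hst⟩ := exists_zeta ψ v hv
  have hlf := B.lf_Dq v
  have hM : 0 < (v : ℕ) ^ n - 1 := by
    have := Nat.one_lt_pow hn.ne' v.2.one_lt
    omega
  obtain ⟨φ, hφ, hφζ⟩ := B.exists_frob hlf hM (hlf.not_dvd hn) hζ.pow_eq_one
  have hc := B.cyc_stab hlf hn hζ hφ hφζ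
  -- (a)
  have ha : ∀ σ ∈ Dq v, ∃ i < n, (φ ^ i)⁻¹ * σ ∈ B.stab (Dq v) ζ ∧ psiA ψ σ = i • psiA ψ φ := by
    intro σ hσ
    obtain ⟨i, hi, h1⟩ := hc.gen σ hσ
    refine ⟨i, hi, h1, ?_⟩
    have h2 := (mem_HC ψ).1 (hst h1).2
    rw [psiA_mul, psiA_inv, psiA_pow] at h2
    exact (neg_add_eq_zero.1 h2).symm
  have hφ0 : psiA ψ φ ≠ 0 := by
    intro h0
    apply hle
    intro σ hσ
    obtain ⟨i, -, -, h1⟩ := ha σ hσ
    rw [mem_HC, h1, h0, smul_zero]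
  have hdvd : ∀ i : ℕ, i • psiA ψ φ = 0 → p ∣ i := by
    intro i hi
    rw [nsmul_eq_mul] at hi
    exact (ZMod.natCast_eq_zero_iff i p).1 ((mul_eq_zero.1 hi).resolve_right hφ0)
  obtain ⟨n', rfl⟩ : p ∣ n := by
    apply hdvd
    rw [← psiA_pow]
    exact (mem_HC ψ).1 (hst hc.pow).2
  -- (b)
  obtain ⟨m, hm⟩ := h
  have hv0 : ((v : ℕ) : Qb) ≠ 0 := B.q_ne_zero v
  have hβ' : (β : Qb) ≠ 0 := by exact_mod_cast hβ
  set u : Qb := (β : Qb) * (((v : ℕ) : Qb) ^ ((p : ℤ) * m))⁻¹ with hu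
  have hvm : ∀ (H : Subgroup GQ) (k : ℤ), ((v : ℕ) : Qb) ^ k ∈ B.Fx H := fun H k =>
    zpow_mem (natCast_mem _ _) k
  have huD : u ∈ B.Fx (Dq v) := mul_mem (alQ_rat_mem _ β) (inv_mem (hvm _ _))
  have hu0 : (B.wq v).EQ u 0 := by
    have h1 : (B.wq v).EQ (β : Qb) ((p : ℤ) * m : ℤ) := ⟨hβ', by rw [wq_rat v β hβ, hm]⟩
    have h2 := h1.mul (B.w_q_zpow v ((p : ℤ) * m)).inv
    rwa [add_neg_cancel] at h2
  obtain ⟨y, hy, -, hNy⟩ := B.exists_norm_unit hlf hn hζ hφ hφζ huD hu0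
  set z₀ : Qb := B.Nm (φ ^ p) n' y with hz₀
  have hz₀mem : z₀ ∈ B.Fx (B.stab (Dq v) ζ) :=
    prod_mem fun k _ => by
      rw [← pow_mul]
      exact hc.pow_map_mem hy _
  have hfix : (φ ^ p) z₀ = z₀ := B.apply_Nm (by rw [← pow_mul]; exact hc.pow_apply hy)
  refine Or.inr ⟨φ, hφ, fun h0 => hφ0 ((mem_HC ψ).1 h0), ((v : ℕ) : Qb) ^ m * z₀, ?_, ?_⟩
  · -- (c)
    refine mul_mem (hvm _ _) (B.mem_Fx.2 fun σ hσ => ?_)
    obtain ⟨i, -, h1, h2⟩ := ha σ hσ.1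
    rw [(mem_HC ψ).1 hσ.2] at h2
    obtain ⟨j, rfl⟩ := hdvd i h2.symm
    have h3 := B.mem_Fx.1 hz₀mem _ h1
    rw [AlgEquiv.mul_apply] at h3
    have h4 := congrArg (φ ^ (p * j)) h3
    rw [B.apply_inv_apply, pow_mul, B.pow_apply_of_fixed hfix] at h4
    exact h4
  · rw [B.Nm_mul, hz₀, alQ_Nm_Nm, hNy, B.Nm_of_fixed (B.mem_Fx.1 (hvm (Dq v) m) φ hφ), hu,
      ← zpow_natCast, ← zpow_mul, mul_comm m, mul_comm (β : Qb), ← mul_assoc,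
      mul_inv_cancel₀ (zpow_ne_zero _ hv0), one_mul]

end Fermat.Agent.S55.G.Al
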