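import Fermat.Agent.S55.Dual.Datum
import Fermat.Agent.S55.T.Inst

/-!
# S55 / layer G : functoriality of `H0c`, `H1c`, `H2c`, `res`;  partitions of `G`-sets

Everything here is formal (no arithmetic).
* `H2c_comp`, `H2c_congr`, `H2c_id`, `H2c_add`, `H2c_sum`, `H2c_nsmul`, `res2_H2c` (and the same for `H1c`);
* `Fib c j`, `fibAct π c hc j` : the fibres of a `G`-invariant function `c : Σ → J` as `G`-sets;
* `Orb π`, `orbAct π ω` : the orbits of a `G`-set, as transitive `G`-sets;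
* `prodPerm π π₂` : the product of two `G`-sets;  `ptPerm G` : the one point set.
-/

set_option autoImplicit false

namespace Fermat.Agent.S55.G

section Funct

variable {G : Type*} [Group G] (𝓛 : Lvl G)
variable {A B C : Type*} [AddCommGroup A] [AddCommGroup B] [AddCommGroup C]
  {ρA : G →* AddMonoid.End A} {ρB : G →* AddMonoid.End B} {ρC : G →* AddMonoid.End C}

theorem isHom_comp {φ : A →+ B} {ψ : B →+ C} (hφ : IsHom ρA ρB φ) (hψ : IsHom ρB ρC ψ) :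
    IsHom ρA ρC (ψ.comp φ) := fun g a => by
  rw [AddMonoidHom.comp_apply, hφ g a, hψ g (φ a)]; rfl

theorem isHom_id : IsHom ρA ρA (AddMonoidHom.id A) := fun _ _ => rfl

theorem isHom_zero : IsHom ρA ρB (0 : A →+ B) := fun g a => by simp

theorem isHom_add {φ ψ : A →+ B} (hφ : IsHom ρA ρB φ) (hψ : IsHom ρA ρB ψ) :
    IsHom ρA ρB (φ + ψ) := fun g a => by
  rw [AddMonoidHom.add_apply, hφ g a, hψ g a, AddMonoidHom.add_apply, map_add]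

theorem isHom_sum {ι : Type*} (s : Finset ι) {φ : ι → A →+ B} (hφ : ∀ i, IsHom ρA ρB (φ i)) :
    IsHom ρA ρB (∑ i ∈ s, φ i) := by
  classical
  induction s using Finset.induction_on with
  | empty => simpa using isHom_zero
  | insert i s hi ih => rw [Finset.sum_insert hi]; exact isHom_add (hφ i) ih

theorem isHom_nsmul (n : ℕ) {φ : A →+ B} (hφ : IsHom ρA ρB φ) : IsHom ρA ρB (n • φ) := fun g a => by
  rw [AddMonoidHom.nsmul_apply, hφ g a, AddMonoidHom.nsmul_apply, map_nsmul]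

/-! ### `H2c` -/

theorem H2c_mk {φ : A →+ B} (hφ : IsHom ρA ρB φ) (z : ↥(Z2 𝓛 ρA)) :
    H2c 𝓛 hφ (H2.mk 𝓛 ρA z) = H2.mk 𝓛 ρB (Z2map (LvlMap.id 𝓛) hφ.along z) := rfl

theorem H2c_congr {φ φ' : A →+ B} (h : φ = φ') (hφ : IsHom ρA ρB φ) (hφ' : IsHom ρA ρB φ')
    (x : H2 𝓛 ρA) : H2c 𝓛 hφ x = H2c 𝓛 hφ' x := by
  subst h; rfl

theorem H2c_comp {φ : A →+ B} {ψ : B →+ C} (hφ : IsHom ρA ρB φ) (hψ : IsHom ρB ρC ψ)
    (x : H2 𝓛 ρA) : H2c 𝓛 hψ (H2c 𝓛 hφ x) = H2c 𝓛 (isHom_comp hφ hψ) x := by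
  obtain ⟨z, rfl⟩ := H2.mk_surjective 𝓛 ρA x
  rfl

/-- the most convenient form of functoriality -/
theorem H2c_comp' {φ : A →+ B} {ψ : B →+ C} {θ : A →+ C} (hφ : IsHom ρA ρB φ)
    (hψ : IsHom ρB ρC ψ) (hθ : IsHom ρA ρC θ) (h : ∀ a, ψ (φ a) = θ a) (x : H2 𝓛 ρA) :
    H2c 𝓛 hψ (H2c 𝓛 hφ x) = H2c 𝓛 hθ x := by
  rw [H2c_comp]
  exact H2c_congr 𝓛 (AddMonoidHom.ext h) _ _ x

theorem H2c_id (h : IsHom ρA ρA (AddMonoidHom.id A)) (x : H2 𝓛 ρA) : H2c 𝓛 h x = x := by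
  obtain ⟨z, rfl⟩ := H2.mk_surjective 𝓛 ρA x
  rfl

theorem H2c_zero (h : IsHom ρA ρB (0 : A →+ B)) (x : H2 𝓛 ρA) : H2c 𝓛 h x = 0 := by
  obtain ⟨z, rfl⟩ := H2.mk_surjective 𝓛 ρA x
  rw [H2c_mk, ← map_zero (H2.mk 𝓛 ρB)]
  congr 1

theorem H2c_add {φ ψ : A →+ B} (hφ : IsHom ρA ρB φ) (hψ : IsHom ρA ρB ψ) (x : H2 𝓛 ρA) :
    H2c 𝓛 (isHom_add hφ hψ) x = H2c 𝓛 hφ x + H2c 𝓛 hψ x := by
  obtain ⟨z, rfl⟩ := H2.mk_surjective 𝓛 ρA x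
  rw [H2c_mk, H2c_mk, H2c_mk, ← map_add]
  congr 1

theorem H2c_sum {ι : Type*} (s : Finset ι) {φ : ι → A →+ B} (hφ : ∀ i, IsHom ρA ρB (φ i))
    (x : H2 𝓛 ρA) : H2c 𝓛 (isHom_sum s hφ) x = ∑ i ∈ s, H2c 𝓛 (hφ i) x := by
  classical
  induction s using Finset.induction_on with
  | empty =>
    refine ((H2c_congr 𝓛 (by simp) _ isHom_zero x).trans (H2c_zero 𝓛 _ x)).trans ?_
    simp
  | insert i s hi ih =>
    refine (H2c_congr 𝓛 (Finset.sum_insert hi) _ (isHom_add (hφ i) (isHom_sum s hφ)) x).trans ?_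
    rw [H2c_add 𝓛 (hφ i) (isHom_sum s hφ), ih]
    exact (Finset.sum_insert hi).symm

theorem H2c_nsmul (n : ℕ) {φ : A →+ B} (hφ : IsHom ρA ρB φ) (x : H2 𝓛 ρA) :
    H2c 𝓛 (isHom_nsmul n hφ) x = n • H2c 𝓛 hφ x := by
  obtain ⟨z, rfl⟩ := H2.mk_surjective 𝓛 ρA x
  rw [H2c_mk, H2c_mk, ← map_nsmul]
  congr 1

theorem res2_H2c {H : Type*} [Group H] (r : H →* G) {φ : A →+ B} (hφ : IsHom ρA ρB φ)
    (x : H2 𝓛 ρA) :
    res2 𝓛 ρB r (H2c 𝓛 hφ x) = H2c (𝓛.comap r) (hφ.res r) (res2 𝓛 ρA r x) := by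
  obtain ⟨z, rfl⟩ := H2.mk_surjective 𝓛 ρA x
  rfl

/-- a module killed by `n` has `H²` killed by `n` -/
theorem nsmul_H2_eq_zero (n : ℕ) (hn : ∀ a : A, n • a = 0) (x : H2 𝓛 ρA) : n • x = 0 := by
  have h1 := H2c_nsmul 𝓛 n (isHom_id (ρA := ρA)) x
  rw [H2c_id] at h1
  rw [← h1]
  exact (H2c_congr 𝓛 (AddMonoidHom.ext fun a => by simpa using hn a) _ isHom_zero x).trans
    (H2c_zero 𝓛 _ x)

/-! ### `H1c` -/

theorem H1c_mk {φ : A →+ B} (hφ : IsHom ρA ρB φ) (z : ↥(Z1 𝓛 ρA)) :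
    H1c 𝓛 hφ (H1.mk 𝓛 ρA z) = H1.mk 𝓛 ρB (Z1map (LvlMap.id 𝓛) hφ.along z) := rfl

theorem H1c_congr {φ φ' : A →+ B} (h : φ = φ') (hφ : IsHom ρA ρB φ) (hφ' : IsHom ρA ρB φ')
    (x : H1 𝓛 ρA) : H1c 𝓛 hφ x = H1c 𝓛 hφ' x := by
  subst h; rfl

theorem H1c_comp' {φ : A →+ B} {ψ : B →+ C} {θ : A →+ C} (hφ : IsHom ρA ρB φ)
    (hψ : IsHom ρB ρC ψ) (hθ : IsHom ρA ρC θ) (h : ∀ a, ψ (φ a) = θ a) (x : H1 𝓛 ρA) :
    H1c 𝓛 hψ (H1c 𝓛 hφ x) = H1c 𝓛 hθ x := by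
  obtain rfl : θ = ψ.comp φ := AddMonoidHom.ext fun a => (h a).symm
  obtain ⟨z, rfl⟩ := H1.mk_surjective 𝓛 ρA x
  rfl

theorem H1c_id (h : IsHom ρA ρA (AddMonoidHom.id A)) (x : H1 𝓛 ρA) : H1c 𝓛 h x = x := by
  obtain ⟨z, rfl⟩ := H1.mk_surjective 𝓛 ρA x
  rfl

theorem H1c_nsmul (n : ℕ) {φ : A →+ B} (hφ : IsHom ρA ρB φ) (x : H1 𝓛 ρA) :
    H1c 𝓛 (isHom_nsmul n hφ) x = n • H1c 𝓛 hφ x := by
  obtain ⟨z, rfl⟩ := H1.mk_surjective 𝓛 ρA x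
  rw [H1c_mk, H1c_mk, ← map_nsmul]
  congr 1

theorem res1_H1c {H : Type*} [Group H] (r : H →* G) {φ : A →+ B} (hφ : IsHom ρA ρB φ)
    (x : H1 𝓛 ρA) :
    res1 𝓛 ρB r (H1c 𝓛 hφ x) = H1c (𝓛.comap r) (hφ.res r) (res1 𝓛 ρA r x) := by
  obtain ⟨z, rfl⟩ := H1.mk_surjective 𝓛 ρA x
  rfl

end Funct

end Fermat.Agent.S55.G
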